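import Mathlib
import Fermat.Agent.GJ.FF.PrincipalGen
import Fermat.Agent.GJ.J1.PlaceLattice

/-!
# GATE-K / N7d X3 (helper92): degrees for the symmetric chart `t' = j · j_q`, generic part

`F / K` a function field with a generator (`[IsGen K x]`), `deg (y)_∞ = [F : K(y)]` (helper30,
`FF.PrincipalOf.degree_eq_finrank_of_poles`).

* `finrank_adjoin_pow` : `[F : K(y ^ n)] = n · [F : K(y)]`;
* `finrank_adjoin_mul` : `[F : K(s · u)] = [F : K(s)] + [F : K(u)]` when `s` and `u` have the same
  polar support (`ord_v s < 0 ↔ ord_v u < 0`);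
* `finrank_adjoin_algEquiv` : `[F : K(e s)] = [F : K(s)]` for `e : F ≃ₐ[K] F`.

In the application `s = j`, `u = j_q = W_q j`: `[F_N : ℚ̄(j · j_q)] = 2 ψ(N)`, and on the special
fibre `red (j · j_q) = X^(q+1)` on both components: `f₁' = f₂' = (q+1) ψ(N')`.
-/

set_option autoImplicit false

noncomputable section

open AlgebraicCurve IntermediateField Module

namespace Fermat.Agent.GK.SymDegree

open Fermat.Agent.S24 Fermat.Agent.RRh45 Fermat.Agent.GJ.FF.PrincipalOf

variable {K F : Type*} [Field K] [Field F] [Algebra K F]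

/-- `[F : K(y ^ n)] = n · [F : K(y)]`. -/
theorem finrank_adjoin_pow (x : F) [IsGen K x] {y : F} (hy : Transcendental K y) {n : ℕ}
    (hn : 0 < n) : finrank K⟮y ^ n⟯ F = n * finrank K⟮y⟯ F := by
  have := Fermat.Agent.GJ.FF.finiteResidues (K := K) x
  have hy0 : y ≠ 0 := fun h => hy (h ▸ isAlgebraic_zero)
  have hyn : Transcendental K (y ^ n) := hy.pow hn
  have H := hyp_of_isGen (K := K) x
  have h1 := degree_eq_finrank_of_poles (K := K) x hy
    (poleDivisor H y) (fun v => poleDivisor_apply H y v)
  have h2 := degree_eq_finrank_of_poles (K := K) x hyn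
    (n • poleDivisor H y) (fun v => by
      rw [Finsupp.smul_apply, poleDivisor_apply, Fermat.Agent.GJ.J1.PlaceLattice.ord_pow',
        nsmul_eq_mul]
      have hn' : (0 : ℤ) ≤ n := Int.natCast_nonneg n
      rcases le_total (-(v.ord y)) 0 with h | h
      · rw [max_eq_right h, max_eq_right (by nlinarith), mul_zero]
      · rw [max_eq_left h, max_eq_left (by nlinarith)]
        ring)
  rw [map_nsmul, h1, nsmul_eq_mul] at h2
  exact_mod_cast h2.symm

/-- `[F : K(s · u)] = [F : K(s)] + [F : K(u)]` if `s`, `u` have the same polar support. -/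
theorem finrank_adjoin_mul (x : F) [IsGen K x] {s u : F} (hs : Transcendental K s)
    (hu : Transcendental K u) (hsu : Transcendental K (s * u))
    (hpol : ∀ v : Place K F, v.ord s < 0 ↔ v.ord u < 0) :
    finrank K⟮s * u⟯ F = finrank K⟮s⟯ F + finrank K⟮u⟯ F := by
  have := Fermat.Agent.GJ.FF.finiteResidues (K := K) x
  have hs0 : s ≠ 0 := fun h => hs (h ▸ isAlgebraic_zero)
  have hu0 : u ≠ 0 := fun h => hu (h ▸ isAlgebraic_zero)
  have H := hyp_of_isGen (K := K) x
  have h1 := degree_eq_finrank_of_poles (K := K) x hs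
    (poleDivisor H s) (fun v => poleDivisor_apply H s v)
  have h2 := degree_eq_finrank_of_poles (K := K) x hu
    (poleDivisor H u) (fun v => poleDivisor_apply H u v)
  have h3 := degree_eq_finrank_of_poles (K := K) x hsu
    (poleDivisor H s + poleDivisor H u) (fun v => by
      rw [Finsupp.add_apply, poleDivisor_apply, poleDivisor_apply, v.ord_mul hs0 hu0]
      by_cases h : v.ord s < 0
      · have h' := (hpol v).mp h
        rw [max_eq_left (by omega), max_eq_left (by omega), max_eq_left (by omega)]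
        ring
      · have h' : ¬ v.ord u < 0 := fun hh => h ((hpol v).mpr hh)
        rw [max_eq_right (by omega), max_eq_right (by omega), max_eq_right (by omega)]
        ring)
  rw [map_add, h1, h2] at h3
  exact_mod_cast h3.symm

/-- `[F : K(e s)] = [F : K(s)]` for a `K`-automorphism `e` of `F`. -/
theorem finrank_adjoin_algEquiv (e : F ≃ₐ[K] F) (s : F) :
    finrank K⟮e s⟯ F = finrank K⟮s⟯ F := by
  have hmap : (K⟮s⟯).map (e : F →ₐ[K] F) = K⟮e s⟯ := by
    rw [IntermediateField.adjoin_map, Set.image_singleton]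
    rfl
  let i : K⟮s⟯ ≃+* K⟮e s⟯ :=
    ((IntermediateField.equivMap K⟮s⟯ (e : F →ₐ[K] F)).trans
      (IntermediateField.equivOfEq hmap)).toRingEquiv
  refine (Algebra.finrank_eq_of_equiv_equiv i e.toRingEquiv ?_).symm
  ext z
  rfl

end Fermat.Agent.GK.SymDegree
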