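import Mathlib
import Fermat.Agent.GJ.J1.GenusEq

/-!
# GATE-K / K3-b (helper92): the flatness bound `δ ≤ g − g₁ − g₂ + 1`

ABSTRACT two-valuation setting: one function field `F / K` with TWO reduction data
`R1 : RedData K F k Ft1`, `R2 : RedData K F k Ft2` (in the application: the two Gauss valuations
`w1`, `w2 = w1 ∘ W_q` of `F_N`, `q ∥ N`), and a chart `t` which is a Gauss chart for both, with
M-GAUSS RELATIVE to `Rw₁ ∩ Rw₂` (`RedRegFin2 t`, `RedRegFin2 t⁻¹`: the single-valuation `RedRegFin`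
is FALSE at level `qN'`, helper48 2151 (T2)).  The Riemann theorems of the three fields enter in
HYPOTHESIS form (`RiemannGe`, `RiemannLe`), because the second component is INSEPARABLE over the
chart (`red₂ j = j~^q`, helper48 2151 (T1)): instantiate the residue side with the char-free
`G0Genus.finrank_Lfib_eq_genusRR`, NOT with `G1.finrank_Lfib`.

* `red2Set R1 R2 S`    : pairs `(red₁ x, red₂ x)`, `x ∈ S ∩ Rw₁ ∩ Rw₂`;
* `redBall2 R1 R2 V`   : `k`-span of `red2Set` of a `K`-subspace `V` (reduction of the unit ball of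
  the sup-norm);
* `Btilde R1 R2 t`     : `k`-span (= image) of the reductions of `B = {x | RegFin K t x} ∩ Rw₁ ∩ Rw₂`,
  the coordinate ring of the special fibre;
* `Bprod k t1 t2`      : `B~₁ × B~₂`, the normalisation.

`finrank_add_le` : every finite dimensional `W ≤ B~₁ × B~₂` with `W ⊓ B~ = ⊥` has
`dim W + g₁ + g₂ ≤ g + 1`, from the ONE two-valuation hypothesis
`dim_K V ≤ dim_k redBall2 V` (ORTH for the sup-norm, K1-ABS) and the fundamental inequality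
`f₁ + f₂ ≤ [F : K(t)]`.  `finrank_quotient_add_le`: the quotient form
`dim_k (B~₁ × B~₂) / B~ + g₁ + g₂ ≤ g + 1`.  `finrank_quotient_add_genusRR_le`: the instance with
`g = gLat K t` (generic fibre separable over the chart) and `gᵢ = genusRR k Ftᵢ` (char-free).
-/

set_option autoImplicit false
set_option linter.unusedSectionVars false

noncomputable section

open Module IntermediateField

namespace Fermat.Agent.GK.Flat

open Fermat.Agent.GJ.J1

variable {K F k Ft1 Ft2 : Type*} [Field K] [Field F] [Algebra K F] [Field k]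
  [Field Ft1] [Algebra k Ft1] [Field Ft2] [Algebra k Ft2]

/-- pairs of reductions of the elements of `S ∩ Rw₁ ∩ Rw₂`. -/
def red2Set (R1 : RedData K F k Ft1) (R2 : RedData K F k Ft2) (S : Set F) : Set (Ft1 × Ft2) :=
  {y | ∃ x ∈ S, ∃ (h1 : x ∈ R1.Rw) (h2 : x ∈ R2.Rw), (R1.red ⟨x, h1⟩, R2.red ⟨x, h2⟩) = y}

theorem red2Set_mono (R1 : RedData K F k Ft1) (R2 : RedData K F k Ft2) {S T : Set F}
    (h : S ⊆ T) : red2Set R1 R2 S ⊆ red2Set R1 R2 T := by
  rintro y ⟨x, hx, h1, h2, rfl⟩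
  exact ⟨x, h hx, h1, h2, rfl⟩

/-- reduction of the unit ball (for the sup-norm of the two valuations) of `V`. -/
def redBall2 (R1 : RedData K F k Ft1) (R2 : RedData K F k Ft2) (V : Submodule K F) :
    Submodule k (Ft1 × Ft2) :=
  Submodule.span k (red2Set R1 R2 (V : Set F))

/-- the coordinate ring of the special fibre: reductions of the `x` integral over `K[t]` with
`w₁ x ≥ 0`, `w₂ x ≥ 0`. -/
def Btilde (R1 : RedData K F k Ft1) (R2 : RedData K F k Ft2) (t : F) :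
    Submodule k (Ft1 × Ft2) :=
  Submodule.span k (red2Set R1 R2 {x | RegFin K t x})

/-- `B~₁ × B~₂`. -/
def Bprod (k : Type*) {Ft1 Ft2 : Type*} [Field k] [Field Ft1] [Algebra k Ft1] [Field Ft2]
    [Algebra k Ft2] (t1 : Ft1) (t2 : Ft2) : Submodule k (Ft1 × Ft2) :=
  (G1.Ofin k t1).prod (G1.Ofin k t2)

theorem mem_Bprod {t1 : Ft1} {t2 : Ft2} {y : Ft1 × Ft2} :
    y ∈ Bprod k t1 t2 ↔ RegFin k t1 y.1 ∧ RegFin k t2 y.2 := Iff.rfl

theorem redBall2_mono (R1 : RedData K F k Ft1) (R2 : RedData K F k Ft2) {V V' : Submodule K F}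
    (h : V ≤ V') : redBall2 R1 R2 V ≤ redBall2 R1 R2 V' :=
  Submodule.span_mono (red2Set_mono R1 R2 h)

/-- **M-GAUSS relative to `Rw₁ ∩ Rw₂`**: for `z` with `w₁ z ≥ 0` AND `w₂ z ≥ 0`, integrality over
`K[s]` survives both reductions.  (The single-valuation `RedData.RedRegFin` is false when the Gauss
valuation of `K(s)` has two extensions.) -/
def RedRegFin2 (R1 : RedData K F k Ft1) (R2 : RedData K F k Ft2) (s : F) : Prop :=
  ∀ (hs1 : s ∈ R1.Rw) (hs2 : s ∈ R2.Rw) (z : F) (hz1 : z ∈ R1.Rw) (hz2 : z ∈ R2.Rw),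
    RegFin K s z →
      RegFin k (R1.red ⟨s, hs1⟩) (R1.red ⟨z, hz1⟩) ∧ RegFin k (R2.red ⟨s, hs2⟩) (R2.red ⟨z, hz2⟩)

/-- the single-valuation hypotheses imply the relative one. -/
theorem RedRegFin2.of_redRegFin {R1 : RedData K F k Ft1} {R2 : RedData K F k Ft2} {s : F}
    (h1 : R1.RedRegFin s) (h2 : R2.RedRegFin s) : RedRegFin2 R1 R2 s :=
  fun hs1 hs2 z hz1 hz2 hz => ⟨h1 hs1 z hz1 hz, h2 hs2 z hz2 hz⟩

/-- `B~ ⊆ B~₁ × B~₂`. -/
theorem Btilde_le_Bprod (R1 : RedData K F k Ft1) (R2 : RedData K F k Ft2) {t : F}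
    (ht1 : t ∈ R1.Rw) (ht2 : t ∈ R2.Rw) (hG : RedRegFin2 R1 R2 t) :
    Btilde R1 R2 t ≤ Bprod k (R1.red ⟨t, ht1⟩) (R2.red ⟨t, ht2⟩) := by
  rw [Btilde, Submodule.span_le]
  rintro _ ⟨x, hx, h1, h2, rfl⟩
  exact hG ht1 ht2 x h1 h2 hx

section AlgClosed

variable [IsAlgClosed K]

theorem redBall2_Lfib_le_Btilde (R1 : RedData K F k Ft1) (R2 : RedData K F k Ft2) (t : F)
    (n : ℤ) : redBall2 R1 R2 (Lfib K t n) ≤ Btilde R1 R2 t := by
  refine Submodule.span_mono (red2Set_mono R1 R2 ?_)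
  intro x hx
  exact (G1.mem_Lfib_iff_of_isAlgClosed.mp hx).1

/-- **reduction of the fibre spaces, two-valuation form** (twin of `G0Genus.red_mem_Lfib`). -/
theorem red2_mem_Lfib (R1 : RedData K F k Ft1) (R2 : RedData K F k Ft2) {t : F}
    (ht1 : t ∈ R1.Rw) (ht2 : t ∈ R2.Rw) (hti1 : t⁻¹ ∈ R1.Rw) (hti2 : t⁻¹ ∈ R2.Rw) (ht0 : t ≠ 0)
    (hG : RedRegFin2 R1 R2 t) (hGi : RedRegFin2 R1 R2 t⁻¹) (n : ℕ) {x : F}
    (hx : x ∈ Lfib K t (n : ℤ)) (h1 : x ∈ R1.Rw) (h2 : x ∈ R2.Rw) :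
    R1.red ⟨x, h1⟩ ∈ Lfib k (R1.red ⟨t, ht1⟩) (n : ℤ) ∧
      R2.red ⟨x, h2⟩ ∈ Lfib k (R2.red ⟨t, ht2⟩) (n : ℤ) := by
  obtain ⟨hx1, hx2⟩ := G0Genus.regFin_inv_pow_mul_of_mem_Lfib ht0 hx
  obtain ⟨ha, hb⟩ := hG ht1 ht2 x h1 h2 hx1
  have hz1 : t⁻¹ ^ n * x ∈ R1.Rw := mul_mem (pow_mem hti1 n) h1
  have hz2 : t⁻¹ ^ n * x ∈ R2.Rw := mul_mem (pow_mem hti2 n) h2
  obtain ⟨hc, hd⟩ := hGi hti1 hti2 _ hz1 hz2 hx2
  have hzeq1 : (⟨t⁻¹ ^ n * x, hz1⟩ : R1.Rw) = ⟨t⁻¹, hti1⟩ ^ n * ⟨x, h1⟩ := Subtype.ext (by simp)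
  have hzeq2 : (⟨t⁻¹ ^ n * x, hz2⟩ : R2.Rw) = ⟨t⁻¹, hti2⟩ ^ n * ⟨x, h2⟩ := Subtype.ext (by simp)
  rw [hzeq1, map_mul, map_pow, R1.red_inv ht1 hti1 ht0] at hc
  rw [hzeq2, map_mul, map_pow, R2.red_inv ht2 hti2 ht0] at hd
  refine ⟨?_, ?_⟩
  · rw [mem_Lfib]
    refine ⟨fun c => ?_, ?_⟩
    · have := G1.RegFin.regOver_sub ha c
      simpa using this
    · rw [zpow_natCast]
      exact hc.regOver
  · rw [mem_Lfib]
    refine ⟨fun c => ?_, ?_⟩
    · have := G1.RegFin.regOver_sub hb c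
      simpa using this
    · rw [zpow_natCast]
      exact hd.regOver

theorem redBall2_Lfib_le_prod (R1 : RedData K F k Ft1) (R2 : RedData K F k Ft2) {t : F}
    (ht1 : t ∈ R1.Rw) (ht2 : t ∈ R2.Rw) (hti1 : t⁻¹ ∈ R1.Rw) (hti2 : t⁻¹ ∈ R2.Rw) (ht0 : t ≠ 0)
    (hG : RedRegFin2 R1 R2 t) (hGi : RedRegFin2 R1 R2 t⁻¹) (n : ℕ) :
    redBall2 R1 R2 (Lfib K t (n : ℤ)) ≤
      (Lfib k (R1.red ⟨t, ht1⟩) (n : ℤ)).prod (Lfib k (R2.red ⟨t, ht2⟩) (n : ℤ)) := by
  rw [redBall2, Submodule.span_le]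
  rintro _ ⟨x, hx, h1, h2, rfl⟩
  exact red2_mem_Lfib R1 R2 ht1 ht2 hti1 hti2 ht0 hG hGi n hx h1 h2

end AlgClosed

/-- every function integral over `k[τ]` lies in some `Lfib k τ n`. -/
theorem exists_mem_Lfib_of_regFin [IsAlgClosed k] {Ft : Type*} [Field Ft] [Algebra k Ft] {τ y : Ft}
    (hτ : τ ≠ 0) (hy : RegFin k τ y) : ∃ n : ℕ, y ∈ Lfib k τ (n : ℤ) := by
  obtain ⟨N, hN⟩ := exists_regFin_inv_pow_mul hτ hy
  refine ⟨N, G1.mem_Lfib_iff_of_isAlgClosed.mpr ⟨hy, ?_⟩⟩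
  rw [zpow_natCast]
  exact (hN N le_rfl).regOver

/-- a finite dimensional subspace of `B~₁ × B~₂` lies in some `Lfib × Lfib`. -/
theorem exists_le_Lfib_prod [IsAlgClosed k] {t1 : Ft1} {t2 : Ft2} (h1 : Transcendental k t1)
    (h2 : Transcendental k t2) (W : Submodule k (Ft1 × Ft2)) [FiniteDimensional k W]
    (hW : W ≤ Bprod k t1 t2) :
    ∃ n : ℕ, W ≤ (Lfib k t1 (n : ℤ)).prod (Lfib k t2 (n : ℤ)) := by
  classical
  have ht1 : ∀ c : k, t1 ≠ algebraMap k Ft1 c := G1.ne_algebraMap_of_transcendental h1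
  have ht2 : ∀ c : k, t2 ≠ algebraMap k Ft2 c := G1.ne_algebraMap_of_transcendental h2
  have h10 : t1 ≠ 0 := fun h0 => h1 (h0 ▸ isAlgebraic_zero)
  have h20 : t2 ≠ 0 := fun h0 => h2 (h0 ▸ isAlgebraic_zero)
  have key : ∀ S : Finset (Ft1 × Ft2), (∀ y ∈ S, y ∈ Bprod k t1 t2) →
      ∃ n : ℕ, ∀ y ∈ S, y ∈ (Lfib k t1 (n : ℤ)).prod (Lfib k t2 (n : ℤ)) := by
    intro S
    induction S using Finset.induction_on with
    | empty => exact fun _ => ⟨0, fun y hy => absurd hy (Finset.notMem_empty y)⟩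
    | insert a S _ ih =>
      intro hS
      obtain ⟨n, hn⟩ := ih fun y hy => hS y (Finset.mem_insert_of_mem hy)
      obtain ⟨ha1, ha2⟩ := hS a (Finset.mem_insert_self a S)
      obtain ⟨m1, hm1⟩ := exists_mem_Lfib_of_regFin h10 ha1
      obtain ⟨m2, hm2⟩ := exists_mem_Lfib_of_regFin h20 ha2
      refine ⟨max n (max m1 m2), fun y hy => ?_⟩
      rcases Finset.mem_insert.mp hy with rfl | hy
      · refine ⟨G1.Lfib_mono ht1 ?_ hm1, G1.Lfib_mono ht2 ?_ hm2⟩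
        · exact_mod_cast le_trans (le_max_left m1 m2) (le_max_right n _)
        · exact_mod_cast le_trans (le_max_right m1 m2) (le_max_right n _)
      · obtain ⟨hy1, hy2⟩ := hn y hy
        refine ⟨G1.Lfib_mono ht1 ?_ hy1, G1.Lfib_mono ht2 ?_ hy2⟩
        · exact_mod_cast le_max_left n _
        · exact_mod_cast le_max_left n _
  obtain ⟨S, hS⟩ := (Submodule.fg_iff_finiteDimensional W).mpr inferInstance
  obtain ⟨n, hn⟩ := key S fun y hy => hW (hS ▸ Submodule.subset_span hy)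
  refine ⟨n, ?_⟩
  rw [← hS, Submodule.span_le]
  exact fun y hy => hn y hy

/-- `dim (p × q) ≤ dim p + dim q`. -/
theorem finrank_prod_le {V1 V2 : Type*} [AddCommGroup V1] [Module k V1] [AddCommGroup V2]
    [Module k V2] (p : Submodule k V1) (q : Submodule k V2) [FiniteDimensional k p]
    [FiniteDimensional k q] :
    FiniteDimensional k (p.prod q) ∧ finrank k (p.prod q) ≤ finrank k p + finrank k q := by
  let f : (p.prod q) →ₗ[k] p × q :=
    { toFun := fun x => (⟨x.1.1, x.2.1⟩, ⟨x.1.2, x.2.2⟩)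
      map_add' := fun x y => rfl
      map_smul' := fun c x => rfl }
  have hf : Function.Injective f := by
    intro x y hxy
    have h1 := congrArg (fun z : p × q => (z.1 : V1)) hxy
    have h2 := congrArg (fun z : p × q => (z.2 : V2)) hxy
    exact Subtype.ext (Prod.ext h1 h2)
  have hfd : FiniteDimensional k (p.prod q) := Module.Finite.of_injective f hf
  refine ⟨hfd, ?_⟩
  have := LinearMap.finrank_le_finrank_of_injective hf
  rwa [Module.finrank_prod] at this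

/-! ### Riemann's theorem in hypothesis form -/

/-- `dim Lfib K t n = n N + 1 − g` for all large `n`. -/
def RiemannEq (K : Type*) {F : Type*} [Field K] [Field F] [Algebra K F] (t : F) (N : ℕ) (g : ℤ) :
    Prop :=
  ∃ n0 : ℕ, ∀ n : ℕ, n0 ≤ n → FiniteDimensional K (Lfib K t (n : ℤ)) ∧
    (finrank K (Lfib K t (n : ℤ)) : ℤ) = (n : ℤ) * N + 1 - g

/-- `dim Lfib K t n ≥ n N + 1 − g` for all large `n`. -/
def RiemannGe (K : Type*) {F : Type*} [Field K] [Field F] [Algebra K F] (t : F) (N : ℕ) (g : ℤ) :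
    Prop :=
  ∃ n0 : ℕ, ∀ n : ℕ, n0 ≤ n → FiniteDimensional K (Lfib K t (n : ℤ)) ∧
    (n : ℤ) * N + 1 - g ≤ (finrank K (Lfib K t (n : ℤ)) : ℤ)

/-- `dim Lfib K t n ≤ n N + 1 − g` for all large `n`. -/
def RiemannLe (K : Type*) {F : Type*} [Field K] [Field F] [Algebra K F] (t : F) (N : ℕ) (g : ℤ) :
    Prop :=
  ∃ n0 : ℕ, ∀ n : ℕ, n0 ≤ n → FiniteDimensional K (Lfib K t (n : ℤ)) ∧
    (finrank K (Lfib K t (n : ℤ)) : ℤ) ≤ (n : ℤ) * N + 1 - g

theorem RiemannEq.ge {t : F} {N : ℕ} {g : ℤ} (h : RiemannEq K t N g) : RiemannGe K t N g := by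
  obtain ⟨n0, h⟩ := h
  exact ⟨n0, fun n hn => ⟨(h n hn).1, (h n hn).2.ge⟩⟩

theorem RiemannEq.le {t : F} {N : ℕ} {g : ℤ} (h : RiemannEq K t N g) : RiemannLe K t N g := by
  obtain ⟨n0, h⟩ := h
  exact ⟨n0, fun n hn => ⟨(h n hn).1, (h n hn).2.le⟩⟩

/-- separable chart: `g = gLat K t` (helper83 `G1.finrank_Lfib`). -/
theorem riemannEq_gLat [IsAlgClosed K] (t : F) (ht : Transcendental K t)
    [FiniteDimensional K⟮t⟯ F] [Algebra.IsSeparable K⟮t⟯ F] :
    RiemannEq K t (finrank K⟮t⟯ F) (gLat K t) := by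
  obtain ⟨hfd, -, n0, hn0⟩ := G1.finrank_Lfib (K := K) t ht
  refine ⟨n0.toNat, fun n hn => ⟨hfd _, ?_⟩⟩
  have h1 : n0 ≤ (n : ℤ) := by
    have := Int.self_le_toNat n0
    have h2 : ((n0.toNat : ℕ) : ℤ) ≤ (n : ℤ) := by exact_mod_cast hn
    omega
  have := hn0 (n : ℤ) h1
  linarith

/-- char-free: `g = genusRR K F` (helper48 `G0Genus.finrank_Lfib_eq_genusRR`); this is the form to
use on a residue component which is INSEPARABLE over the chart. -/
theorem riemannEq_genusRR [IsAlgClosed K] [Fermat.Agent.RRh45.FiniteResidues K F]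
    [AlgebraicCurve.HasPrincipalDivisors K F] [Nonempty (AlgebraicCurve.Place K F)] (t : F)
    [Fermat.Agent.S24.IsGen K t] :
    RiemannEq K t (finrank K⟮t⟯ F) (InstGen.genusRR K F) := by
  obtain ⟨n0, hn0⟩ := G0Genus.finrank_Lfib_eq_genusRR (K := K) t
  refine ⟨max n0 (InstGen.genusRR K F).toNat, fun n hn => ?_⟩
  have h1 := hn0 n (le_trans (le_max_left _ _) hn)
  refine ⟨?_, h1⟩
  have hpos : 0 < finrank K⟮t⟯ F := finrank_pos
  have hg : InstGen.genusRR K F ≤ (n : ℤ) := by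
    have := Int.self_le_toNat (InstGen.genusRR K F)
    have h2 : (((InstGen.genusRR K F).toNat : ℕ) : ℤ) ≤ (n : ℤ) := by
      exact_mod_cast le_trans (le_max_right _ _) hn
    omega
  have h3 : (1 : ℤ) ≤ finrank K⟮t⟯ F := by exact_mod_cast hpos
  have h4 : (0 : ℤ) ≤ (n : ℤ) := Int.natCast_nonneg n
  have h5 : (0 : ℤ) < finrank K (Lfib K t (n : ℤ)) := by nlinarith
  exact Module.finite_of_finrank_pos (by exact_mod_cast h5)

section Main

variable [IsAlgClosed K] [IsAlgClosed k]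

/-- **The flatness bound, subspace form.**  `R1`, `R2` two reduction data on the same function
field `F / K`, `t` a common Gauss chart with `t⁻¹ ∈ Rw₁ ∩ Rw₂`, relative M-GAUSS (`RedRegFin2`) in
the charts `t`, `t⁻¹`, the sup-norm ORTH hypothesis `hO`, Riemann on the three fields in hypothesis
form, and the fundamental inequality `hdeg`.  Then every finite dimensional `W ≤ B~₁ × B~₂` meeting
`B~` trivially satisfies `dim W + g₁ + g₂ ≤ g + 1`. -/
theorem finrank_add_le (R1 : RedData K F k Ft1) (R2 : RedData K F k Ft2) {t : F}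
    (ht1 : t ∈ R1.Rw) (ht2 : t ∈ R2.Rw) (hti1 : t⁻¹ ∈ R1.Rw) (hti2 : t⁻¹ ∈ R2.Rw)
    (htr1 : Transcendental k (R1.red ⟨t, ht1⟩)) (htr2 : Transcendental k (R2.red ⟨t, ht2⟩))
    (hG : RedRegFin2 R1 R2 t) (hGi : RedRegFin2 R1 R2 t⁻¹)
    (hO : ∀ V : Submodule K F, FiniteDimensional K V →
      finrank K V ≤ finrank k (redBall2 R1 R2 V))
    {N f1 f2 : ℕ} {g g1 g2 : ℤ} (hK : RiemannGe K t N g)
    (h1 : RiemannLe k (R1.red ⟨t, ht1⟩) f1 g1) (h2 : RiemannLe k (R2.red ⟨t, ht2⟩) f2 g2)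
    (hdeg : f1 + f2 ≤ N)
    (W : Submodule k (Ft1 × Ft2)) [FiniteDimensional k W]
    (hW : W ≤ Bprod k (R1.red ⟨t, ht1⟩) (R2.red ⟨t, ht2⟩))
    (hWB : W ⊓ Btilde R1 R2 t = ⊥) :
    (finrank k W : ℤ) + g1 + g2 ≤ g + 1 := by
  classical
  have htK : Transcendental K t :=
    Fermat.Agent.GJ.S37.ResDeg.RedData.transcendental_of_isGaussChart R1 ⟨ht1, htr1⟩
  have ht0 : t ≠ 0 := fun h0 => htK (h0 ▸ isAlgebraic_zero)
  set τ1 := R1.red ⟨t, ht1⟩ with hτ1
  set τ2 := R2.red ⟨t, ht2⟩ with hτ2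
  obtain ⟨n0, hn0⟩ := hK
  obtain ⟨n1, hn1⟩ := h1
  obtain ⟨n2, hn2⟩ := h2
  obtain ⟨n3, hn3⟩ := exists_le_Lfib_prod htr1 htr2 W hW
  have hτ1c : ∀ c : k, τ1 ≠ algebraMap k Ft1 c := G1.ne_algebraMap_of_transcendental htr1
  have hτ2c : ∀ c : k, τ2 ≠ algebraMap k Ft2 c := G1.ne_algebraMap_of_transcendental htr2
  set n : ℕ := max (max n0 n3) (max n1 n2) with hn
  have hn0' : n0 ≤ n := le_trans (le_max_left _ _) (le_max_left _ _)
  have hn3' : n3 ≤ n := le_trans (le_max_right _ _) (le_max_left _ _)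
  have hn1' : n1 ≤ n := le_trans (le_max_left _ _) (le_max_right _ _)
  have hn2' : n2 ≤ n := le_trans (le_max_right _ _) (le_max_right _ _)
  obtain ⟨hfdK, eK⟩ := hn0 n hn0'
  obtain ⟨hfd1, e1⟩ := hn1 n hn1'
  obtain ⟨hfd2, e2⟩ := hn2 n hn2'
  have hn3'' : ((n3 : ℕ) : ℤ) ≤ (n : ℤ) := by exact_mod_cast hn3'
  set P : Submodule k (Ft1 × Ft2) := (Lfib k τ1 (n : ℤ)).prod (Lfib k τ2 (n : ℤ)) with hP
  obtain ⟨hPfd, hPle⟩ := finrank_prod_le (Lfib k τ1 (n : ℤ)) (Lfib k τ2 (n : ℤ))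
  have hWP : W ≤ P := hn3.trans
    (Submodule.prod_mono (G1.Lfib_mono hτ1c hn3'') (G1.Lfib_mono hτ2c hn3''))
  set M : Submodule k (Ft1 × Ft2) := redBall2 R1 R2 (Lfib K t (n : ℤ)) with hM
  have hMP : M ≤ P := redBall2_Lfib_le_prod R1 R2 ht1 ht2 hti1 hti2 ht0 hG hGi n
  have hMfd : FiniteDimensional k M := Submodule.finiteDimensional_of_le hMP
  have hMB : M ≤ Btilde R1 R2 t := redBall2_Lfib_le_Btilde R1 R2 t (n : ℤ)
  have hdisj : W ⊓ M = ⊥ := by
    refine le_bot_iff.mp ?_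
    rw [← hWB]
    exact inf_le_inf_left W hMB
  have hsum := Submodule.finrank_sup_add_finrank_inf_eq W M
  rw [hdisj, finrank_bot, add_zero] at hsum
  have hsup : finrank k ↥(W ⊔ M) ≤ finrank k P := Submodule.finrank_mono (sup_le hWP hMP)
  have hOn := hO (Lfib K t (n : ℤ)) inferInstance
  have a1 : (finrank k W : ℤ) + finrank K (Lfib K t (n : ℤ)) ≤
      finrank k (Lfib k τ1 (n : ℤ)) + finrank k (Lfib k τ2 (n : ℤ)) := by
    have : finrank k W + finrank K (Lfib K t (n : ℤ)) ≤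
        finrank k (Lfib k τ1 (n : ℤ)) + finrank k (Lfib k τ2 (n : ℤ)) := by
      calc finrank k W + finrank K (Lfib K t (n : ℤ)) ≤ finrank k W + finrank k M :=
            Nat.add_le_add_left hOn _
        _ = finrank k ↥(W ⊔ M) := hsum.symm
        _ ≤ finrank k P := hsup
        _ ≤ _ := hPle
    exact_mod_cast this
  have a2 : ((f1 : ℤ) + f2) ≤ N := by exact_mod_cast hdeg
  have hnn : (0 : ℤ) ≤ (n : ℤ) := Int.natCast_nonneg n
  have a3 : (n : ℤ) * ((f1 : ℤ) + f2) ≤ (n : ℤ) * N := mul_le_mul_of_nonneg_left a2 hnn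
  nlinarith

/-- abstract linear algebra: if every finite dimensional `W ≤ P` with `W ⊓ B = ⊥` has
`dim W ≤ d`, then `P / (B ∩ P)` is finite dimensional of dimension `≤ d`. -/
theorem quotient_finrank_le_of_forall {V : Type*} [AddCommGroup V] [Module k V]
    (P B : Submodule k V) (d : ℕ)
    (h : ∀ W : Submodule k V, FiniteDimensional k W → W ≤ P → W ⊓ B = ⊥ → finrank k W ≤ d) :
    Module.Finite k (↥P ⧸ B.comap P.subtype) ∧ finrank k (↥P ⧸ B.comap P.subtype) ≤ d := by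
  classical
  have hrank : Module.rank k (↥P ⧸ B.comap P.subtype) ≤ (d : Cardinal) := by
    refine rank_le fun s hs => ?_
    choose v hv using fun q : ↥P ⧸ B.comap P.subtype => Submodule.Quotient.mk_surjective _ q
    set u : s → V := fun i => ((v (i : ↥P ⧸ B.comap P.subtype) : ↥P) : V) with hu
    have hmk : ∀ c : s → k, (B.comap P.subtype).mkQ (∑ i, c i • v (i : ↥P ⧸ B.comap P.subtype))
        = ∑ i, c i • (i : ↥P ⧸ B.comap P.subtype) := by
      intro c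
      rw [map_sum]
      refine Finset.sum_congr rfl fun i _ => ?_
      rw [map_smul, Submodule.mkQ_apply, hv]
    have hcoe : ∀ c : s → k, ((∑ i, c i • v (i : ↥P ⧸ B.comap P.subtype) : ↥P) : V)
        = ∑ i, c i • u i := by
      intro c
      rw [Submodule.coe_sum]
      rfl
    have huli : LinearIndependent k u := by
      rw [Fintype.linearIndependent_iff]
      intro c hc i
      have h0 : (∑ i, c i • v (i : ↥P ⧸ B.comap P.subtype) : ↥P) = 0 :=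
        Subtype.ext (by rw [hcoe, hc]; rfl)
      have h1 := hmk c
      rw [h0, map_zero] at h1
      exact (Fintype.linearIndependent_iff.mp hs) c h1.symm i
    set W : Submodule k V := Submodule.span k (Set.range u) with hW
    have hWfd : FiniteDimensional k W := FiniteDimensional.span_of_finite k (Set.finite_range u)
    have hWP : W ≤ P := by
      rw [hW, Submodule.span_le]
      rintro _ ⟨i, rfl⟩
      exact (v (i : ↥P ⧸ B.comap P.subtype)).2
    have hWB : W ⊓ B = ⊥ := by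
      refine (Submodule.eq_bot_iff _).mpr ?_
      rintro x ⟨hxW, hxB⟩
      obtain ⟨c, rfl⟩ := (Submodule.mem_span_range_iff_exists_fun k).mp hxW
      have hmem : (∑ i, c i • v (i : ↥P ⧸ B.comap P.subtype) : ↥P) ∈ B.comap P.subtype := by
        rw [Submodule.mem_comap, Submodule.subtype_apply, hcoe]
        exact hxB
      have h1 := hmk c
      rw [Submodule.mkQ_apply, (Submodule.Quotient.mk_eq_zero _).mpr hmem] at h1
      have hc := (Fintype.linearIndependent_iff.mp hs) c h1.symm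
      exact Finset.sum_eq_zero fun i _ => by rw [hc i, zero_smul]
    have hcard : finrank k W = s.card := by
      rw [hW, finrank_span_eq_card huli, Fintype.card_coe]
    rw [← hcard]
    exact h W hWfd hWP hWB
  have hfin : Module.Finite k (↥P ⧸ B.comap P.subtype) :=
    Module.rank_lt_aleph0_iff.mp (lt_of_le_of_lt hrank (Cardinal.natCast_lt_aleph0))
  refine ⟨hfin, ?_⟩
  have := Module.finrank_eq_rank k (↥P ⧸ B.comap P.subtype)
  rw [← this] at hrank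
  exact_mod_cast hrank

/-- **The flatness bound, quotient form**: `(B~₁ × B~₂) / B~` is a finite dimensional `k`-space
and `δ + g₁ + g₂ ≤ g + 1`. -/
theorem finrank_quotient_add_le (R1 : RedData K F k Ft1) (R2 : RedData K F k Ft2) {t : F}
    (ht1 : t ∈ R1.Rw) (ht2 : t ∈ R2.Rw) (hti1 : t⁻¹ ∈ R1.Rw) (hti2 : t⁻¹ ∈ R2.Rw)
    (htr1 : Transcendental k (R1.red ⟨t, ht1⟩)) (htr2 : Transcendental k (R2.red ⟨t, ht2⟩))
    (hG : RedRegFin2 R1 R2 t) (hGi : RedRegFin2 R1 R2 t⁻¹)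
    (hO : ∀ V : Submodule K F, FiniteDimensional K V →
      finrank K V ≤ finrank k (redBall2 R1 R2 V))
    {N f1 f2 : ℕ} {g g1 g2 : ℤ} (hK : RiemannGe K t N g)
    (h1 : RiemannLe k (R1.red ⟨t, ht1⟩) f1 g1) (h2 : RiemannLe k (R2.red ⟨t, ht2⟩) f2 g2)
    (hdeg : f1 + f2 ≤ N) :
    Module.Finite k (↥(Bprod k (R1.red ⟨t, ht1⟩) (R2.red ⟨t, ht2⟩)) ⧸
        (Btilde R1 R2 t).comap (Bprod k (R1.red ⟨t, ht1⟩) (R2.red ⟨t, ht2⟩)).subtype) ∧
      (finrank k (↥(Bprod k (R1.red ⟨t, ht1⟩) (R2.red ⟨t, ht2⟩)) ⧸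
        (Btilde R1 R2 t).comap (Bprod k (R1.red ⟨t, ht1⟩) (R2.red ⟨t, ht2⟩)).subtype) : ℤ)
        + g1 + g2 ≤ g + 1 := by
  have key := fun (W : Submodule k (Ft1 × Ft2)) (hfd : FiniteDimensional k W)
      (hW : W ≤ Bprod k (R1.red ⟨t, ht1⟩) (R2.red ⟨t, ht2⟩)) (hWB : W ⊓ Btilde R1 R2 t = ⊥) =>
    finrank_add_le R1 R2 ht1 ht2 hti1 hti2 htr1 htr2 hG hGi hO hK h1 h2 hdeg W hW hWB
  have h0 := key ⊥ inferInstance bot_le (bot_inf_eq _)
  rw [finrank_bot, Nat.cast_zero, zero_add] at h0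
  obtain ⟨hfin, hle⟩ := quotient_finrank_le_of_forall
    (Bprod k (R1.red ⟨t, ht1⟩) (R2.red ⟨t, ht2⟩)) (Btilde R1 R2 t)
    (g + 1 - (g1 + g2)).toNat
    (fun W hfd hW hWB => by
      have := key W hfd hW hWB
      omega)
  refine ⟨hfin, ?_⟩
  have h3 : ((g + 1 - (g1 + g2)).toNat : ℤ) = g + 1 - (g1 + g2) := Int.toNat_of_nonneg (by omega)
  have h4 : (finrank k (↥(Bprod k (R1.red ⟨t, ht1⟩) (R2.red ⟨t, ht2⟩)) ⧸
        (Btilde R1 R2 t).comap (Bprod k (R1.red ⟨t, ht1⟩) (R2.red ⟨t, ht2⟩)).subtype) : ℤ)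
      ≤ ((g + 1 - (g1 + g2)).toNat : ℤ) := by exact_mod_cast hle
  omega

end Main

end Fermat.Agent.GK.Flat
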