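import Fermat.Agent.GK.Flat.PencilInf

/-!
# GATE-K / N7d : `hinf` for the symmetric chart `t = j * j_q`, from old functions (helper29)

Assembly, in hypothesis form, of the chart-at-infinity hypothesis `hinf` of helper66's
`PencilInstS.exists_latS_eq` / `PencilInstS2.exists_le_latS` for the `wAut`-symmetric chart
`t = j * j_q` (helper23, board 2332).  `D : BallRed K F k (Ft × Ft)`, `Ft` the residue function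
field (a FIELD here), `Ψ : Ft →ₐ[k] Ft` the relative Frobenius, `jt = j~`.

Inputs (each is ONE statement of another node):

* `hredj : red j = (jt, Ψ jt)`, `hredjq : red j_q = (Ψ jt, jt)` (N6 for `f = j`);
* `hα` / `hβ` (N6 + J1 surjectivity at level `N'` + pole bookkeeping): every `y ∈ L~(m (jt)_∞)`
  is `red₁' f` for a level-`N'` function `f` such that `x = α* f` (resp. `β* f`) lies in the ball,
  `j⁻ᵐ x` (resp. `j_q⁻ᵐ x`) is integral over `K[t⁻¹]`, and `red x = (y, Ψ y)` (resp. `(Ψ y, y)`);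
* `hereg` : `j_q / j ^ q` is integral over `K[t⁻¹]` (K-CUSP element, `red = (1, jt ^ (1 - q²))`);
* `hfin` (finite chart) and `hpole` (helper34 `NodalPole`).

Outputs: `graph_left_mem`, `graph_right_mem` (`h1`, `h2` of `PencilInf.hinf_of_hfin_sigma`),
`cusp_elt` (the K-CUSP element and its identity `e.1 - Ψ e.2 = 1 + c * σ.1`), and
`hinf_sym` : the hypothesis `hinf` itself.
-/

set_option autoImplicit false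

namespace Fermat.Agent.GK.HinfSym

open Fermat.Agent.GJ.J1 Fermat.Agent.GJ.J1.InstRed Fermat.Agent.GK.PencilInstS
open Fermat.Agent.GK.PencilInf

variable {K F k Ft : Type*} [Field K] [Field F] [Algebra K F] [Field k] [Field Ft]
  [Algebra k Ft]

variable (D : BallRed K F k (Ft × Ft))

/-- the reduction of an inverse, componentwise. -/
theorem red_inv_eq {x : F} (hx : x ∈ D.B) (hx0 : x ≠ 0) (hxi : x⁻¹ ∈ D.B) {u v : Ft}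
    (h : D.red ⟨x, hx⟩ = (u, v)) : D.red ⟨x⁻¹, hxi⟩ = (u⁻¹, v⁻¹) := by
  have h1 := red_mul_red_inv D hx hx0 hxi
  rw [h] at h1
  have h2 : u * (D.red ⟨x⁻¹, hxi⟩).1 = 1 := congrArg Prod.fst h1
  have h3 : v * (D.red ⟨x⁻¹, hxi⟩).2 = 1 := congrArg Prod.snd h1
  ext
  · exact eq_inv_of_mul_eq_one_right h2
  · exact eq_inv_of_mul_eq_one_right h3

section Graphs

variable [IsAlgClosed k] (Ψ : Ft →ₐ[k] Ft) {t j : F} {jt : Ft}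

/-- **`h1`/`h2` from old functions, one side.**  `x₀ ∈ B` with `red x₀` invertible, and for every
`m ≥ m0` and `y ∈ L~(m (jt)_∞)` a lift `x ∈ B` of `φ y` (`φ y = (y, Ψ y)` or `(Ψ y, y)`) with
`x₀⁻ᵐ x` integral over `K[t⁻¹]`; if `(red x₀) ^ m * φ a = φ (jt ^ m * a)` then `φ a ∈ B_∞~` for
every `a` integral over `k[jt⁻¹]`. -/
theorem graph_mem_of_lifts_ge (hjt0 : jt ≠ 0) {x₀ : F} (hx₀ : x₀ ∈ D.B) (hx₀0 : x₀ ≠ 0)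
    (hx₀i : x₀⁻¹ ∈ D.B) (φ : Ft → Ft × Ft)
    (hφ : ∀ (m : ℕ) (a : Ft), D.red ⟨x₀, hx₀⟩ ^ m * φ a = φ (jt ^ m * a)) (m0 : ℕ)
    (hlift : ∀ m : ℕ, m0 ≤ m → ∀ y ∈ Lfib k jt (m : ℤ), ∃ x, ∃ hx : x ∈ D.B,
      RegFin K t⁻¹ (x₀⁻¹ ^ m * x) ∧ D.red ⟨x, hx⟩ = φ y)
    {a : Ft} (ha : RegFin k jt⁻¹ a) : φ a ∈ redAlg D t⁻¹ := by
  obtain ⟨M₁, hM⟩ := exists_pow_mul_mem_Lfib_of_regFin_inv hjt0 ha
  set M := max M₁ m0 with hMdef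
  obtain ⟨x, hx, hxr, hxred⟩ := hlift M (le_max_right _ _) _ (hM M (le_max_left _ _))
  refine ⟨x₀⁻¹ ^ M * x, D.B.mul_mem (D.B.pow_mem hx₀i M) hx, hxr, ?_⟩
  have e1 : (⟨x₀⁻¹ ^ M * x, D.B.mul_mem (D.B.pow_mem hx₀i M) hx⟩ : D.B)
      = ⟨x₀⁻¹, hx₀i⟩ ^ M * ⟨x, hx⟩ := rfl
  rw [e1, map_mul, map_pow, hxred, ← hφ M a, ← mul_assoc, ← mul_pow,
    mul_comm (D.red ⟨x₀⁻¹, hx₀i⟩), red_mul_red_inv D hx₀ hx₀0 hx₀i, one_pow, one_mul]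

theorem graph_mem_of_lifts (hjt0 : jt ≠ 0) {x₀ : F} (hx₀ : x₀ ∈ D.B) (hx₀0 : x₀ ≠ 0)
    (hx₀i : x₀⁻¹ ∈ D.B) (φ : Ft → Ft × Ft)
    (hφ : ∀ (m : ℕ) (a : Ft), D.red ⟨x₀, hx₀⟩ ^ m * φ a = φ (jt ^ m * a))
    (hlift : ∀ m : ℕ, ∀ y ∈ Lfib k jt (m : ℤ), ∃ x, ∃ hx : x ∈ D.B,
      RegFin K t⁻¹ (x₀⁻¹ ^ m * x) ∧ D.red ⟨x, hx⟩ = φ y)
    {a : Ft} (ha : RegFin k jt⁻¹ a) : φ a ∈ redAlg D t⁻¹ :=
  graph_mem_of_lifts_ge D hjt0 hx₀ hx₀0 hx₀i φ hφ 0 (fun m _ => hlift m) ha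

/-- **`h1`**: `(a, Ψ a) ∈ B_∞~` for `a` integral over `k[jt⁻¹]`, from the `α`-old lifts. -/
theorem graph_left_mem (hjt0 : jt ≠ 0) (hj : j ∈ D.B) (hj0 : j ≠ 0) (hji : j⁻¹ ∈ D.B)
    (hredj : D.red ⟨j, hj⟩ = (jt, Ψ jt))
    (hα : ∀ m : ℕ, ∀ y ∈ Lfib k jt (m : ℤ), ∃ x, ∃ hx : x ∈ D.B,
      RegFin K t⁻¹ (j⁻¹ ^ m * x) ∧ D.red ⟨x, hx⟩ = (y, Ψ y))
    {a : Ft} (ha : RegFin k jt⁻¹ a) : (a, Ψ a) ∈ redAlg D t⁻¹ := by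
  refine graph_mem_of_lifts D hjt0 hj hj0 hji (fun y => (y, Ψ y)) ?_ hα ha
  intro m a
  rw [hredj]
  ext <;> simp [map_mul, map_pow]

/-- **`h2`**: `(Ψ b, b) ∈ B_∞~` for `b` integral over `k[jt⁻¹]`, from the `β`-old lifts. -/
theorem graph_right_mem {jq : F} (hjt0 : jt ≠ 0) (hjq : jq ∈ D.B) (hjq0 : jq ≠ 0)
    (hjqi : jq⁻¹ ∈ D.B) (hredjq : D.red ⟨jq, hjq⟩ = (Ψ jt, jt))
    (hβ : ∀ m : ℕ, ∀ y ∈ Lfib k jt (m : ℤ), ∃ x, ∃ hx : x ∈ D.B,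
      RegFin K t⁻¹ (jq⁻¹ ^ m * x) ∧ D.red ⟨x, hx⟩ = (Ψ y, y))
    {b : Ft} (hb : RegFin k jt⁻¹ b) : (Ψ b, b) ∈ redAlg D t⁻¹ := by
  refine graph_mem_of_lifts D hjt0 hjq hjq0 hjqi (fun y => (Ψ y, y)) ?_ hβ hb
  intro m a
  rw [hredjq]
  ext <;> simp [map_mul, map_pow]

/-- `graph_left_mem` with lifts only for `m ≥ m0`. -/
theorem graph_left_mem_ge (hjt0 : jt ≠ 0) (hj : j ∈ D.B) (hj0 : j ≠ 0) (hji : j⁻¹ ∈ D.B)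
    (hredj : D.red ⟨j, hj⟩ = (jt, Ψ jt)) (m0 : ℕ)
    (hα : ∀ m : ℕ, m0 ≤ m → ∀ y ∈ Lfib k jt (m : ℤ), ∃ x, ∃ hx : x ∈ D.B,
      RegFin K t⁻¹ (j⁻¹ ^ m * x) ∧ D.red ⟨x, hx⟩ = (y, Ψ y))
    {a : Ft} (ha : RegFin k jt⁻¹ a) : (a, Ψ a) ∈ redAlg D t⁻¹ := by
  refine graph_mem_of_lifts_ge D hjt0 hj hj0 hji (fun y => (y, Ψ y)) ?_ m0 hα ha
  intro m a
  rw [hredj]
  ext <;> simp [map_mul, map_pow]

/-- `graph_right_mem` with lifts only for `m ≥ m0`. -/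
theorem graph_right_mem_ge {jq : F} (hjt0 : jt ≠ 0) (hjq : jq ∈ D.B) (hjq0 : jq ≠ 0)
    (hjqi : jq⁻¹ ∈ D.B) (hredjq : D.red ⟨jq, hjq⟩ = (Ψ jt, jt)) (m0 : ℕ)
    (hβ : ∀ m : ℕ, m0 ≤ m → ∀ y ∈ Lfib k jt (m : ℤ), ∃ x, ∃ hx : x ∈ D.B,
      RegFin K t⁻¹ (jq⁻¹ ^ m * x) ∧ D.red ⟨x, hx⟩ = (Ψ y, y))
    {b : Ft} (hb : RegFin k jt⁻¹ b) : (Ψ b, b) ∈ redAlg D t⁻¹ := by
  refine graph_mem_of_lifts_ge D hjt0 hjq hjq0 hjqi (fun y => (Ψ y, y)) ?_ m0 hβ hb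
  intro m a
  rw [hredjq]
  ext <;> simp [map_mul, map_pow]

end Graphs

/-- the chart at infinity of the fibre: elements integral over `k[jt⁻¹]`. -/
def Cinf (jt : Ft) : Subalgebra k Ft where
  carrier := {a | RegFin k jt⁻¹ a}
  mul_mem' := fun ha hb => RegFin.mul ha hb
  add_mem' := fun ha hb => RegFin.add ha hb
  algebraMap_mem' := fun c => regFin_algebraMap jt⁻¹ c

theorem mem_Cinf {jt a : Ft} : a ∈ Cinf (k := k) jt ↔ RegFin k jt⁻¹ a := Iff.rfl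

theorem inv_mem_Cinf (jt : Ft) : jt⁻¹ ∈ Cinf (k := k) jt := regFin_self _

section Stable

variable (Ψ : Ft →ₐ[k] Ft)

/-- an algebra endomorphism `Ψ` with `Ψ s ∈ k[s]` preserves integrality over `k[s]`. -/
theorem regFin_algHom_of_map_mem {s : Ft} (hs : Ψ s ∈ Algebra.adjoin k {s}) {y : Ft}
    (hy : RegFin k s y) : RegFin k s (Ψ y) := by
  have hmaps : ∀ z : Algebra.adjoin k {s}, Ψ (z : Ft) ∈ Algebra.adjoin k {s} := by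
    rintro ⟨z, hz⟩
    have h1 : Ψ z ∈ (Algebra.adjoin k {s}).map Ψ := ⟨z, hz, rfl⟩
    rw [AlgHom.map_adjoin, Set.image_singleton] at h1
    refine Algebra.adjoin_le ?_ h1
    rintro _ rfl
    exact hs
  let φ : Algebra.adjoin k {s} →+* Algebra.adjoin k {s} :=
    (Ψ.toRingHom.comp (Algebra.adjoin k {s}).val.toRingHom).codRestrict
      (Algebra.adjoin k {s}).toSubring hmaps
  exact IsIntegral.map_of_comp_eq φ Ψ.toRingHom (RingHom.ext fun _ => rfl) hy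

/-- `Ψ jt = jt ^ q` gives the stability of the chart at infinity `Cinf jt` under `Ψ`
(hypothesis `hΨC` of `hinf_sym`). -/
theorem regFin_inv_algHom {jt : Ft} {q : ℕ} (hΨjt : Ψ jt = jt ^ q) {a : Ft}
    (ha : RegFin k jt⁻¹ a) : RegFin k jt⁻¹ (Ψ a) := by
  refine regFin_algHom_of_map_mem Ψ ?_ ha
  rw [map_inv₀, hΨjt, ← inv_pow]
  exact pow_mem (Algebra.self_mem_adjoin_singleton k _) q

end Stable

section Main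

variable [IsAlgClosed k] (Ψ : Ft →ₐ[k] Ft) {j jq : F} {jt : Ft} {q : ℕ}

/-- **`hinf` for the symmetric chart `t = j * j_q`** (old-function lifts only for `m ≥ m0`).  `T` is the fibre-side space of degree `n`
(`T (n0 + 1)`, `n = n0 + 1` in `PencilInstS.exists_latS_eq`). -/
theorem hinf_sym_ge (hq : 2 ≤ q) (hjt0 : jt ≠ 0) (hΨjt : Ψ jt = jt ^ q)
    (hΨC : ∀ a, RegFin k jt⁻¹ a → RegFin k jt⁻¹ (Ψ a))
    (hj : j ∈ D.B) (hj0 : j ≠ 0) (hji : j⁻¹ ∈ D.B)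
    (hjq : jq ∈ D.B) (hjq0 : jq ≠ 0) (hjqi : jq⁻¹ ∈ D.B)
    (hredj : D.red ⟨j, hj⟩ = (jt, Ψ jt)) (hredjq : D.red ⟨jq, hjq⟩ = (Ψ jt, jt))
    (m0 : ℕ)
    (hα : ∀ m : ℕ, m0 ≤ m → ∀ y ∈ Lfib k jt (m : ℤ), ∃ x, ∃ hx : x ∈ D.B,
      RegFin K (j * jq)⁻¹ (j⁻¹ ^ m * x) ∧ D.red ⟨x, hx⟩ = (y, Ψ y))
    (hβ : ∀ m : ℕ, m0 ≤ m → ∀ y ∈ Lfib k jt (m : ℤ), ∃ x, ∃ hx : x ∈ D.B,
      RegFin K (j * jq)⁻¹ (jq⁻¹ ^ m * x) ∧ D.red ⟨x, hx⟩ = (Ψ y, y))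
    (hereg : RegFin K (j * jq)⁻¹ (jq * j⁻¹ ^ q))
    (T : Submodule k (Ft × Ft)) (n : ℕ)
    (hfin : ∀ z ∈ T, ∃ x, ∃ hx : x ∈ D.B, RegFin K (j * jq) x ∧ D.red ⟨x, hx⟩ = z)
    (hpole : ∀ z ∈ T, RegFin k jt⁻¹ ((jt⁻¹) ^ ((1 + q) * n) * z.1) ∧
      RegFin k jt⁻¹ ((jt⁻¹) ^ ((1 + q) * n) * z.2)) :
    ∀ z ∈ T, ∃ y, ∃ hy : y ∈ D.B, RegFin K (j * jq)⁻¹ y ∧
      D.red ⟨j * jq, D.B.mul_mem hj hjq⟩ ^ n * D.red ⟨y, hy⟩ = z := by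
  have ht : j * jq ∈ D.B := D.B.mul_mem hj hjq
  have ht0 : j * jq ≠ 0 := mul_ne_zero hj0 hjq0
  have hti : (j * jq)⁻¹ ∈ D.B := by
    rw [mul_inv]
    exact D.B.mul_mem hji hjqi
  -- `σ = red t⁻¹ = (s ^ (1 + q), s ^ (1 + q))`, `s = jt⁻¹`
  have hredt : D.red ⟨j * jq, ht⟩ = (jt ^ (1 + q), jt ^ (1 + q)) := by
    have : (⟨j * jq, ht⟩ : D.B) = ⟨j, hj⟩ * ⟨jq, hjq⟩ := rfl
    rw [this, map_mul, hredj, hredjq, hΨjt]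
    ext
    · simp [pow_add]
    · simp [pow_add, mul_comm]
  have hσ : D.red ⟨(j * jq)⁻¹, hti⟩ = ((jt⁻¹) ^ (1 + q), (jt⁻¹) ^ (1 + q)) := by
    rw [red_inv_eq D ht ht0 hti hredt, inv_pow]
  have hs : jt⁻¹ ∈ Cinf (k := k) jt := inv_mem_Cinf jt
  -- the K-CUSP element `e = red (j_q / j ^ q) = (1, s ^ (q² - 1))`
  have hemem : jq * j⁻¹ ^ q ∈ D.B := D.B.mul_mem hjq (D.B.pow_mem hji q)
  have hrede : D.red ⟨jq * j⁻¹ ^ q, hemem⟩ = (1, (jt⁻¹) ^ (q ^ 2 - 1)) := by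
    have : (⟨jq * j⁻¹ ^ q, hemem⟩ : D.B) = ⟨jq, hjq⟩ * ⟨j⁻¹, hji⟩ ^ q := rfl
    rw [this, map_mul, map_pow, hredjq, red_inv_eq D hj hj0 hji hredj, hΨjt]
    have hq1 : 1 ≤ q ^ 2 := Nat.one_le_pow _ _ (by omega)
    ext
    · simp only [Prod.fst_mul, Prod.pow_fst]
      rw [inv_pow, mul_inv_cancel₀ (pow_ne_zero q hjt0)]
    · simp only [Prod.snd_mul, Prod.pow_snd]
      have h1 : ((jt ^ q)⁻¹) ^ q = (jt⁻¹) ^ (q ^ 2) := by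
        rw [← inv_pow, ← pow_mul, pow_two]
      have h2 : (jt⁻¹) ^ (q ^ 2) = (jt⁻¹) ^ (q ^ 2 - 1) * jt⁻¹ := by
        rw [← pow_succ]
        congr 1
        omega
      rw [h1, h2, mul_comm, mul_assoc, inv_mul_cancel₀ hjt0, mul_one]
  set e : Ft × Ft := (1, (jt⁻¹) ^ (q ^ 2 - 1)) with he_def
  have he : e ∈ redAlg D (j * jq)⁻¹ := hrede ▸ red_mem_redAlg D hemem hereg
  have he2 : e.2 ∈ Cinf (k := k) jt := (Cinf jt).pow_mem hs _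
  -- `e.1 - Ψ e.2 = 1 + c * σ.1`, `c = - s ^ (q³ - 2q - 1)`
  have hΨs : Ψ jt⁻¹ = (jt⁻¹) ^ q := by rw [map_inv₀, hΨjt, inv_pow]
  have hexp : q * (q ^ 2 - 1) = (q * (q ^ 2 - 1) - (1 + q)) + (1 + q) := by
    have h1 : 1 + q ≤ q * (q ^ 2 - 1) := by
      have h2 : 3 ≤ q ^ 2 - 1 := by
        have : 4 ≤ q ^ 2 := by nlinarith
        omega
      nlinarith
    omega
  have hec : e.1 - Ψ e.2
      = 1 + (-(jt⁻¹) ^ (q * (q ^ 2 - 1) - (1 + q))) * (D.red ⟨(j * jq)⁻¹, hti⟩).1 := by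
    rw [hσ]
    simp only [he_def, map_pow, hΨs]
    rw [← pow_mul, neg_mul, ← pow_add, ← hexp]
    ring
  have hc : -(jt⁻¹) ^ (q * (q ^ 2 - 1) - (1 + q)) ∈ Cinf (k := k) jt :=
    (Cinf jt).neg_mem ((Cinf jt).pow_mem hs _)
  refine hinf_of_hfin_sigma D Ψ ht ht0 hti (Cinf jt) hΨC
    (fun a ha => graph_left_mem_ge D Ψ hjt0 hj hj0 hji hredj m0 hα ha)
    (fun b hb => graph_right_mem_ge D Ψ hjt0 hjq hjq0 hjqi hredjq m0 hβ hb)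
    ?_ ?_ he he2 hc hec T n hfin ?_
  · rw [hσ]; exact (Cinf jt).pow_mem hs _
  · rw [hσ]; exact (Cinf jt).pow_mem hs _
  · intro z hz
    rw [hσ]
    simp only [Prod.fst_mul, Prod.snd_mul, Prod.pow_fst, Prod.pow_snd, ← pow_mul]
    exact hpole z hz

/-- **`hinf` for the symmetric chart `t = j * j_q`.**  `T` is the fibre-side space of degree `n`
(`T (n0 + 1)`, `n = n0 + 1` in `PencilInstS.exists_latS_eq`). -/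
theorem hinf_sym (hq : 2 ≤ q) (hjt0 : jt ≠ 0) (hΨjt : Ψ jt = jt ^ q)
    (hΨC : ∀ a, RegFin k jt⁻¹ a → RegFin k jt⁻¹ (Ψ a))
    (hj : j ∈ D.B) (hj0 : j ≠ 0) (hji : j⁻¹ ∈ D.B)
    (hjq : jq ∈ D.B) (hjq0 : jq ≠ 0) (hjqi : jq⁻¹ ∈ D.B)
    (hredj : D.red ⟨j, hj⟩ = (jt, Ψ jt)) (hredjq : D.red ⟨jq, hjq⟩ = (Ψ jt, jt))
    (hα : ∀ m : ℕ, ∀ y ∈ Lfib k jt (m : ℤ), ∃ x, ∃ hx : x ∈ D.B,
      RegFin K (j * jq)⁻¹ (j⁻¹ ^ m * x) ∧ D.red ⟨x, hx⟩ = (y, Ψ y))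
    (hβ : ∀ m : ℕ, ∀ y ∈ Lfib k jt (m : ℤ), ∃ x, ∃ hx : x ∈ D.B,
      RegFin K (j * jq)⁻¹ (jq⁻¹ ^ m * x) ∧ D.red ⟨x, hx⟩ = (Ψ y, y))
    (hereg : RegFin K (j * jq)⁻¹ (jq * j⁻¹ ^ q))
    (T : Submodule k (Ft × Ft)) (n : ℕ)
    (hfin : ∀ z ∈ T, ∃ x, ∃ hx : x ∈ D.B, RegFin K (j * jq) x ∧ D.red ⟨x, hx⟩ = z)
    (hpole : ∀ z ∈ T, RegFin k jt⁻¹ ((jt⁻¹) ^ ((1 + q) * n) * z.1) ∧
      RegFin k jt⁻¹ ((jt⁻¹) ^ ((1 + q) * n) * z.2)) :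
    ∀ z ∈ T, ∃ y, ∃ hy : y ∈ D.B, RegFin K (j * jq)⁻¹ y ∧
      D.red ⟨j * jq, D.B.mul_mem hj hjq⟩ ^ n * D.red ⟨y, hy⟩ = z :=
  hinf_sym_ge D Ψ hq hjt0 hΨjt hΨC hj hj0 hji hjq hjq0 hjqi hredj hredjq 0
    (fun m _ => hα m) (fun m _ => hβ m) hereg T n hfin hpole

end Main

end Fermat.Agent.GK.HinfSym
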