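/-
GATE-K / N7d-CONCRETE-BALL (helper49): helper66's `BallRed` (the sup-norm unit ball with its
reduction to `F~₁ × F~₂`) built from two compatible J1 reduction data (helper90's `ball2`, `red2`),
and the CONCRETE instance at `F_N`, `q ∥ N`, `A` over `q`, `R₁ = redDataBar N A`,
`R₂ = redData2 N A h` (helper42) together with the primitive facts of helper29's
`HinfSym.hinf_sym` (symmetric chart `t = j * j_q`):

  `j, j⁻¹, j_q, j_q⁻¹ ∈ B`, `red j = (τ, τ^q)`, `red j_q = (τ^q, τ)`,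
  `j_q / j^q` integral over `ℚ̄[(j j_q)⁻¹]`  (the K-CUSP element).
-/
import Fermat.Agent.GK.Flat.HinfSym
import Fermat.Agent.GK.MultiVal.TwoRedData
import Fermat.Agent.GK.CuspSep.JqDiv
import Fermat.Agent.GJ.J1.ResidueAlgClosed

set_option autoImplicit false

noncomputable section

namespace Fermat.Agent.GK.BallTwo

open Fermat.Agent.GJ.J1 Fermat.Agent.GK.MultiVal Fermat.Agent.GK.PencilInstS

/-! ### Abstract: `BallRed` from two compatible reduction data -/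

section Abstract

variable {K F k Ft1 Ft2 : Type*} [Field K] [Field F] [Algebra K F] [Field k]
  [Field Ft1] [Algebra k Ft1] [Field Ft2] [Algebra k Ft2]

variable (R1 : RedData K F k Ft1) (R2 : RedData K F k Ft2) (hc : RedCompat R1 R2)

/-- **the sup-norm unit ball `Rw₁ ⊓ Rw₂` with the pair reduction**, as a `BallRed` -/
def ofTwo : BallRed K F k (Ft1 × Ft2) where
  A := R1.A
  B := ball2 R1 R2
  algebraMap_mem a := mem_ball2.mpr ⟨(R1.mem_A_iff a).1 a.2, (hc.mem_iff₂ a).mpr a.2⟩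
  res := R1.res
  res_surjective := R1.res_surjective
  red := red2 R1 R2
  red_algebraMap a := by
    have ha2 : (a : K) ∈ R2.A := hc.A_eq ▸ a.2
    rw [red2_mk ((R1.mem_A_iff a).1 a.2) ((R2.mem_A_iff a).1 ha2), Prod.algebraMap_apply]
    refine Prod.ext (R1.red_algebraMap a) ?_
    show R2.red ⟨algebraMap K F (a : K), _⟩ = algebraMap k Ft2 (R1.res a)
    rw [hc.res_eq (a : K) a.2 ha2]
    exact R2.red_algebraMap ⟨(a : K), ha2⟩

@[simp] theorem ofTwo_B : (ofTwo R1 R2 hc).B = ball2 R1 R2 := rfl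

@[simp] theorem ofTwo_A : (ofTwo R1 R2 hc).A = R1.A := rfl

variable {R1 R2}

theorem mem_ofTwo_B {x : F} : x ∈ (ofTwo R1 R2 hc).B ↔ x ∈ R1.Rw ∧ x ∈ R2.Rw := mem_ball2

theorem ofTwo_red_mk {x : F} (h1 : x ∈ R1.Rw) (h2 : x ∈ R2.Rw) :
    (ofTwo R1 R2 hc).red ⟨x, (mem_ofTwo_B hc).mpr ⟨h1, h2⟩⟩ = (R1.red ⟨x, h1⟩, R2.red ⟨x, h2⟩) :=
  rfl

/-- membership in the ball from two `IsRed` facts -/
theorem mem_B_of_isRed {x : F} {y1 : Ft1} {y2 : Ft2} (h1 : R1.IsRed x y1) (h2 : R2.IsRed x y2) :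
    x ∈ (ofTwo R1 R2 hc).B := (mem_ofTwo_B hc).mpr ⟨h1.1, h2.1⟩

/-- the pair reduction from two `IsRed` facts (any membership proof) -/
theorem red_eq_of_isRed {x : F} {y1 : Ft1} {y2 : Ft2} (h1 : R1.IsRed x y1) (h2 : R2.IsRed x y2)
    (hx : x ∈ (ofTwo R1 R2 hc).B) : (ofTwo R1 R2 hc).red ⟨x, hx⟩ = (y1, y2) := by
  obtain ⟨h1m, rfl⟩ := h1
  obtain ⟨h2m, rfl⟩ := h2
  rfl

/-- conversely, the components of the pair reduction are the two reductions -/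
theorem isRed_of_red_eq {x : F} {y1 : Ft1} {y2 : Ft2} (hx : x ∈ (ofTwo R1 R2 hc).B)
    (h : (ofTwo R1 R2 hc).red ⟨x, hx⟩ = (y1, y2)) : R1.IsRed x y1 ∧ R2.IsRed x y2 := by
  have hm := (mem_ofTwo_B hc).mp hx
  exact ⟨⟨hm.1, congrArg Prod.fst h⟩, ⟨hm.2, congrArg Prod.snd h⟩⟩

end Abstract

/-! ### Concrete: `F_N`, `q ∥ N` -/

section Concrete

open HahnSeries ModularCurve IsLocalRing AlgebraicCurve
open Fermat.Agent.S24 Fermat.Agent.S24_helper62 Fermat.Agent.GJ.J1.Val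
open Fermat.Agent.GK.AL Fermat.Agent.GK.CuspSep Fermat.Agent.GJ.J1.PlaceLattice

variable {q : ℕ} (N : ℕ) [NeZero N] [NeZero q] (A : ValuationSubring Kbar) (h : ExactDvd q N)

local notation "𝕜" => ResidueField A

/-- the two Gauss reduction data of `F_N` are compatible -/
theorem redCompatFN : RedCompat (redDataBar N A) (redData2 N A h) := ⟨rfl, fun _ _ _ => rfl⟩

/-- **the concrete ball** `Rw₁ ⊓ Rw₂ ⊂ F_N` with `red = (red₁, red₂)` -/
def ballFN : BallRed Kbar (FN N) 𝕜 (FresBar N A × FresBar N A) :=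
  ofTwo (redDataBar N A) (redData2 N A h) (redCompatFN N A h)

theorem mem_ballFN {x : FN N} :
    x ∈ (ballFN N A h).B ↔ x ∈ (redDataBar N A).Rw ∧ x ∈ (redData2 N A h).Rw := mem_ball2

/-- the pair reduction from two `IsRed` facts -/
theorem red_ballFN {x : FN N} {y1 y2 : FresBar N A} (h1 : (redDataBar N A).IsRed x y1)
    (h2 : (redData2 N A h).IsRed x y2) (hx : x ∈ (ballFN N A h).B) :
    (ballFN N A h).red ⟨x, hx⟩ = (y1, y2) :=
  red_eq_of_isRed (redCompatFN N A h) h1 h2 hx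

variable (hA : A.LiesOverPrime q)

include hA

theorem jF_mem_ballFN : jF N ∈ (ballFN N A h).B :=
  mem_B_of_isRed _ (isRed1_jF N A) (isRed2_jF N A h hA)

theorem inv_jF_mem_ballFN : (jF N)⁻¹ ∈ (ballFN N A h).B :=
  mem_B_of_isRed _ (isRed1_inv_jF N A) (isRed2_inv_jF N A h hA)

theorem jq_mem_ballFN : jdF N q h.dvd ∈ (ballFN N A h).B :=
  mem_B_of_isRed _ (isRed1_jq N A h hA) (isRed2_jq N A h)

theorem inv_jq_mem_ballFN : (jdF N q h.dvd)⁻¹ ∈ (ballFN N A h).B := by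
  have h1 := Select.isRed_inv (isRed1_jq N A h hA) (pow_ne_zero q (tauF_ne_zero N A))
  have h2 := Select.isRed_inv (isRed2_jq N A h) (tauF_ne_zero N A)
  exact mem_B_of_isRed _ h1 h2

/-- `red j = (τ, τ^q)` -/
theorem red_jF (hx : jF N ∈ (ballFN N A h).B) :
    (ballFN N A h).red ⟨jF N, hx⟩ = (tauF N A, tauF N A ^ q) :=
  red_ballFN N A h (isRed1_jF N A) (isRed2_jF N A h hA) hx

/-- `red j_q = (τ^q, τ)` -/
theorem red_jq (hx : jdF N q h.dvd ∈ (ballFN N A h).B) :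
    (ballFN N A h).red ⟨jdF N q h.dvd, hx⟩ = (tauF N A ^ q, tauF N A) :=
  red_ballFN N A h (isRed1_jq N A h hA) (isRed2_jq N A h) hx

omit hA

/-! #### the chart at infinity of the symmetric chart `t = j * j_q` -/

theorem jF_ne_zero : jF N ≠ 0 := fun h0 =>
  (isGen_jF N).transcendental (h0 ▸ isAlgebraic_zero)

theorem jq_ne_zero (hqN : q ∣ N) : jdF N q hqN ≠ 0 := fun h0 =>
  transcendental_jdF N q hqN (h0 ▸ isAlgebraic_zero)

/-- `ord (j j_q)⁻¹ ≥ 0` forces `ord j ≤ 0` and `ord j_q ≤ 0` -/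
theorem ord_le_of_ord_symInv (hq : q.Prime) (hqN : q ∣ N) (v : Place Kbar (FN N))
    (hv : 0 ≤ v.ord (jF N * jdF N q hqN)⁻¹) : v.ord (jF N) ≤ 0 ∧ v.ord (jdF N q hqN) ≤ 0 := by
  rw [Place.ord_inv, Place.ord_mul _ (jF_ne_zero N) (jq_ne_zero N hqN)] at hv
  by_cases hj : v.ord (jF N) < 0
  · have := (ord_jq_neg_iff N hq hqN v).mpr hj
    omega
  · rw [not_lt] at hj
    have := ord_jdF_nonneg N q hqN v hj
    omega

/-- **adaptor**: integral over `ℚ̄[1/j]` ⟹ integral over `ℚ̄[1/(j j_q)]` -/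
theorem regFin_symInv_of_inv_jF (hq : q.Prime) (hqN : q ∣ N) {x : FN N}
    (hx : RegFin Kbar (jF N)⁻¹ x) : RegFin Kbar (jF N * jdF N q hqN)⁻¹ x := by
  haveI := isGen_jF N
  rw [regFin_iff_ord (jF N)] at hx ⊢
  intro v hv
  apply hx v
  rw [Place.ord_inv]
  have := (ord_le_of_ord_symInv N hq hqN v hv).1
  omega

/-- **adaptor**: integral over `ℚ̄[1/j_q]` ⟹ integral over `ℚ̄[1/(j j_q)]` -/
theorem regFin_symInv_of_inv_jq (hq : q.Prime) (hqN : q ∣ N) {x : FN N}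
    (hx : RegFin Kbar (jdF N q hqN)⁻¹ x) : RegFin Kbar (jF N * jdF N q hqN)⁻¹ x := by
  haveI := isGen_jF N
  rw [regFin_iff_ord (jF N)] at hx ⊢
  intro v hv
  apply hx v
  rw [Place.ord_inv]
  have := (ord_le_of_ord_symInv N hq hqN v hv).2
  omega

/-- **adaptor, finite chart**: integral over `ℚ̄[j]` ⟺ integral over `ℚ̄[j j_q]` -/
theorem regFin_sym_iff (hq : q.Prime) (hqN : q ∣ N) {x : FN N} :
    RegFin Kbar (jF N * jdF N q hqN) x ↔ RegFin Kbar (jF N) x := by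
  haveI := isGen_jF N
  rw [regFin_iff_ord (jF N), regFin_iff_ord (jF N)]
  have key : ∀ v : Place Kbar (FN N), 0 ≤ v.ord (jF N * jdF N q hqN) ↔ 0 ≤ v.ord (jF N) := by
    intro v
    rw [Place.ord_mul _ (jF_ne_zero N) (jq_ne_zero N hqN)]
    constructor
    · intro hv
      by_contra hj
      rw [not_le] at hj
      have := (ord_jq_neg_iff N hq hqN v).mpr hj
      omega
    · intro hj
      have := ord_jdF_nonneg N q hqN v hj
      omega
  exact ⟨fun hx v hv => hx v ((key v).mpr hv), fun hx v hv => hx v ((key v).mp hv)⟩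

/-- **the K-CUSP element `j_q / j^q` is integral over `ℚ̄[1/(j j_q)]`** (`hereg` of
`HinfSym.hinf_sym`, literal shape) -/
theorem hereg_FN (hq : q.Prime) (hqN : q ∣ N) :
    RegFin Kbar (jF N * jdF N q hqN)⁻¹ (jdF N q hqN * (jF N)⁻¹ ^ q) :=
  regFin_symInv_of_inv_jF N hq hqN (regFin_e0F N hq hqN)

/-! #### `hinf` of the pencil count for the symmetric chart, concrete form -/

/-- **`hinf` for `t = j * j_q` at `F_N`**: helper29's `HinfSym.hinf_sym` with the seven primitive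
facts about `j`, `j_q`, `j_q / j^q` discharged.  What remains: the relative Frobenius `Ψ` of the
residue field (`Ψ τ = τ^q`, stability of the chart at infinity), the `α`- and `β`-old lifts (N6), and
the fibre-side `hfin`, `hpole`. -/
theorem hinf_sym_FN (hA : A.LiesOverPrime q) (Ψ : FresBar N A →ₐ[𝕜] FresBar N A)
    (hΨτ : Ψ (tauF N A) = tauF N A ^ q)
    (hΨC : ∀ a, RegFin 𝕜 (tauF N A)⁻¹ a → RegFin 𝕜 (tauF N A)⁻¹ (Ψ a))
    (hα : ∀ m : ℕ, ∀ y ∈ Lfib 𝕜 (tauF N A) (m : ℤ), ∃ x, ∃ hx : x ∈ (ballFN N A h).B,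
      RegFin Kbar (jF N * jdF N q h.dvd)⁻¹ ((jF N)⁻¹ ^ m * x) ∧
        (ballFN N A h).red ⟨x, hx⟩ = (y, Ψ y))
    (hβ : ∀ m : ℕ, ∀ y ∈ Lfib 𝕜 (tauF N A) (m : ℤ), ∃ x, ∃ hx : x ∈ (ballFN N A h).B,
      RegFin Kbar (jF N * jdF N q h.dvd)⁻¹ ((jdF N q h.dvd)⁻¹ ^ m * x) ∧
        (ballFN N A h).red ⟨x, hx⟩ = (Ψ y, y))
    (T : Submodule 𝕜 (FresBar N A × FresBar N A)) (n : ℕ)
    (hfin : ∀ z ∈ T, ∃ x, ∃ hx : x ∈ (ballFN N A h).B,
      RegFin Kbar (jF N * jdF N q h.dvd) x ∧ (ballFN N A h).red ⟨x, hx⟩ = z)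
    (hpole : ∀ z ∈ T, RegFin 𝕜 (tauF N A)⁻¹ ((tauF N A)⁻¹ ^ ((1 + q) * n) * z.1) ∧
      RegFin 𝕜 (tauF N A)⁻¹ ((tauF N A)⁻¹ ^ ((1 + q) * n) * z.2)) :
    ∀ z ∈ T, ∃ y, ∃ hy : y ∈ (ballFN N A h).B, RegFin Kbar (jF N * jdF N q h.dvd)⁻¹ y ∧
      (ballFN N A h).red ⟨jF N * jdF N q h.dvd, (ballFN N A h).B.mul_mem
        (jF_mem_ballFN N A h hA) (jq_mem_ballFN N A h hA)⟩ ^ n * (ballFN N A h).red ⟨y, hy⟩ = z := by
  haveI : IsAlgClosed 𝕜 := Fermat.Agent.GJ.ResidueAlgClosed.isAlgClosed_residueField A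
  have hredj : (ballFN N A h).red ⟨jF N, jF_mem_ballFN N A h hA⟩ = (tauF N A, Ψ (tauF N A)) := by
    rw [hΨτ]; exact red_jF N A h hA _
  have hredjq : (ballFN N A h).red ⟨jdF N q h.dvd, jq_mem_ballFN N A h hA⟩ =
      (Ψ (tauF N A), tauF N A) := by
    rw [hΨτ]; exact red_jq N A h hA _
  exact Fermat.Agent.GK.HinfSym.hinf_sym (ballFN N A h) Ψ h.prime.two_le (tauF_ne_zero N A) hΨτ hΨC
    (jF_mem_ballFN N A h hA) (jF_ne_zero N) (inv_jF_mem_ballFN N A h hA)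
    (jq_mem_ballFN N A h hA) (jq_ne_zero N h.dvd) (inv_jq_mem_ballFN N A h hA)
    hredj hredjq hα hβ (hereg_FN N h.prime h.dvd) T n hfin hpole

end Concrete

end Fermat.Agent.GK.BallTwo
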