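import Mathlib
import Fermat.Agent.GK.Flat.DeltaLe

/-!
# GATE-K / N7(d) (helper92): the flatness EQUALITY `δ + g₁ + g₂ = g + 1`

Same abstract two-valuation setting as `GK/Flat/DeltaLe.lean`.  Put
`M m := redBall2 R1 R2 (Lfib K t m)`, `P m := Lfib k t~₁ m × Lfib k t~₂ m`, `B~ = ⋃ M m`.
Flatness of the model at the special fibre is `B~ ⊓ P m = M m` for `m` large.

**LIFT-CLOSE** (`inf_prod_eq_redBall2`): if a subspace `𝒢` is
(a) of finite codimension (`B~ ≤ W0 ⊔ 𝒢` for a finite dimensional `W0 ≤ B~`), and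
(b) explicitly liftable with pole control (`𝒢 ⊓ P m ≤ M m` for `m ≥ m0`),
then `B~ ⊓ P m = M m` for all large `m`.  No `H¹`, no transition matrices, no reduced bases, no
analysis at the cusps.

`finrank_quotient_add_eq`: consequently `dim_k (B~₁ × B~₂)/B~ + g₁ + g₂ = g + 1`.
-/

set_option autoImplicit false
set_option linter.unusedSectionVars false

noncomputable section

open Module IntermediateField

namespace Fermat.Agent.GK.Flat

open Fermat.Agent.GJ.J1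

variable {K F k Ft1 Ft2 : Type*} [Field K] [Field F] [Algebra K F] [Field k]
  [Field Ft1] [Algebra k Ft1] [Field Ft2] [Algebra k Ft2]

/-! ### linear algebra -/

/-- a finite dimensional subspace below the union of an increasing chain lies in one member. -/
theorem exists_le_of_le_iSup_mono {V : Type*} [AddCommGroup V] [Module k V]
    (M : ℕ → Submodule k V) (hM : Monotone M) (W : Submodule k V) [FiniteDimensional k W]
    (hW : W ≤ ⨆ n, M n) : ∃ n, W ≤ M n := by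
  classical
  have key : ∀ S : Finset V, (∀ y ∈ S, y ∈ ⨆ n, M n) → ∃ n, ∀ y ∈ S, y ∈ M n := by
    intro S
    induction S using Finset.induction_on with
    | empty => exact fun _ => ⟨0, fun y hy => absurd hy (Finset.notMem_empty y)⟩
    | insert a S _ ih =>
      intro hS
      obtain ⟨n, hn⟩ := ih fun y hy => hS y (Finset.mem_insert_of_mem hy)
      obtain ⟨m, hm⟩ := (Submodule.mem_iSup_of_directed M hM.directed_le).mp
        (hS a (Finset.mem_insert_self a S))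
      refine ⟨max n m, fun y hy => ?_⟩
      rcases Finset.mem_insert.mp hy with rfl | hy
      · exact hM (le_max_right n m) hm
      · exact hM (le_max_left n m) (hn y hy)
  obtain ⟨S, hS⟩ := (Submodule.fg_iff_finiteDimensional W).mpr inferInstance
  obtain ⟨n, hn⟩ := key S fun y hy => hW (hS ▸ Submodule.subset_span hy)
  refine ⟨n, ?_⟩
  rw [← hS, Submodule.span_le]
  exact fun y hy => hn y hy

/-- `dim (p × q) = dim p + dim q`. -/
theorem finrank_prod_eq {V1 V2 : Type*} [AddCommGroup V1] [Module k V1] [AddCommGroup V2]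
    [Module k V2] (p : Submodule k V1) (q : Submodule k V2) [FiniteDimensional k p]
    [FiniteDimensional k q] :
    finrank k (p.prod q) = finrank k p + finrank k q := by
  let f : (p.prod q) →ₗ[k] p × q :=
    { toFun := fun x => (⟨x.1.1, x.2.1⟩, ⟨x.1.2, x.2.2⟩)
      map_add' := fun x y => rfl
      map_smul' := fun c x => rfl }
  have hf : Function.Injective f := by
    intro x y hxy
    have h1 := congrArg (fun z : p × q => (z.1 : V1)) hxy
    have h2 := congrArg (fun z : p × q => (z.2 : V2)) hxy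
    exact Subtype.ext (Prod.ext h1 h2)
  have hs : Function.Surjective f := by
    rintro ⟨a, b⟩
    exact ⟨⟨(a.1, b.1), ⟨a.2, b.2⟩⟩, rfl⟩
  rw [← Module.finrank_prod]
  exact LinearEquiv.finrank_eq (LinearEquiv.ofBijective f ⟨hf, hs⟩)

/-- `dim P ≤ dim (P ⊓ B) + dim Bp/(B ∩ Bp)` for `P ≤ Bp`. -/
theorem finrank_le_finrank_inf_add {V : Type*} [AddCommGroup V] [Module k V]
    (P Bp B : Submodule k V) [FiniteDimensional k P] (hP : P ≤ Bp)
    [Module.Finite k (↥Bp ⧸ B.comap Bp.subtype)] :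
    finrank k P ≤ finrank k ↥(P ⊓ B) + finrank k (↥Bp ⧸ B.comap Bp.subtype) := by
  let φ : P →ₗ[k] (↥Bp ⧸ B.comap Bp.subtype) :=
    (B.comap Bp.subtype).mkQ.comp (Submodule.inclusion hP)
  have h1 := LinearMap.finrank_range_add_finrank_ker φ
  have h2 : finrank k (LinearMap.range φ) ≤ finrank k (↥Bp ⧸ B.comap Bp.subtype) :=
    Submodule.finrank_le _
  -- the kernel embeds into `P ⊓ B`
  let ψ : LinearMap.ker φ →ₗ[k] ↥(P ⊓ B) :=
    { toFun := fun x => ⟨(x : P), ⟨(x : P).2, by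
        have hx : φ (x : P) = 0 := x.2
        have : (Submodule.inclusion hP (x : P)) ∈ B.comap Bp.subtype :=
          (Submodule.Quotient.mk_eq_zero _).mp hx
        exact this⟩⟩
      map_add' := fun x y => rfl
      map_smul' := fun c x => rfl }
  have hψ : Function.Injective ψ := by
    intro x y hxy
    have := congrArg (fun z : ↥(P ⊓ B) => (z : V)) hxy
    exact Subtype.ext (Subtype.ext this)
  have h3 := LinearMap.finrank_le_finrank_of_injective hψ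
  omega

/-- if `Bp/(𝒢 ∩ Bp)` is finite dimensional and `B ≤ Bp`, then `B ≤ W0 ⊔ 𝒢` for a finite
dimensional `W0 ≤ B` (hypothesis (a) of LIFT-CLOSE from finite codimension). -/
theorem exists_finiteDimensional_sup {V : Type*} [AddCommGroup V] [Module k V]
    (B 𝒢 Bp : Submodule k V) (hB : B ≤ Bp) [Module.Finite k (↥Bp ⧸ 𝒢.comap Bp.subtype)] :
    ∃ W0 : Submodule k V, FiniteDimensional k W0 ∧ W0 ≤ B ∧ B ≤ W0 ⊔ 𝒢 := by
  let φ : B →ₗ[k] (↥Bp ⧸ 𝒢.comap Bp.subtype) :=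
    (𝒢.comap Bp.subtype).mkQ.comp (Submodule.inclusion hB)
  obtain ⟨W', hW'⟩ := Submodule.exists_isCompl (LinearMap.ker φ)
  have e : W' ≃ₗ[k] LinearMap.range φ :=
    (Submodule.quotientEquivOfIsCompl _ _ hW').symm.trans φ.quotKerEquivRange
  have hfd : FiniteDimensional k W' := LinearEquiv.finiteDimensional e.symm
  refine ⟨W'.map B.subtype, inferInstance, ?_, ?_⟩
  · rintro _ ⟨w, -, rfl⟩
    exact w.2
  · intro y hy
    have htop : (⟨y, hy⟩ : B) ∈ LinearMap.ker φ ⊔ W' := by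
      rw [hW'.sup_eq_top]; trivial
    obtain ⟨a, ha, w, hw, hsum⟩ := Submodule.mem_sup.mp htop
    have hya : y = (a : V) + (w : V) := by
      have := congrArg (fun z : B => (z : V)) hsum
      simpa using this.symm
    rw [hya, add_comm]
    refine Submodule.add_mem_sup (Submodule.mem_map_of_mem hw) ?_
    have h0 : φ a = 0 := ha
    have : (Submodule.inclusion hB a) ∈ 𝒢.comap Bp.subtype :=
      (Submodule.Quotient.mk_eq_zero _).mp h0
    exact this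

/-! ### `redBall2` is the set of reductions, and `dim redBall2 V ≤ dim V` -/

section Compat

variable (R1 : RedData K F k Ft1) (R2 : RedData K F k Ft2)

/-- the two reduction data live over the same base `(A, res)`. -/
structure BaseCompat : Prop where
  mem_iff : ∀ a : K, a ∈ R1.A ↔ a ∈ R2.A
  res_eq : ∀ (a : K) (h1 : a ∈ R1.A) (h2 : a ∈ R2.A), R1.res ⟨a, h1⟩ = R2.res ⟨a, h2⟩

variable {R1 R2}

/-- the pairs of reductions of `V ∩ Rw₁ ∩ Rw₂` already form a `k`-subspace. -/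
theorem mem_redBall2_iff (hc : BaseCompat R1 R2) (V : Submodule K F) (y : Ft1 × Ft2) :
    y ∈ redBall2 R1 R2 V ↔ y ∈ red2Set R1 R2 (V : Set F) := by
  refine ⟨fun hy => ?_, fun hy => Submodule.subset_span hy⟩
  induction hy using Submodule.span_induction with
  | mem y hy => exact hy
  | zero =>
    refine ⟨0, V.zero_mem, R1.Rw.zero_mem, R2.Rw.zero_mem, ?_⟩
    have e1 : (⟨0, R1.Rw.zero_mem⟩ : R1.Rw) = 0 := rfl
    have e2 : (⟨0, R2.Rw.zero_mem⟩ : R2.Rw) = 0 := rfl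
    rw [e1, e2, map_zero, map_zero]
    rfl
  | add y z _ _ hy hz =>
    obtain ⟨x, hx, h1, h2, rfl⟩ := hy
    obtain ⟨x', hx', h1', h2', rfl⟩ := hz
    refine ⟨x + x', V.add_mem hx hx', R1.Rw.add_mem _ _ h1 h1', R2.Rw.add_mem _ _ h2 h2', ?_⟩
    have e1 : (⟨x + x', R1.Rw.add_mem _ _ h1 h1'⟩ : R1.Rw) = ⟨x, h1⟩ + ⟨x', h1'⟩ := rfl
    have e2 : (⟨x + x', R2.Rw.add_mem _ _ h2 h2'⟩ : R2.Rw) = ⟨x, h2⟩ + ⟨x', h2'⟩ := rfl
    rw [e1, e2, map_add, map_add]
    rfl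
  | smul c y _ hy =>
    obtain ⟨x, hx, h1, h2, rfl⟩ := hy
    obtain ⟨a, rfl⟩ := R1.res_surjective c
    have ha2 : (a : K) ∈ R2.A := (hc.mem_iff _).mp a.2
    have m1 : algebraMap K F (a : K) ∈ R1.Rw := (R1.mem_A_iff _).mp a.2
    have m2 : algebraMap K F (a : K) ∈ R2.Rw := (R2.mem_A_iff _).mp ha2
    refine ⟨(a : K) • x, V.smul_mem _ hx, ?_, ?_, ?_⟩
    · rw [Algebra.smul_def]; exact R1.Rw.mul_mem _ _ m1 h1
    · rw [Algebra.smul_def]; exact R2.Rw.mul_mem _ _ m2 h2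
    · have e1 : (⟨(a : K) • x, by rw [Algebra.smul_def]; exact R1.Rw.mul_mem _ _ m1 h1⟩ : R1.Rw)
          = ⟨algebraMap K F (a : K), m1⟩ * ⟨x, h1⟩ := Subtype.ext (Algebra.smul_def _ _)
      have e2 : (⟨(a : K) • x, by rw [Algebra.smul_def]; exact R2.Rw.mul_mem _ _ m2 h2⟩ : R2.Rw)
          = ⟨algebraMap K F (a : K), m2⟩ * ⟨x, h2⟩ := Subtype.ext (Algebra.smul_def _ _)
      rw [e1, e2, map_mul, map_mul, R1.red_algebraMap a, R2.red_algebraMap ⟨(a : K), ha2⟩,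
        ← hc.res_eq (a : K) a.2 ha2, Prod.smul_mk, Algebra.smul_def, Algebra.smul_def]

/-- elements whose pairs of reductions are `k`-independent are `K`-independent. -/
theorem linearIndependent_of_red2 (hc : BaseCompat R1 R2) {ι : Type*} [Fintype ι] (x : ι → F)
    (h1 : ∀ i, x i ∈ R1.Rw) (h2 : ∀ i, x i ∈ R2.Rw)
    (hy : LinearIndependent k fun i =>
      ((R1.red ⟨x i, h1 i⟩, R2.red ⟨x i, h2 i⟩) : Ft1 × Ft2)) :
    LinearIndependent K x := by
  classical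
  rw [Fintype.linearIndependent_iff]
  intro c hsum
  by_contra hne
  push Not at hne
  obtain ⟨i0, hi0⟩ := hne
  obtain ⟨j0, -, hmax⟩ := Finset.exists_max_image Finset.univ (fun j => R1.A.valuation (c j))
    ⟨i0, Finset.mem_univ i0⟩
  have hj0 : c j0 ≠ 0 := by
    intro h0
    have h3 := hmax i0 (Finset.mem_univ i0)
    rw [h0, map_zero] at h3
    exact hi0 ((map_eq_zero _).mp (le_antisymm h3 zero_le))
  have hv0 : R1.A.valuation (c j0) ≠ 0 := (map_ne_zero _).mpr hj0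
  -- the normalised coefficients
  have haA : ∀ j, c j / c j0 ∈ R1.A := by
    intro j
    rw [← ValuationSubring.valuation_le_one_iff, map_div₀]
    exact div_le_one_of_le₀ (hmax j (Finset.mem_univ j)) zero_le
  have haA2 : ∀ j, c j / c j0 ∈ R2.A := fun j => (hc.mem_iff _).mp (haA j)
  have hsum' : ∑ j, (c j / c j0) • x j = 0 := by
    have : ∑ j, (c j / c j0) • x j = (c j0)⁻¹ • ∑ j, c j • x j := by
      rw [Finset.smul_sum]
      refine Finset.sum_congr rfl fun j _ => ?_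
      rw [smul_smul, div_eq_inv_mul]
    rw [this, hsum, smul_zero]
  have m1 : ∀ j, algebraMap K F (c j / c j0) ∈ R1.Rw := fun j => (R1.mem_A_iff _).mp (haA j)
  have m2 : ∀ j, algebraMap K F (c j / c j0) ∈ R2.Rw := fun j => (R2.mem_A_iff _).mp (haA2 j)
  -- reduce in both components
  have r1 : ∑ j, R1.res ⟨c j / c j0, haA j⟩ • R1.red ⟨x j, h1 j⟩ = 0 := by
    have hz : (∑ j, (⟨algebraMap K F (c j / c j0), m1 j⟩ : R1.Rw) * ⟨x j, h1 j⟩) = 0 := by
      apply Subtype.ext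
      rw [AddSubmonoidClass.coe_finsetSum]
      simp only [MulMemClass.coe_mul, ZeroMemClass.coe_zero]
      rw [← hsum']
      exact Finset.sum_congr rfl fun j _ => (Algebra.smul_def _ _).symm
    have := congrArg R1.red hz
    rw [map_sum, map_zero] at this
    rw [← this]
    refine Finset.sum_congr rfl fun j _ => ?_
    rw [map_mul, R1.red_algebraMap ⟨c j / c j0, haA j⟩, Algebra.smul_def]
  have r2 : ∑ j, R1.res ⟨c j / c j0, haA j⟩ • R2.red ⟨x j, h2 j⟩ = 0 := by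
    have hz : (∑ j, (⟨algebraMap K F (c j / c j0), m2 j⟩ : R2.Rw) * ⟨x j, h2 j⟩) = 0 := by
      apply Subtype.ext
      rw [AddSubmonoidClass.coe_finsetSum]
      simp only [MulMemClass.coe_mul, ZeroMemClass.coe_zero]
      rw [← hsum']
      exact Finset.sum_congr rfl fun j _ => (Algebra.smul_def _ _).symm
    have := congrArg R2.red hz
    rw [map_sum, map_zero] at this
    rw [← this]
    refine Finset.sum_congr rfl fun j _ => ?_
    rw [map_mul, R2.red_algebraMap ⟨c j / c j0, haA2 j⟩, Algebra.smul_def,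
      hc.res_eq _ (haA j) (haA2 j)]
  have hpair : ∑ j, R1.res ⟨c j / c j0, haA j⟩ •
      ((R1.red ⟨x j, h1 j⟩, R2.red ⟨x j, h2 j⟩) : Ft1 × Ft2) = 0 := by
    apply Prod.ext
    · rw [Prod.fst_sum]
      simpa using r1
    · rw [Prod.snd_sum]
      simpa using r2
  have h0 := (Fintype.linearIndependent_iff.mp hy) _ hpair j0
  have h1' : (⟨c j0 / c j0, haA j0⟩ : R1.A) = 1 := Subtype.ext (div_self hj0)
  rw [h1', map_one] at h0
  exact one_ne_zero h0

/-- **the easy half of ORTH2-dim**: `dim_k redBall2 V ≤ dim_K V`. -/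
theorem finrank_redBall2_le (hc : BaseCompat R1 R2) (V : Submodule K F) [FiniteDimensional K V] :
    finrank k (redBall2 R1 R2 V) ≤ finrank K V := by
  classical
  by_cases hfd : FiniteDimensional k (redBall2 R1 R2 V)
  · let b := Module.finBasis k (redBall2 R1 R2 V)
    have hmem : ∀ i, ((b i : redBall2 R1 R2 V) : Ft1 × Ft2) ∈ red2Set R1 R2 (V : Set F) :=
      fun i => (mem_redBall2_iff hc V _).mp (b i).2
    choose x hxV h1 h2 hx using hmem
    have hli : LinearIndependent k fun i =>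
        ((R1.red ⟨x i, h1 i⟩, R2.red ⟨x i, h2 i⟩) : Ft1 × Ft2) := by
      have := b.linearIndependent.map' (redBall2 R1 R2 V).subtype (Submodule.ker_subtype _)
      have hfun : (fun i => ((R1.red ⟨x i, h1 i⟩, R2.red ⟨x i, h2 i⟩) : Ft1 × Ft2))
          = ⇑(redBall2 R1 R2 V).subtype ∘ ⇑b := funext fun i => hx i
      rw [hfun]
      exact this
    have hK := linearIndependent_of_red2 hc x h1 h2 hli
    have hK' : LinearIndependent K fun i => (⟨x i, hxV i⟩ : V) := by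
      apply LinearIndependent.of_comp V.subtype
      exact hK
    have := hK'.fintype_card_le_finrank
    simpa using this
  · rw [Module.finrank_of_not_finite hfd]
    exact Nat.zero_le _

end Compat

/-! ### LIFT-CLOSE -/

section LiftClose

variable [IsAlgClosed K]

theorem redBall2_Lfib_monotone (R1 : RedData K F k Ft1) (R2 : RedData K F k Ft2) {t : F}
    (htK : Transcendental K t) :
    Monotone fun n : ℕ => redBall2 R1 R2 (Lfib K t (n : ℤ)) := by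
  intro m n hmn
  exact redBall2_mono R1 R2
    (G1.Lfib_mono (G1.ne_algebraMap_of_transcendental htK) (by exact_mod_cast hmn))

/-- `B~ = ⋃ M m`. -/
theorem Btilde_le_iSup (R1 : RedData K F k Ft1) (R2 : RedData K F k Ft2) {t : F} (ht0 : t ≠ 0) :
    Btilde R1 R2 t ≤ ⨆ n : ℕ, redBall2 R1 R2 (Lfib K t (n : ℤ)) := by
  rw [Btilde, Submodule.span_le]
  rintro _ ⟨x, hx, h1, h2, rfl⟩
  obtain ⟨n, hn⟩ := exists_mem_Lfib_of_regFin ht0 hx
  exact (le_iSup (fun n : ℕ => redBall2 R1 R2 (Lfib K t (n : ℤ))) n)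
    (Submodule.subset_span ⟨x, hn, h1, h2, rfl⟩)

variable [IsAlgClosed k]

/-- **LIFT-CLOSE.**  `𝒢` of finite codimension in `B~` (witnessed by a finite dimensional
`W0 ≤ B~` with `B~ ≤ W0 ⊔ 𝒢`) and liftable with pole control (`𝒢 ⊓ P m ≤ M m` for `m ≥ m0`)
⟹ `B~ ⊓ P m = M m` for all large `m`: the special fibre of the model is FLAT at level `m`. -/
theorem inf_prod_eq_redBall2 (R1 : RedData K F k Ft1) (R2 : RedData K F k Ft2) {t : F}
    (ht1 : t ∈ R1.Rw) (ht2 : t ∈ R2.Rw) (hti1 : t⁻¹ ∈ R1.Rw) (hti2 : t⁻¹ ∈ R2.Rw)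
    (htK : Transcendental K t)
    (hG : RedRegFin2 R1 R2 t) (hGi : RedRegFin2 R1 R2 t⁻¹)
    (𝒢 W0 : Submodule k (Ft1 × Ft2)) [FiniteDimensional k W0] (hW0 : W0 ≤ Btilde R1 R2 t)
    (hcov : Btilde R1 R2 t ≤ W0 ⊔ 𝒢)
    (hlift : ∃ m0 : ℕ, ∀ m : ℕ, m0 ≤ m →
      𝒢 ⊓ (Lfib k (R1.red ⟨t, ht1⟩) (m : ℤ)).prod (Lfib k (R2.red ⟨t, ht2⟩) (m : ℤ))
        ≤ redBall2 R1 R2 (Lfib K t (m : ℤ))) :
    ∃ m1 : ℕ, ∀ m : ℕ, m1 ≤ m →
      Btilde R1 R2 t ⊓ (Lfib k (R1.red ⟨t, ht1⟩) (m : ℤ)).prod (Lfib k (R2.red ⟨t, ht2⟩) (m : ℤ))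
        = redBall2 R1 R2 (Lfib K t (m : ℤ)) := by
  have ht0 : t ≠ 0 := fun h0 => htK (h0 ▸ isAlgebraic_zero)
  have hmono := redBall2_Lfib_monotone R1 R2 htK
  obtain ⟨mstar, hmstar⟩ := exists_le_of_le_iSup_mono _ hmono W0
    (hW0.trans (Btilde_le_iSup R1 R2 ht0))
  obtain ⟨m0, hm0⟩ := hlift
  refine ⟨max mstar m0, fun m hm => le_antisymm ?_ ?_⟩
  · rintro y ⟨hyB, hyP⟩
    obtain ⟨w, hw, g', hg', rfl⟩ := Submodule.mem_sup.mp (hcov hyB)
    have hwM : w ∈ redBall2 R1 R2 (Lfib K t (m : ℤ)) :=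
      hmono (le_trans (le_max_left _ _) hm) (hmstar hw)
    have hwP := redBall2_Lfib_le_prod R1 R2 ht1 ht2 hti1 hti2 ht0 hG hGi m hwM
    have hgP : g' ∈ (Lfib k (R1.red ⟨t, ht1⟩) (m : ℤ)).prod
        (Lfib k (R2.red ⟨t, ht2⟩) (m : ℤ)) := by
      have := Submodule.sub_mem _ hyP hwP
      rwa [add_sub_cancel_left] at this
    exact Submodule.add_mem _ hwM (hm0 m (le_trans (le_max_right _ _) hm) ⟨hg', hgP⟩)
  · exact le_inf (redBall2_Lfib_le_Btilde R1 R2 t (m : ℤ))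
      (redBall2_Lfib_le_prod R1 R2 ht1 ht2 hti1 hti2 ht0 hG hGi m)

theorem Lfib_prod_le_Bprod {t1 : Ft1} {t2 : Ft2} (m : ℤ) :
    (Lfib k t1 m).prod (Lfib k t2 m) ≤ Bprod k t1 t2 := by
  rintro y ⟨h1, h2⟩
  exact ⟨(G1.mem_Lfib_iff_of_isAlgClosed.mp h1).1, (G1.mem_Lfib_iff_of_isAlgClosed.mp h2).1⟩

/-- **The flatness equality** `δ + g₁ + g₂ = g + 1`, `δ = dim_k (B~₁ × B~₂)/B~`, from ORTH2-dim
(both halves; the half `hO'` is `finrank_redBall2_le` under `BaseCompat`), Riemann's theorem on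
the three fields, the fundamental EQUALITY `f₁ + f₂ = N`, and a LIFT-CLOSE subspace `𝒢`. -/
theorem finrank_quotient_add_eq (R1 : RedData K F k Ft1) (R2 : RedData K F k Ft2) {t : F}
    (ht1 : t ∈ R1.Rw) (ht2 : t ∈ R2.Rw) (hti1 : t⁻¹ ∈ R1.Rw) (hti2 : t⁻¹ ∈ R2.Rw)
    (htr1 : Transcendental k (R1.red ⟨t, ht1⟩)) (htr2 : Transcendental k (R2.red ⟨t, ht2⟩))
    (hG : RedRegFin2 R1 R2 t) (hGi : RedRegFin2 R1 R2 t⁻¹)
    (hO : ∀ V : Submodule K F, FiniteDimensional K V →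
      finrank K V ≤ finrank k (redBall2 R1 R2 V))
    (hO' : ∀ V : Submodule K F, FiniteDimensional K V →
      finrank k (redBall2 R1 R2 V) ≤ finrank K V)
    {N f1 f2 : ℕ} {g g1 g2 : ℤ} (hK : RiemannEq K t N g)
    (h1 : RiemannEq k (R1.red ⟨t, ht1⟩) f1 g1) (h2 : RiemannEq k (R2.red ⟨t, ht2⟩) f2 g2)
    (hdeg : f1 + f2 = N)
    (𝒢 W0 : Submodule k (Ft1 × Ft2)) [FiniteDimensional k W0] (hW0 : W0 ≤ Btilde R1 R2 t)
    (hcov : Btilde R1 R2 t ≤ W0 ⊔ 𝒢)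
    (hlift : ∃ m0 : ℕ, ∀ m : ℕ, m0 ≤ m →
      𝒢 ⊓ (Lfib k (R1.red ⟨t, ht1⟩) (m : ℤ)).prod (Lfib k (R2.red ⟨t, ht2⟩) (m : ℤ))
        ≤ redBall2 R1 R2 (Lfib K t (m : ℤ))) :
    Module.Finite k (↥(Bprod k (R1.red ⟨t, ht1⟩) (R2.red ⟨t, ht2⟩)) ⧸
        (Btilde R1 R2 t).comap (Bprod k (R1.red ⟨t, ht1⟩) (R2.red ⟨t, ht2⟩)).subtype) ∧
      (finrank k (↥(Bprod k (R1.red ⟨t, ht1⟩) (R2.red ⟨t, ht2⟩)) ⧸
        (Btilde R1 R2 t).comap (Bprod k (R1.red ⟨t, ht1⟩) (R2.red ⟨t, ht2⟩)).subtype) : ℤ)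
        + g1 + g2 = g + 1 := by
  classical
  have htK : Transcendental K t :=
    Fermat.Agent.GJ.S37.ResDeg.RedData.transcendental_of_isGaussChart R1 ⟨ht1, htr1⟩
  obtain ⟨hfin, hle⟩ := finrank_quotient_add_le R1 R2 ht1 ht2 hti1 hti2 htr1 htr2 hG hGi hO
    hK.ge h1.le h2.le hdeg.le
  refine ⟨hfin, le_antisymm hle ?_⟩
  obtain ⟨m1, hm1⟩ := inf_prod_eq_redBall2 R1 R2 ht1 ht2 hti1 hti2 htK hG hGi 𝒢 W0 hW0 hcov hlift
  obtain ⟨n0, hn0⟩ := hK
  obtain ⟨n1, hn1⟩ := h1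
  obtain ⟨n2, hn2⟩ := h2
  set m : ℕ := max (max m1 n0) (max n1 n2) with hm
  have hmm1 : m1 ≤ m := le_trans (le_max_left _ _) (le_max_left _ _)
  have hmn0 : n0 ≤ m := le_trans (le_max_right _ _) (le_max_left _ _)
  have hmn1 : n1 ≤ m := le_trans (le_max_left _ _) (le_max_right _ _)
  have hmn2 : n2 ≤ m := le_trans (le_max_right _ _) (le_max_right _ _)
  obtain ⟨hfdK, eK⟩ := hn0 m hmn0
  obtain ⟨hfd1, e1⟩ := hn1 m hmn1
  obtain ⟨hfd2, e2⟩ := hn2 m hmn2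
  set τ1 := R1.red ⟨t, ht1⟩ with hτ1
  set τ2 := R2.red ⟨t, ht2⟩ with hτ2
  set P : Submodule k (Ft1 × Ft2) := (Lfib k τ1 (m : ℤ)).prod (Lfib k τ2 (m : ℤ)) with hP
  have hPfd : FiniteDimensional k P := (finrank_prod_le (Lfib k τ1 (m : ℤ)) (Lfib k τ2 (m : ℤ))).1
  have hPdim : finrank k P = finrank k (Lfib k τ1 (m : ℤ)) + finrank k (Lfib k τ2 (m : ℤ)) :=
    finrank_prod_eq _ _
  have hPB : P ≤ Bprod k τ1 τ2 := Lfib_prod_le_Bprod (m : ℤ)
  have hcount := finrank_le_finrank_inf_add P (Bprod k τ1 τ2) (Btilde R1 R2 t) hPB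
  have hQ : P ⊓ Btilde R1 R2 t = redBall2 R1 R2 (Lfib K t (m : ℤ)) := by
    rw [inf_comm]
    exact hm1 m hmm1
  rw [hQ] at hcount
  have hM := hO' (Lfib K t (m : ℤ)) inferInstance
  have hcount' : (finrank k (Lfib k τ1 (m : ℤ)) : ℤ) + finrank k (Lfib k τ2 (m : ℤ)) ≤
      finrank K (Lfib K t (m : ℤ)) + finrank k (↥(Bprod k τ1 τ2) ⧸
        (Btilde R1 R2 t).comap (Bprod k τ1 τ2).subtype) := by
    have : finrank k (Lfib k τ1 (m : ℤ)) + finrank k (Lfib k τ2 (m : ℤ)) ≤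
        finrank K (Lfib K t (m : ℤ)) + finrank k (↥(Bprod k τ1 τ2) ⧸
          (Btilde R1 R2 t).comap (Bprod k τ1 τ2).subtype) := by
      rw [← hPdim]
      exact hcount.trans (Nat.add_le_add_right hM _)
    exact_mod_cast this
  have hN : ((f1 : ℤ) + f2) = N := by exact_mod_cast hdeg
  have hmul : (m : ℤ) * N = (m : ℤ) * f1 + (m : ℤ) * f2 := by rw [← hN]; ring
  linarith

/-- the same with hypothesis (a) in quotient form: `(B~₁ × B~₂)/(𝒢 ∩ (B~₁ × B~₂))` finite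
dimensional. -/
theorem finrank_quotient_add_eq' (R1 : RedData K F k Ft1) (R2 : RedData K F k Ft2) {t : F}
    (ht1 : t ∈ R1.Rw) (ht2 : t ∈ R2.Rw) (hti1 : t⁻¹ ∈ R1.Rw) (hti2 : t⁻¹ ∈ R2.Rw)
    (htr1 : Transcendental k (R1.red ⟨t, ht1⟩)) (htr2 : Transcendental k (R2.red ⟨t, ht2⟩))
    (hG : RedRegFin2 R1 R2 t) (hGi : RedRegFin2 R1 R2 t⁻¹)
    (hO : ∀ V : Submodule K F, FiniteDimensional K V →
      finrank K V ≤ finrank k (redBall2 R1 R2 V))
    (hO' : ∀ V : Submodule K F, FiniteDimensional K V →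
      finrank k (redBall2 R1 R2 V) ≤ finrank K V)
    {N f1 f2 : ℕ} {g g1 g2 : ℤ} (hK : RiemannEq K t N g)
    (h1 : RiemannEq k (R1.red ⟨t, ht1⟩) f1 g1) (h2 : RiemannEq k (R2.red ⟨t, ht2⟩) f2 g2)
    (hdeg : f1 + f2 = N)
    (𝒢 : Submodule k (Ft1 × Ft2))
    [Module.Finite k (↥(Bprod k (R1.red ⟨t, ht1⟩) (R2.red ⟨t, ht2⟩)) ⧸
      𝒢.comap (Bprod k (R1.red ⟨t, ht1⟩) (R2.red ⟨t, ht2⟩)).subtype)]
    (hlift : ∃ m0 : ℕ, ∀ m : ℕ, m0 ≤ m →
      𝒢 ⊓ (Lfib k (R1.red ⟨t, ht1⟩) (m : ℤ)).prod (Lfib k (R2.red ⟨t, ht2⟩) (m : ℤ))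
        ≤ redBall2 R1 R2 (Lfib K t (m : ℤ))) :
    Module.Finite k (↥(Bprod k (R1.red ⟨t, ht1⟩) (R2.red ⟨t, ht2⟩)) ⧸
        (Btilde R1 R2 t).comap (Bprod k (R1.red ⟨t, ht1⟩) (R2.red ⟨t, ht2⟩)).subtype) ∧
      (finrank k (↥(Bprod k (R1.red ⟨t, ht1⟩) (R2.red ⟨t, ht2⟩)) ⧸
        (Btilde R1 R2 t).comap (Bprod k (R1.red ⟨t, ht1⟩) (R2.red ⟨t, ht2⟩)).subtype) : ℤ)
        + g1 + g2 = g + 1 := by
  obtain ⟨W0, hfd, hW0, hcov⟩ := exists_finiteDimensional_sup (Btilde R1 R2 t) 𝒢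
    (Bprod k (R1.red ⟨t, ht1⟩) (R2.red ⟨t, ht2⟩)) (Btilde_le_Bprod R1 R2 ht1 ht2 hG)
  exact finrank_quotient_add_eq R1 R2 ht1 ht2 hti1 hti2 htr1 htr2 hG hGi hO hO' hK h1 h2 hdeg
    𝒢 W0 hW0 hcov hlift

end LiftClose

end Fermat.Agent.GK.Flat
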