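import Mathlib
import Fermat.Agent.GK.Flat.SymDegree
import Fermat.Agent.GK.Flat.BallTwo
import Fermat.Agent.GK.Cusp.SymChart
import Fermat.Agent.GK.Val.TwoVal

/-!
# GATE-K / N7d X3 (helper92): degrees of the symmetric chart `tS = j · j_q` at `q ∥ N`

Setting of helper49's `GK/Flat/BallTwo.lean` (`ballFN N A h`, `τ = CuspSep.tauF N A = red₁ j`) and
helper23's `GK/Cusp/SymChart.lean` (`tS N hqN = j · j_q`).

* `wAut_jF_eq_jq`, `wAut_jq_eq_jF`, `wAut_tS` : `W_q j = j_q`, `W_q j_q = j`, `W_q tS = tS`;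
* `finrank_adjoin_jq` : `[F_N : ℚ̄(j_q)] = ψ(N)`;  `finrank_tS` : `[F_N : ℚ̄(tS)] = 2 ψ(N)`;
* `isRed1_tS`, `isRed2_tS`, `tS_mem_ballFN`, `red_tS` : `red tS = (τ^(q+1), τ^(q+1))`;
  `isGaussChart1_tS`, `isGaussChart2_tS`;
* `isGen_tauF`, `finrank_tauF` : `[FresBar N A : 𝕜(τ)] = ψ(N / q)`;
  `finrank_tauF_pow` : `[FresBar N A : 𝕜(τ^(q+1))] = (q+1) ψ(N / q)`;
* `dedekindPsi_eq` : `ψ(N) = (q+1) ψ(N / q)`;
* **`hdeg_tS_eq`** : `[F_N : ℚ̄(tS)] = [Ft : 𝕜(τ^(q+1))] + [Ft : 𝕜(τ^(q+1))]`, and the versions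
  `hdeg_tS_red` (shape of helper90 `MultiVal.hasOrthoBases2` / helper96 `TwoRed` `hdeg`),
  `hdeg_tS_deg` (shape of helper66 `NodesGe.card_nodes_ge_gLat` `hdeg`, with `poleDiv`).
-/

set_option autoImplicit false

noncomputable section

open AlgebraicCurve IntermediateField Module ModularCurve

namespace Fermat.Agent.GK.SymDegree

open Fermat.Agent.S24 Fermat.Agent.S24_helper62 Fermat.Agent.GJ.J1 Fermat.Agent.GJ.J1.Val
  Fermat.Agent.GK.AL Fermat.Agent.GK.MultiVal Fermat.Agent.GK.Val.Degrees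
  Fermat.Agent.GK.Val.TwoVal Fermat.Agent.GK.CuspSep Fermat.Agent.GK.SymChart
  Fermat.Agent.GK.BallTwo Fermat.Agent.GK.Pencil Fermat.Agent.GJ.J1.Haupt

variable {q : ℕ} (N : ℕ) [NeZero N] [NeZero q] (A : ValuationSubring Kbar) (h : ExactDvd q N)

local notation "𝕜" => IsLocalRing.ResidueField A

/-! ### the Atkin–Lehner symmetry of the chart -/

theorem wAut_jF_eq_jq : wAut h (jF N) = jdF N q h.dvd := by
  rw [jF_eq_gen, wAut_gen]
  have h3 : swapIdx h (idxOne N) = ⟨q, h.dvd⟩ := Subtype.ext (swapIdx_idxOne_val N h)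
  rw [h3]
  exact gen_eq_jdF _

theorem wAut_jq_eq_jF : wAut h (jdF N q h.dvd) = jF N := by
  rw [← wAut_jF_eq_jq N h, wAut_wAut]

/-- the symmetric chart is `W_q`-invariant. -/
theorem wAut_tS : wAut h (tS N h.dvd) = tS N h.dvd := by
  rw [tS, map_mul, wAut_jF_eq_jq, wAut_jq_eq_jF, mul_comm]

/-- `[F_N : ℚ̄(j_q)] = ψ(N)` (transport along `W_q`). -/
theorem finrank_adjoin_jq : finrank Kbar⟮jdF N q h.dvd⟯ (FN N) = dedekindPsi N := by
  rw [← wAut_jF_eq_jq N h, finrank_adjoin_algEquiv, finrank_FN]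

/-- **`[F_N : ℚ̄(j · j_q)] = 2 ψ(N)`.** -/
theorem finrank_tS : finrank Kbar⟮tS N h.dvd⟯ (FN N) = 2 * dedekindPsi N := by
  rw [finrank_adjoin_tS N h.dvd h.prime, finrank_adjoin_jq N h, finrank_FN]
  ring

/-! ### the reductions of the chart -/

variable (hA : A.LiesOverPrime q)

include hA in
/-- `red₁ (j j_q) = τ^(q+1)` -/
theorem isRed1_tS : (redDataBar N A).IsRed (tS N h.dvd) (tauF N A ^ (q + 1)) := by
  have := Disc.isRed_mul (isRed1_jF N A) (isRed1_jq N A h hA)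
  rwa [← pow_succ'] at this

include hA in
/-- `red₂ (j j_q) = τ^(q+1)` -/
theorem isRed2_tS : (redData2 N A h).IsRed (tS N h.dvd) (tauF N A ^ (q + 1)) := by
  have := Disc.isRed_mul (isRed2_jF N A h hA) (isRed2_jq N A h)
  rwa [← pow_succ] at this

include hA in
theorem tS_mem_ballFN : tS N h.dvd ∈ (ballFN N A h).B :=
  mem_B_of_isRed _ (isRed1_tS N A h hA) (isRed2_tS N A h hA)

include hA in
/-- `red (j j_q) = (τ^(q+1), τ^(q+1))` -/
theorem red_tS (hx : tS N h.dvd ∈ (ballFN N A h).B) :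
    (ballFN N A h).red ⟨tS N h.dvd, hx⟩ = (tauF N A ^ (q + 1), tauF N A ^ (q + 1)) :=
  red_ballFN N A h (isRed1_tS N A h hA) (isRed2_tS N A h hA) hx

omit [NeZero q] in
theorem transcendental_tauF_pow {n : ℕ} (hn : 0 < n) : Transcendental 𝕜 (tauF N A ^ n) :=
  (transcendental_tauF N A).pow hn

include hA in
theorem isGaussChart1_tS : (redDataBar N A).IsGaussChart (tS N h.dvd) := by
  obtain ⟨hx, hr⟩ := isRed1_tS N A h hA
  exact ⟨hx, hr ▸ transcendental_tauF_pow N A (Nat.succ_pos q)⟩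

include hA in
theorem isGaussChart2_tS : (redData2 N A h).IsGaussChart (tS N h.dvd) := by
  obtain ⟨hx, hr⟩ := isRed2_tS N A h hA
  exact ⟨hx, hr ▸ transcendental_tauF_pow N A (Nat.succ_pos q)⟩

include hA in
theorem red1_tS (hx : tS N h.dvd ∈ (redDataBar N A).Rw) :
    (redDataBar N A).red ⟨tS N h.dvd, hx⟩ = tauF N A ^ (q + 1) := by
  obtain ⟨hx', hr⟩ := isRed1_tS N A h hA
  exact hr

include hA in
theorem red2_tS (hx : tS N h.dvd ∈ (redData2 N A h).Rw) :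
    (redData2 N A h).red ⟨tS N h.dvd, hx⟩ = tauF N A ^ (q + 1) := by
  obtain ⟨hx', hr⟩ := isRed2_tS N A h hA
  exact hr

/-! ### residue degrees -/

omit [NeZero q] in
/-- the residue field `FresBar N A` is a function field with generator `τ`. -/
theorem isGen_tauF : IsGen 𝕜 (tauF N A) :=
  ⟨transcendental_tauF N A, (finiteDimensional_f1 N A (jF_mem_Rw N A)).1⟩

omit [NeZero q] in
include h in
/-- `ψ(N) = (q+1) ψ(N/q)` at `q ∥ N` -/
theorem dedekindPsi_eq : dedekindPsi N = (q + 1) * dedekindPsi (N / q) := by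
  obtain ⟨N', rfl⟩ := exists_eq_mul_left_of_dvd h.dvd
  have : Fact q.Prime := ⟨h.prime⟩
  have hq0 : 0 < q := h.prime.pos
  have : NeZero q := ⟨hq0.ne'⟩
  have hN'0 : N' ≠ 0 := fun h0 => NeZero.ne (N' * q) (by rw [h0, zero_mul])
  have : NeZero N' := ⟨hN'0⟩
  have hqN' : ¬ q ∣ N' := fun hd => h.not_sq (by rw [pow_two]; exact Nat.mul_dvd_mul hd dvd_rfl)
  rw [Nat.mul_div_cancel _ hq0, dedekindPsi_mul_prime N' q hqN']
  ring

include h hA in
/-- **`[FresBar N A : 𝕜(τ)] = ψ(N/q)`** (helper45 `TwoVal.degrees`) -/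
theorem finrank_tauF : finrank 𝕜⟮tauF N A⟯ (FresBar N A) = dedekindPsi (N / q) := by
  obtain ⟨N', rfl⟩ := exists_eq_mul_left_of_dvd h.dvd
  have : Fact q.Prime := ⟨h.prime⟩
  have hq0 : 0 < q := h.prime.pos
  have hN'0 : N' ≠ 0 := fun h0 => NeZero.ne (N' * q) (by rw [h0, zero_mul])
  have : NeZero N' := ⟨hN'0⟩
  have hqN' : ¬ q ∣ N' := fun hd => h.not_sq (by rw [pow_two]; exact Nat.mul_dvd_mul hd dvd_rfl)
  rw [Nat.mul_div_cancel _ hq0]
  exact (degrees N' q A h hqN' hA (jF_mem_Rw (N' * q) A) (isRed2_jF (N' * q) A h hA).1).1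

include h hA in
/-- **`[FresBar N A : 𝕜(τ^(q+1))] = (q+1) ψ(N/q)`** -/
theorem finrank_tauF_pow :
    finrank 𝕜⟮tauF N A ^ (q + 1)⟯ (FresBar N A) = (q + 1) * dedekindPsi (N / q) := by
  have := isGen_tauF N A
  rw [finrank_adjoin_pow (tauF N A) (transcendental_tauF N A) (Nat.succ_pos q),
    finrank_tauF N A h hA]

include hA in
/-- **X3 (`hdeg`, equality)**: `[F_N : ℚ̄(j j_q)] = f₁' + f₂'`, `f_i' = [Ft : 𝕜(τ^(q+1))]`. -/
theorem hdeg_tS_eq :
    finrank Kbar⟮tS N h.dvd⟯ (FN N) =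
      finrank 𝕜⟮tauF N A ^ (q + 1)⟯ (FresBar N A) +
        finrank 𝕜⟮tauF N A ^ (q + 1)⟯ (FresBar N A) := by
  rw [finrank_tS N h, finrank_tauF_pow N A h hA, dedekindPsi_eq N h]
  ring

include hA in
/-- **X3 (`hdeg`)** in the shape of helper90 `MultiVal.hasOrthoBases2` / helper96 `TwoRed`. -/
theorem hdeg_tS_red (ht1 : (redDataBar N A).IsGaussChart (tS N h.dvd))
    (ht2 : (redData2 N A h).IsGaussChart (tS N h.dvd)) :
    finrank Kbar⟮tS N h.dvd⟯ (FN N) =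
      finrank 𝕜⟮(redDataBar N A).red ⟨tS N h.dvd, ht1.1⟩⟯ (FresBar N A) +
        finrank 𝕜⟮(redData2 N A h).red ⟨tS N h.dvd, ht2.1⟩⟯ (FresBar N A) := by
  rw [red1_tS N A h hA, red2_tS N A h hA]
  exact hdeg_tS_eq N A h hA

include hA in
/-- **X3 (`hdeg`)** in the shape of helper66 `NodesGe.card_nodes_ge_gLat`:
`[F_N : ℚ̄(j j_q)] = deg D₁ + deg D₂` for any divisors with the values of `(τ^(q+1))_∞`. -/
theorem hdeg_tS_deg (D1 D2 : Divisor 𝕜 (FresBar N A))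
    (hD1 : ∀ v : Place 𝕜 (FresBar N A), D1 v = max (-(v.ord (tauF N A ^ (q + 1)))) 0)
    (hD2 : ∀ v : Place 𝕜 (FresBar N A), D2 v = max (-(v.ord (tauF N A ^ (q + 1)))) 0) :
    (finrank Kbar⟮tS N h.dvd⟯ (FN N) : ℤ) = Divisor.degree D1 + Divisor.degree D2 := by
  have := isGen_tauF N A
  have htr := transcendental_tauF_pow N A (Nat.succ_pos q)
  rw [Fermat.Agent.GJ.FF.PrincipalOf.degree_eq_finrank_of_poles (tauF N A) htr D1 hD1,
    Fermat.Agent.GJ.FF.PrincipalOf.degree_eq_finrank_of_poles (tauF N A) htr D2 hD2,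
    hdeg_tS_eq N A h hA]
  push_cast
  rfl

end Fermat.Agent.GK.SymDegree
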