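import Mathlib
import Fermat.Agent.GK.Flat.DeltaEq
import Fermat.Agent.GK.MultiVal.Bridges
import Fermat.Agent.GK.MultiVal.BridgeRed
import Fermat.Agent.GK.Val.TwoVal
import Fermat.Agent.GK.QS.BTilde
import Fermat.Agent.GK.Flat.SymDegreeInst
import Fermat.Agent.GK.Red.FrobChart

/-!
# GATE-K N7a / GATE-L L5e-COUNT (helper92): the UPPER bound on the number of nodes

`ℓ ∥ N = N' ℓ`, `A | ℓ`, `R₁ = redDataBar N A`, `R₂ = redData2 N A h`, `C = CRing N' A`,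
`BT ⊂ C × C` helper15's reduction of `B = {x ∈ F_N | RegFin ℚ̄ j x, w₁ x ≥ 0, w₂ x ≥ 0}`.

* `quotient_top_finrank_le`, `finrank_quotient_le_of_embedding` : linear algebra (transfer of the
  subspace bound of `DeltaLe.finrank_add_le` along an embedding);
* `mem_Btilde_iff` : `B~` (chart `t`) is the SET of pairs of reductions;
* `finrank_add_genusRR_le` : `DeltaLe.finrank_add_le` with `hG hGi hO` discharged by helper90's
  `HasOrthoBases` package and Riemann's theorem in the chart-free form `genusRR`;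
* **`finrank_quotient_BT_le`** : `dim_k (C × C) / BT + 2 g(F̃) ≤ g(F_N) + 1`;
* **`card_nodes_le`** : if `BT = gluedAlg Ψ J'` and `dim (C × C)/gluedAlg Ψ J' = #nodes J'`
  (helper29 `finrank_quotient_gluedAlg_of_isAlgClosed`), then
  `#nodes J' + 2 g(F̃) ≤ g(F_N) + 1`.
-/

set_option autoImplicit false
set_option linter.unusedSectionVars false

noncomputable section

open AlgebraicCurve IntermediateField Module ModularCurve

namespace Fermat.Agent.GK.DeltaNodes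

open Fermat.Agent.GJ.J1 Fermat.Agent.GK.Flat Fermat.Agent.GK.MultiVal Fermat.Agent.GK.Red

/-! ### linear algebra -/

section LinAlg

variable {k : Type*} [Field k] [IsAlgClosed k]

/-- whole-space form of `Flat.quotient_finrank_le_of_forall`. -/
theorem quotient_top_finrank_le {V : Type*} [AddCommGroup V] [Module k V] (B : Submodule k V)
    (d : ℕ)
    (h : ∀ W : Submodule k V, FiniteDimensional k W → W ⊓ B = ⊥ → finrank k W ≤ d) :
    Module.Finite k (V ⧸ B) ∧ finrank k (V ⧸ B) ≤ d := by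
  obtain ⟨hfin, hle⟩ := quotient_finrank_le_of_forall (⊤ : Submodule k V) B d
    (fun W hW _ hWB => h W hW hWB)
  have hmap : (B.comap (⊤ : Submodule k V).subtype).map
      ((Submodule.topEquiv : (⊤ : Submodule k V) ≃ₗ[k] V) : (⊤ : Submodule k V) →ₗ[k] V) = B := by
    ext x
    constructor
    · rintro ⟨y, hy, rfl⟩
      exact hy
    · intro hx
      exact ⟨⟨x, Submodule.mem_top⟩, hx, rfl⟩
  let e : (↥(⊤ : Submodule k V) ⧸ B.comap (⊤ : Submodule k V).subtype) ≃ₗ[k] (V ⧸ B) :=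
    Submodule.Quotient.equiv _ _ Submodule.topEquiv hmap
  exact ⟨Module.Finite.equiv e, by rw [← e.finrank_eq]; exact hle⟩

/-- **transfer along an embedding**: `φ : V' ↪ V` with `φ(V') ⊂ P` and `φ⁻¹(B) ⊂ B'`; a bound for
the subspaces of `P` meeting `B` trivially bounds `dim V' / B'`. -/
theorem finrank_quotient_le_of_embedding {V V' : Type*} [AddCommGroup V] [Module k V]
    [AddCommGroup V'] [Module k V'] (φ : V' →ₗ[k] V) (hφ : Function.Injective φ)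
    (P B : Submodule k V) (B' : Submodule k V') (hP : ∀ v, φ v ∈ P)
    (hB : ∀ v, φ v ∈ B → v ∈ B') (d : ℕ)
    (h : ∀ W : Submodule k V, FiniteDimensional k W → W ≤ P → W ⊓ B = ⊥ → finrank k W ≤ d) :
    Module.Finite k (V' ⧸ B') ∧ finrank k (V' ⧸ B') ≤ d := by
  refine quotient_top_finrank_le B' d fun W' hW' hWB' => ?_
  have hfd : FiniteDimensional k (W'.map φ) := inferInstance
  have hle : W'.map φ ≤ P := by
    rintro _ ⟨w, _, rfl⟩
    exact hP w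
  have hbot : W'.map φ ⊓ B = ⊥ := by
    refine (Submodule.eq_bot_iff _).mpr ?_
    rintro _ ⟨⟨w, hw, rfl⟩, hxB⟩
    have hw0 : w ∈ W' ⊓ B' := ⟨hw, hB w hxB⟩
    rw [hWB'] at hw0
    rw [(Submodule.mem_bot k).mp hw0, map_zero]
  have := h (W'.map φ) hfd hle hbot
  rwa [(Submodule.equivMapOfInjective φ hφ W').finrank_eq.symm] at this

end LinAlg

/-! ### the abstract pair -/

section Pair

variable {K F k Ft1 Ft2 : Type*} [Field K] [Field F] [Algebra K F] [Field k]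
  [Field Ft1] [Algebra k Ft1] [Field Ft2] [Algebra k Ft2]
  {R1 : RedData K F k Ft1} {R2 : RedData K F k Ft2}

theorem baseCompat_of_redCompat (hc : RedCompat R1 R2) : BaseCompat R1 R2 :=
  ⟨fun a => by rw [hc.A_eq], hc.res_eq⟩

theorem redRegFin2_of_on {s : F} (h1 : RedRegFinOn R1 (ball2 R1 R2) s)
    (h2 : RedRegFinOn R2 (ball2 R1 R2) s) : RedRegFin2 R1 R2 s :=
  fun hs1 hs2 z hz1 hz2 hz =>
    ⟨h1 hs1 z hz1 (mem_ball2.mpr ⟨hz1, hz2⟩) hz, h2 hs2 z hz2 (mem_ball2.mpr ⟨hz1, hz2⟩) hz⟩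

/-- `B~` is the SET of pairs of reductions of the `x ∈ Rw₁ ∩ Rw₂` integral over `K[t]`. -/
theorem mem_Btilde_iff [IsAlgClosed K] (hc : BaseCompat R1 R2) {t : F} (ht : Transcendental K t)
    (y : Ft1 × Ft2) :
    y ∈ Btilde R1 R2 t ↔ y ∈ red2Set R1 R2 {x | RegFin K t x} := by
  refine ⟨fun hy => ?_, fun hy => Submodule.subset_span hy⟩
  have ht0 : t ≠ 0 := fun h0 => ht (h0 ▸ isAlgebraic_zero)
  have h1 := Btilde_le_iSup R1 R2 ht0 hy
  have hdir : Directed (· ≤ ·) fun n : ℕ => redBall2 R1 R2 (Lfib K t (n : ℤ)) :=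
    Monotone.directed_le fun m n hmn =>
      redBall2_mono R1 R2 (G1.Lfib_mono (G1.ne_algebraMap_of_transcendental ht) (by exact_mod_cast hmn))
  obtain ⟨n, hn⟩ := (Submodule.mem_iSup_of_directed _ hdir).mp h1
  obtain ⟨x, hx, hx1, hx2, rfl⟩ := (mem_redBall2_iff hc _ y).mp hn
  exact ⟨x, (G1.mem_Lfib_iff_of_isAlgClosed.mp hx).1, hx1, hx2, rfl⟩

variable [IsAlgClosed K] [IsAlgClosed k]

/-- **the flatness bound with `hG hGi hO` discharged**: two compatible, distinct reduction data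
with orthonormal bases, a common Gauss chart `t` with `t⁻¹ ∈ Rw₁ ∩ Rw₂`, and the fundamental
inequality; Riemann's theorem enters through the chart-free `genusRR` on the three fields. -/
theorem finrank_add_genusRR_le (hc : RedCompat R1 R2) (hne : R1.Rw ≠ R2.Rw)
    (ho : HasOrthoBases R1.A (ball2 R1 R2) (rad2 R1 R2)) {t : F}
    (ht1 : R1.IsGaussChart t) (ht2 : R2.IsGaussChart t) (hti1 : t⁻¹ ∈ R1.Rw) (hti2 : t⁻¹ ∈ R2.Rw)
    [FiniteDimensional K⟮t⟯ F]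
    (hdeg : finrank K⟮t⟯ F ≤
      finrank k⟮R1.red ⟨t, ht1.1⟩⟯ Ft1 + finrank k⟮R2.red ⟨t, ht2.1⟩⟯ Ft2)
    {g g1 g2 : ℤ} (hK : RiemannGe K t (finrank K⟮t⟯ F) g)
    (h1 : RiemannLe k (R1.red ⟨t, ht1.1⟩) (finrank k⟮R1.red ⟨t, ht1.1⟩⟯ Ft1) g1)
    (h2 : RiemannLe k (R2.red ⟨t, ht2.1⟩) (finrank k⟮R2.red ⟨t, ht2.1⟩⟯ Ft2) g2)
    (W : Submodule k (Ft1 × Ft2)) [FiniteDimensional k W]
    (hW : W ≤ Bprod k (R1.red ⟨t, ht1.1⟩) (R2.red ⟨t, ht2.1⟩))
    (hWB : W ⊓ Btilde R1 R2 t = ⊥) :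
    (finrank k W : ℤ) + g1 + g2 ≤ g + 1 := by
  obtain ⟨hG1, hG2⟩ := redRegFinOn_pair hc hne ht1 ht2 hdeg
  obtain ⟨hGi1, hGi2⟩ := redRegFinOn_inv_pair hc hne ht1 ht2 hti1 hti2 hdeg
  exact finrank_add_le R1 R2 ht1.1 ht2.1 hti1 hti2 ht1.2 ht2.2 (redRegFin2_of_on hG1 hG2)
    (redRegFin2_of_on hGi1 hGi2) (le_finrank_flat_redBall2 hc ho) hK h1 h2
    (sum_finrank_le hc hne ht1 ht2) W hW hWB

end Pair

/-! ### the concrete count at `F_N`, `N = N' ℓ` -/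

section Concrete

open Fermat.Agent.S24 Fermat.Agent.S24_helper62 Fermat.Agent.GJ.J1.Val Fermat.Agent.GJ.J1.Haupt
  Fermat.Agent.GK.AL Fermat.Agent.GK.Val.TwoVal Fermat.Agent.GK.CuspSep Fermat.Agent.GK.QS
  Fermat.Agent.GK.FrobGlue Fermat.Agent.GK.SymDegree

variable (N' : ℕ) [NeZero N'] (ℓ : ℕ) [hℓ : Fact ℓ.Prime] [NeZero ℓ]
variable (A : ValuationSubring Kbar) (h : ExactDvd ℓ (N' * ℓ))

local notation "𝕜" => IsLocalRing.ResidueField A

/-- the inclusion `C = CRing N' A ⊂ FresBar N' A ⊂ FresBar (N' ℓ) A`. -/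
def incl : CRing N' A →ₐ[𝕜] FresBar (N' * ℓ) A :=
  (IntermediateField.inclusion (FresBar_le_mul N' ℓ A)).comp (CRing N' A).val

theorem coe_incl (a : CRing N' A) :
    ((incl N' ℓ A a : FresBar (N' * ℓ) A) : LaurentSeries 𝕜) = cVal N' A a := rfl

theorem incl_injective : Function.Injective (incl N' ℓ A) := fun a b hab =>
  cVal_injective N' A (by rw [← coe_incl N' ℓ, ← coe_incl N' ℓ, hab])

theorem incl_jt : incl N' ℓ A ⟨jt N' A, jt_mem_CRing N' A⟩ = tauF (N' * ℓ) A := by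
  apply Subtype.ext
  rw [coe_incl, cVal_apply, coe_tauF]
  exact coe_jt N' A

/-- elements of `C` are integral over `𝕜[τ]` in the residue field of level `N' ℓ`. -/
theorem regFin_incl (a : CRing N' A) : RegFin 𝕜 (tauF (N' * ℓ) A) (incl N' ℓ A a) := by
  have h1 : RegFin 𝕜 (jt N' A) (a : FresBar N' A) := a.2
  have h2 := RegFin.map_algHom (IntermediateField.inclusion (FresBar_le_mul N' ℓ A))
    (s := tauF (N' * ℓ) A) (s' := jt N' A) (x := (a : FresBar N' A)) ?_ h1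
  · exact h2
  · have : (IntermediateField.inclusion (FresBar_le_mul N' ℓ A)) (jt N' A) = tauF (N' * ℓ) A :=
      incl_jt N' ℓ A
    show RegFin 𝕜 (tauF (N' * ℓ) A) ((IntermediateField.inclusion (FresBar_le_mul N' ℓ A)) (jt N' A))
    rw [this]
    exact regFin_self _

/-- … and over `𝕜[τ^n]`, `n ≥ 1`. -/
theorem regFin_pow_incl {n : ℕ} (hn : 0 < n) (a : CRing N' A) :
    RegFin 𝕜 (tauF (N' * ℓ) A ^ n) (incl N' ℓ A a) :=
  (Fermat.Agent.GK.Red.regFin_pow_iff hn).mpr (regFin_incl N' ℓ A a)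

variable (hℓN : ¬ ℓ ∣ N') (hA : A.LiesOverPrime ℓ)

include hA in
/-- `red₂ j = τ^ℓ` for any membership proof. -/
theorem red2_jF_eq (hx : jF (N' * ℓ) ∈ (redData2 (N' * ℓ) A h).Rw) :
    (redData2 (N' * ℓ) A h).red ⟨jF (N' * ℓ), hx⟩ = tauF (N' * ℓ) A ^ ℓ :=
  (isRed2_jF (N' * ℓ) A h hA).2

/-- the embedding `C × C → F̃ × F̃`. -/
def inclProd : (CRing N' A × CRing N' A) →ₗ[𝕜] (FresBar (N' * ℓ) A × FresBar (N' * ℓ) A) :=
  (incl N' ℓ A).toLinearMap.prodMap (incl N' ℓ A).toLinearMap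

theorem inclProd_apply (z : CRing N' A × CRing N' A) :
    inclProd N' ℓ A z = (incl N' ℓ A z.1, incl N' ℓ A z.2) := rfl

theorem inclProd_injective : Function.Injective (inclProd N' ℓ A) := fun _ _ hab =>
  Prod.ext (incl_injective N' ℓ A (congrArg Prod.fst hab))
    (incl_injective N' ℓ A (congrArg Prod.snd hab))

include hA in
/-- `C × C` lands in `B~₁ × B~₂` (chart `j`). -/
theorem inclProd_mem_Bprod (ht1 : jF (N' * ℓ) ∈ (redDataBar (N' * ℓ) A).Rw)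
    (ht2 : jF (N' * ℓ) ∈ (redData2 (N' * ℓ) A h).Rw) (z : CRing N' A × CRing N' A) :
    inclProd N' ℓ A z ∈ Bprod 𝕜 ((redDataBar (N' * ℓ) A).red ⟨jF (N' * ℓ), ht1⟩)
      ((redData2 (N' * ℓ) A h).red ⟨jF (N' * ℓ), ht2⟩) := by
  rw [mem_Bprod, red2_jF_eq N' ℓ A h hA ht2]
  exact ⟨regFin_incl N' ℓ A z.1, regFin_pow_incl N' ℓ A hℓ.out.pos z.2⟩

/-- a pair of `C × C` whose image lies in `B~` (chart `j`) lies in helper15's `BT`. -/
theorem mem_BT_of_inclProd_mem (z : CRing N' A × CRing N' A)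
    (hz : inclProd N' ℓ A z ∈ Btilde (redDataBar (N' * ℓ) A) (redData2 (N' * ℓ) A h)
      (jF (N' * ℓ))) : z ∈ BT N' ℓ A h := by
  have hc := baseCompat_of_redCompat (redCompat N' ℓ A h)
  have htr : Transcendental Kbar (jF (N' * ℓ)) := (isGen_jF (N' * ℓ)).transcendental
  obtain ⟨x, hx, hx1, hx2, hxy⟩ := (mem_Btilde_iff hc htr _).mp hz
  rw [mem_BT]
  refine ⟨⟨x, hx, hx1, hx2⟩, ?_, ?_⟩
  · rw [rho1_apply]
    have := congrArg Prod.fst hxy
    simp only [inclProd_apply] at this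
    rw [this]
    rfl
  · rw [rho2_apply]
    have := congrArg Prod.snd hxy
    simp only [inclProd_apply] at this
    rw [this]
    rfl

variable [Fermat.Agent.RRh45.FiniteResidues Kbar (FN (N' * ℓ))]
  [HasPrincipalDivisors Kbar (FN (N' * ℓ))] [Nonempty (Place Kbar (FN (N' * ℓ)))]
  [Fermat.Agent.RRh45.FiniteResidues (IsLocalRing.ResidueField A) (FresBar (N' * ℓ) A)]
  [HasPrincipalDivisors (IsLocalRing.ResidueField A) (FresBar (N' * ℓ) A)]
  [Nonempty (Place (IsLocalRing.ResidueField A) (FresBar (N' * ℓ) A))]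

include hℓN hA in
/-- **the subspace bound at `F_N`**: every finite dimensional `W ≤ B~₁ × B~₂` (chart `j`) meeting
`B~` trivially has `dim W + 2 g(F̃) ≤ g(F_N) + 1`. -/
theorem finrank_add_le_FN (ht1 : jF (N' * ℓ) ∈ (redDataBar (N' * ℓ) A).Rw)
    (ht2 : jF (N' * ℓ) ∈ (redData2 (N' * ℓ) A h).Rw)
    (W : Submodule 𝕜 (FresBar (N' * ℓ) A × FresBar (N' * ℓ) A)) [FiniteDimensional 𝕜 W]
    (hW : W ≤ Bprod 𝕜 ((redDataBar (N' * ℓ) A).red ⟨jF (N' * ℓ), ht1⟩)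
      ((redData2 (N' * ℓ) A h).red ⟨jF (N' * ℓ), ht2⟩))
    (hWB : W ⊓ Btilde (redDataBar (N' * ℓ) A) (redData2 (N' * ℓ) A h) (jF (N' * ℓ)) = ⊥) :
    (finrank 𝕜 W : ℤ) + InstGen.genusRR 𝕜 (FresBar (N' * ℓ) A)
        + InstGen.genusRR 𝕜 (FresBar (N' * ℓ) A)
      ≤ InstGen.genusRR Kbar (FN (N' * ℓ)) + 1 := by
  have hG1 : (redDataBar (N' * ℓ) A).IsGaussChart (jF (N' * ℓ)) := isGaussChart_jF_1 (N' * ℓ) A
  have hG2 : (redData2 (N' * ℓ) A h).IsGaussChart (jF (N' * ℓ)) :=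
    isGaussChart_jF_2 (N' * ℓ) A h
  have hfd : FiniteDimensional Kbar⟮jF (N' * ℓ)⟯ (FN (N' * ℓ)) :=
    Fermat.Agent.GJ.J1.Val.finiteDimensional_jF (N' * ℓ)
  have hgenK : IsGen Kbar (jF (N' * ℓ)) := isGen_jF (N' * ℓ)
  have hgen1 : IsGen 𝕜 ((redDataBar (N' * ℓ) A).red ⟨jF (N' * ℓ), hG1.1⟩) :=
    isGen_tauF (N' * ℓ) A
  have hgen2 : IsGen 𝕜 ((redData2 (N' * ℓ) A h).red ⟨jF (N' * ℓ), hG2.1⟩) :=
    IsGen.of_transcendental ((redDataBar (N' * ℓ) A).red ⟨jF (N' * ℓ), hG1.1⟩) hG2.2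
  have hdeg := (degrees N' ℓ A h hℓN hA hG1.1 hG2.1).2.2.2
  exact finrank_add_genusRR_le (redCompat N' ℓ A h) (Rw1_ne_Rw2 (N' * ℓ) A h hA)
    (hasOrthoBases N' ℓ A h hℓN hA) hG1 hG2 (isRed1_inv_jF (N' * ℓ) A).1
    (isRed2_inv_jF (N' * ℓ) A h hA).1 hdeg.ge
    (riemannEq_genusRR (jF (N' * ℓ))).ge
    (riemannEq_genusRR ((redDataBar (N' * ℓ) A).red ⟨jF (N' * ℓ), hG1.1⟩)).le
    (riemannEq_genusRR ((redData2 (N' * ℓ) A h).red ⟨jF (N' * ℓ), hG2.1⟩)).le W hW hWB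

include hℓN hA in
/-- **`dim (C × C)/BT + 2 g(F̃) ≤ g(F_N) + 1`.** -/
theorem finrank_quotient_BT_le :
    Module.Finite 𝕜 ((CRing N' A × CRing N' A) ⧸ Subalgebra.toSubmodule (BT N' ℓ A h)) ∧
      (finrank 𝕜 ((CRing N' A × CRing N' A) ⧸ Subalgebra.toSubmodule (BT N' ℓ A h)) : ℤ)
          + 2 * InstGen.genusRR 𝕜 (FresBar (N' * ℓ) A)
        ≤ InstGen.genusRR Kbar (FN (N' * ℓ)) + 1 := by
  have ht1 : jF (N' * ℓ) ∈ (redDataBar (N' * ℓ) A).Rw := jF_mem_Rw (N' * ℓ) A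
  have ht2 : jF (N' * ℓ) ∈ (redData2 (N' * ℓ) A h).Rw := (isRed2_jF (N' * ℓ) A h hA).1
  have key := fun (W : Submodule 𝕜 (FresBar (N' * ℓ) A × FresBar (N' * ℓ) A))
      (hfd : FiniteDimensional 𝕜 W) hW hWB =>
    finrank_add_le_FN N' ℓ A h hℓN hA ht1 ht2 W hW hWB
  have h0 := key ⊥ inferInstance bot_le (bot_inf_eq _)
  rw [finrank_bot, Nat.cast_zero, zero_add] at h0
  set g := InstGen.genusRR Kbar (FN (N' * ℓ)) with hg
  set gt := InstGen.genusRR 𝕜 (FresBar (N' * ℓ) A) with hgt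
  obtain ⟨hfin, hle⟩ := finrank_quotient_le_of_embedding (inclProd N' ℓ A)
    (inclProd_injective N' ℓ A) _ _ (Subalgebra.toSubmodule (BT N' ℓ A h))
    (inclProd_mem_Bprod N' ℓ A h hA ht1 ht2)
    (fun z hz => mem_BT_of_inclProd_mem N' ℓ A h z hz) (g + 1 - (gt + gt)).toNat
    (fun W hfd hW hWB => by
      have := key W hfd hW hWB
      omega)
  refine ⟨hfin, ?_⟩
  have h3 : ((g + 1 - (gt + gt)).toNat : ℤ) = g + 1 - (gt + gt) :=
    Int.toNat_of_nonneg (by omega)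
  have h4 : (finrank 𝕜 ((CRing N' A × CRing N' A) ⧸ Subalgebra.toSubmodule (BT N' ℓ A h)) : ℤ)
      ≤ ((g + 1 - (gt + gt)).toNat : ℤ) := by exact_mod_cast hle
  omega

include hℓN hA in
/-- **the UPPER bound on the number of nodes**: `#Σ' + 2 g(F̃) ≤ g(F_N) + 1`.  `hcount` is the
conclusion of helper29's `FrobGlue.finrank_quotient_gluedAlg_of_isAlgClosed`. -/
theorem card_nodes_le {J' : Ideal (CRing N' A)}
    (hBT : BT N' ℓ A h = gluedAlg (psiC N' ℓ A hℓN hA) J')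
    (hcount : finrank 𝕜 ((CRing N' A × CRing N' A) ⧸
      Subalgebra.toSubmodule (gluedAlg (psiC N' ℓ A hℓN hA) J')) = (nodes J').ncard) :
    ((nodes J').ncard : ℤ) + 2 * InstGen.genusRR 𝕜 (FresBar (N' * ℓ) A)
      ≤ InstGen.genusRR Kbar (FN (N' * ℓ)) + 1 := by
  have := (finrank_quotient_BT_le N' ℓ A h hℓN hA).2
  rw [hBT, hcount] at this
  exact this

end Concrete

end Fermat.Agent.GK.DeltaNodes
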