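import Mathlib
import Fermat.Prelude.Def_ModularCurve_GenusNumerics
import Fermat.Agent.S20_helper27.Prim

/-!
# GATE-K / N7 numerics : the node count `1 + g(qN') - 2 g(N')` is POSITIVE  (helper96)

For a prime `q ∤ N'` the classical genus formula gives

  `1 + g(qN') - 2 g(N') = (q-1) ψ(N')/12 + (2 - ν₂(q)) ν₂(N')/4 + (2 - ν₃(q)) ν₃(N')/3 > 0`,

because `ψ`, `ν₂`, `ν₃`, `ν_∞` are multiplicative, `ψ(q) = q+1`, `ν_∞(q) = 2` and `ν₂(q), ν₃(q) ≤ 2`.
Consumers: `Σ ≠ ∅` (the special fibre of `X₀(qN')` is CONNECTED: glued pairs of constants are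
constants `(c,c)`), i.e. hypothesis `hkerbar` of the two-valuation obstruction argument, and the
final numerical assembly of the node count.
-/

set_option autoImplicit false

namespace Fermat.Agent.GK.Flat.GenusIneq

open ModularCurve Finset

/-! ### counting solutions in a product -/

theorem card_subtype_prod {R S T : Type*} (e : R ≃ S × T) (P : R → Prop) (Q : S → Prop)
    (Q' : T → Prop) (h : ∀ x, P x ↔ Q (e x).1 ∧ Q' (e x).2) :
    Nat.card {x // P x} = Nat.card {y // Q y} * Nat.card {z // Q' z} := by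
  rw [← Nat.card_prod]
  refine Nat.card_congr ?_
  refine
    { toFun := fun x => (⟨(e x.1).1, ((h x.1).mp x.2).1⟩, ⟨(e x.1).2, ((h x.1).mp x.2).2⟩)
      invFun := fun p => ⟨e.symm (p.1.1, p.2.1), (h _).mpr (by simpa using ⟨p.1.2, p.2.2⟩)⟩
      left_inv := fun x => by simp
      right_inv := fun p => by simp }

theorem nuTwo_mul {m n : ℕ} (h : m.Coprime n) : nuTwo (m * n) = nuTwo m * nuTwo n := by
  unfold nuTwo
  refine card_subtype_prod (ZMod.chineseRemainder h).toEquiv _ _ _ fun x => ?_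
  have h1 : x ^ 2 + 1 = 0 ↔ (ZMod.chineseRemainder h) (x ^ 2 + 1) = 0 :=
    (map_eq_zero_iff _ (ZMod.chineseRemainder h).injective).symm
  rw [h1, map_add, map_pow, map_one, Prod.ext_iff]
  rfl

theorem nuThree_mul {m n : ℕ} (h : m.Coprime n) : nuThree (m * n) = nuThree m * nuThree n := by
  unfold nuThree
  refine card_subtype_prod (ZMod.chineseRemainder h).toEquiv _ _ _ fun x => ?_
  have h1 : x ^ 2 + x + 1 = 0 ↔ (ZMod.chineseRemainder h) (x ^ 2 + x + 1) = 0 :=
    (map_eq_zero_iff _ (ZMod.chineseRemainder h).injective).symm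
  rw [h1, map_add, map_add, map_pow, map_one, Prod.ext_iff]
  rfl

/-- a monic quadratic has at most two roots in a field -/
theorem card_quadratic_le {k : Type*} [Field k] [Finite k] (b c : k) :
    Nat.card {x : k // x ^ 2 + b * x + c = 0} ≤ 2 := by
  classical
  have := Fintype.ofFinite k
  set f : Polynomial k := Polynomial.X ^ 2 + Polynomial.C b * Polynomial.X + Polynomial.C c with hf
  have hdeg : f.natDegree = 2 := by
    rw [hf]
    compute_degree!
  have hf0 : f ≠ 0 := fun h0 => by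
    rw [h0, Polynomial.natDegree_zero] at hdeg
    exact absurd hdeg (by norm_num)
  rw [Nat.card_eq_fintype_card, Fintype.card_subtype]
  calc (Finset.univ.filter fun x : k => x ^ 2 + b * x + c = 0).card
      ≤ f.roots.toFinset.card := by
        refine Finset.card_le_card fun x hx => ?_
        rw [Finset.mem_filter] at hx
        rw [Multiset.mem_toFinset, Polynomial.mem_roots hf0, Polynomial.IsRoot, hf]
        simpa using hx.2
    _ ≤ Multiset.card f.roots := Multiset.toFinset_card_le _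
    _ ≤ f.natDegree := Polynomial.card_roots' f
    _ = 2 := hdeg

theorem nuTwo_prime_le {q : ℕ} (hq : q.Prime) : nuTwo q ≤ 2 := by
  have : Fact q.Prime := ⟨hq⟩
  have := card_quadratic_le (k := ZMod q) 0 1
  unfold nuTwo
  simpa using this

theorem nuThree_prime_le {q : ℕ} (hq : q.Prime) : nuThree q ≤ 2 := by
  have : Fact q.Prime := ⟨hq⟩
  have := card_quadratic_le (k := ZMod q) 1 1
  unfold nuThree
  simpa using this

/-! ### cusps -/

theorem sum_divisors_mul_of_coprime {m n : ℕ} (h : m.Coprime n) (f : ℕ → ℕ) :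
    ∑ d ∈ (m * n).divisors, f d = ∑ a ∈ m.divisors, ∑ b ∈ n.divisors, f (a * b) := by
  rw [Nat.divisors_mul, Finset.mul_def, Finset.sum_image, Finset.sum_product]
  intro x hx y hy hxy
  exact h.mul_injOn_divisors hx hy hxy

theorem cuspCount_mul {m n : ℕ} (h : m.Coprime n) :
    cuspCount (m * n) = cuspCount m * cuspCount n := by
  unfold cuspCount
  rw [sum_divisors_mul_of_coprime h, Finset.sum_mul_sum]
  refine Finset.sum_congr rfl fun a ha => Finset.sum_congr rfl fun b hb => ?_
  obtain ⟨ha, hm0⟩ := Nat.mem_divisors.mp ha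
  obtain ⟨hb, hn0⟩ := Nat.mem_divisors.mp hb
  obtain ⟨a', rfl⟩ := ha
  obtain ⟨b', rfl⟩ := hb
  have ha0 : 0 < a := Nat.pos_of_ne_zero fun h0 => hm0 (by rw [h0, zero_mul])
  have hb0 : 0 < b := Nat.pos_of_ne_zero fun h0 => hn0 (by rw [h0, zero_mul])
  have e1 : a * a' * (b * b') / (a * b) = a' * b' := by
    rw [show a * a' * (b * b') = (a * b) * (a' * b') by ring]
    exact Nat.mul_div_cancel_left _ (Nat.mul_pos ha0 hb0)
  have e2 : a * a' / a = a' := Nat.mul_div_cancel_left _ ha0
  have e3 : b * b' / b = b' := Nat.mul_div_cancel_left _ hb0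
  rw [e1, e2, e3]
  -- coprimality of all cross pairs
  have hab' : a.Coprime b' := (h.coprime_dvd_left (Dvd.intro _ rfl)).coprime_dvd_right
    (Dvd.intro_left _ rfl)
  have ha'b : a'.Coprime b := (h.coprime_dvd_left (Dvd.intro_left _ rfl)).coprime_dvd_right
    (Dvd.intro _ rfl)
  have ha'b' : a'.Coprime b' := (h.coprime_dvd_left (Dvd.intro_left _ rfl)).coprime_dvd_right
    (Dvd.intro_left _ rfl)
  have hab : a.Coprime b := (h.coprime_dvd_left (Dvd.intro _ rfl)).coprime_dvd_right
    (Dvd.intro _ rfl)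
  have g1 : Nat.gcd (a * b) (a' * b') = Nat.gcd a a' * Nat.gcd b b' := by
    rw [Nat.Coprime.gcd_mul _ ha'b']
    congr 1
    · exact Nat.Coprime.gcd_mul_right_cancel a ha'b.symm
    · exact Nat.Coprime.gcd_mul_left_cancel b hab'
  rw [g1]
  refine Nat.totient_mul ?_
  exact (hab.coprime_dvd_left (Nat.gcd_dvd_left _ _)).coprime_dvd_right (Nat.gcd_dvd_left _ _)

theorem cuspCount_prime' {q : ℕ} (hq : q.Prime) : cuspCount q = 2 := by
  unfold cuspCount
  rw [hq.divisors, Finset.sum_insert (by simpa using hq.ne_one.symm), Finset.sum_singleton]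
  simp [Nat.div_self hq.pos]

theorem dedekindPsi_prime' {q : ℕ} (hq : q.Prime) : dedekindPsi q = q + 1 := by
  have := Fermat.Agent.S20_helper27.dedekindPsi_prime_pow hq one_pos
  simpa using this

theorem dedekindPsi_pos' {n : ℕ} (hn : 0 < n) : 0 < dedekindPsi n := by
  unfold dedekindPsi
  refine Finset.sum_pos' (fun _ _ => Nat.zero_le _) ⟨1, ?_, ?_⟩
  · simp [hn.ne']
  · simpa using hn

/-! ### the node count -/

/-- **the node count in closed form** -/
theorem node_count_eq {q N' : ℕ} (hq : q.Prime) (h : ¬ q ∣ N') :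
    1 + genusFormula (q * N') - 2 * genusFormula N'
      = ((q : ℚ) - 1) * (dedekindPsi N' : ℚ) / 12
        + (2 - (nuTwo q : ℚ)) * (nuTwo N' : ℚ) / 4
        + (2 - (nuThree q : ℚ)) * (nuThree N' : ℚ) / 3 := by
  have hc : q.Coprime N' := (Nat.Prime.coprime_iff_not_dvd hq).mpr h
  unfold genusFormula
  rw [Fermat.Agent.S20_helper27.dedekindPsi_mul hc, nuTwo_mul hc, nuThree_mul hc, cuspCount_mul hc,
    dedekindPsi_prime' hq, cuspCount_prime' hq]
  push_cast
  ring

/-- **positivity of the node count**: `1 + g(qN') - 2 g(N') > 0`. -/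
theorem node_count_pos {q N' : ℕ} (hq : q.Prime) (hN' : 0 < N') (h : ¬ q ∣ N') :
    0 < 1 + genusFormula (q * N') - 2 * genusFormula N' := by
  rw [node_count_eq hq h]
  have h1 : (0 : ℚ) < ((q : ℚ) - 1) * (dedekindPsi N' : ℚ) / 12 := by
    have hq1 : (1 : ℚ) < q := by exact_mod_cast hq.one_lt
    have hpsi : (0 : ℚ) < dedekindPsi N' := by exact_mod_cast dedekindPsi_pos' hN'
    have : (0 : ℚ) < (q : ℚ) - 1 := by linarith
    positivity
  have h2 : (0 : ℚ) ≤ (2 - (nuTwo q : ℚ)) * (nuTwo N' : ℚ) / 4 := by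
    have : (nuTwo q : ℚ) ≤ 2 := by exact_mod_cast nuTwo_prime_le hq
    have h0 : (0 : ℚ) ≤ 2 - (nuTwo q : ℚ) := by linarith
    positivity
  have h3 : (0 : ℚ) ≤ (2 - (nuThree q : ℚ)) * (nuThree N' : ℚ) / 3 := by
    have : (nuThree q : ℚ) ≤ 2 := by exact_mod_cast nuThree_prime_le hq
    have h0 : (0 : ℚ) ≤ 2 - (nuThree q : ℚ) := by linarith
    positivity
  linarith

/-- natural-number form: if `g`, `g'` are the genera (as naturals) then `2 g' ≤ g`,
i.e. the node count `1 + g - 2 g'` is a natural number `≥ 1`. -/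
theorem two_mul_genus_le {q N' : ℕ} (hq : q.Prime) (hN' : 0 < N') (h : ¬ q ∣ N') {g g' : ℕ}
    (hg : (g : ℚ) = genusFormula (q * N')) (hg' : (g' : ℚ) = genusFormula N') : 2 * g' ≤ g := by
  have := node_count_pos hq hN' h
  rw [← hg, ← hg'] at this
  have h2 : ((2 * g' : ℕ) : ℚ) < ((g + 1 : ℕ) : ℚ) := by
    push_cast
    linarith
  have h3 : 2 * g' < g + 1 := by exact_mod_cast h2
  omega

/-- integer form of the node count: `∃ s : ℕ, 0 < s ∧ s + 2 g' = g + 1`. -/
theorem exists_node_count {q N' : ℕ} (hq : q.Prime) (hN' : 0 < N') (h : ¬ q ∣ N') {g g' : ℕ}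
    (hg : (g : ℚ) = genusFormula (q * N')) (hg' : (g' : ℚ) = genusFormula N') :
    ∃ s : ℕ, 0 < s ∧ s + 2 * g' = g + 1 :=
  ⟨g + 1 - 2 * g', by have := two_mul_genus_le hq hN' h hg hg'; omega,
    by have := two_mul_genus_le hq hN' h hg hg'; omega⟩

end Fermat.Agent.GK.Flat.GenusIneq
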