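/-
GATE-K / N7d (helper49): the `k`-linear Frobenius `Ψ : y(Q) ↦ y(Q^q)` on the residue field
`FresBar N A` of level `N`, `q ∥ N`, `A` over `q` (helper15's `QS.psiF` lives on the type
`FresBar N' A` of the good level `N' = N / q`; the two fields coincide as subfields of `k((Q))`,
this file provides the map on the level-`N` TYPE, which is the residue field of both Gauss
valuations of `F_N`).

* `qExpand_mem_FresBar` : `y ∈ FresBar N A → y(Q^q) ∈ FresBar N A`;
* `psiFN : FresBar N A →ₐ[k] FresBar N A`, `coe_psiFN`, `psiFN_tauF : Ψ τ = τ^q`;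
* `regFin_inv_psiFN` : stability of the chart at infinity (`hΨC`);
* `FresBar_eq_FresBar_good` : `FresBar (N' * q) A = FresBar N' A`, `coe_psiFN_eq_psiF`.
-/
import Fermat.Agent.GK.Flat.SymDegreeInst
import Fermat.Agent.GK.QS.FrobStable

set_option autoImplicit false

noncomputable section

namespace Fermat.Agent.GK.PsiFN

open HahnSeries ModularCurve IsLocalRing
open Fermat.Agent.S24 Fermat.Agent.S24_helper62 Fermat.Agent.GJ.J1 Fermat.Agent.GJ.J1.Val
open Fermat.Agent.GJ.J1.Haupt Fermat.Agent.GK.AL Fermat.Agent.GK.CuspSep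
open Fermat.Agent.GK.Val.TwoVal Fermat.Agent.GJ.J3

variable {q : ℕ} (N : ℕ) [NeZero N] [NeZero q] (A : ValuationSubring Kbar) (h : ExactDvd q N)
variable (hA : A.LiesOverPrime q)

local notation "𝕜" => ResidueField A

include h hA in
/-- **`y ↦ y(Q^q)` preserves the residue field of level `N`, `q ∥ N`** -/
theorem qExpand_mem_FresBar {y : LaurentSeries 𝕜} (hy : y ∈ FresBar N A) :
    qExpand 𝕜 q y ∈ FresBar N A := by
  obtain ⟨N', rfl⟩ := exists_eq_mul_left_of_dvd h.dvd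
  haveI : Fact q.Prime := ⟨h.prime⟩
  haveI : CharP 𝕜 q := charP_residue A h.prime hA
  have hN'0 : N' ≠ 0 := fun h0 => NeZero.ne (N' * q) (by rw [h0, zero_mul])
  haveI : NeZero N' := ⟨hN'0⟩
  have hqN' : ¬ q ∣ N' := fun hd => h.not_sq (by rw [pow_two]; exact Nat.mul_dvd_mul hd dvd_rfl)
  have hres : FresBar (N' * q) A = modularFunctionFieldFullC 𝕜 N' :=
    (degrees N' q A h hqN' hA (jF_mem_Rw (N' * q) A) (isRed2_jF (N' * q) A h hA).1).2.2.1
  rw [hres] at hy ⊢
  exact QS.qExpand_mem_modularFunctionFieldFullC 𝕜 q N' hy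

/-- **the `k`-linear Frobenius** `Ψ : y(Q) ↦ y(Q^q)` of the residue field of level `N` -/
def psiFN : FresBar N A →ₐ[𝕜] FresBar N A where
  toFun y := ⟨qExpand 𝕜 q (y : LaurentSeries 𝕜), qExpand_mem_FresBar N A h hA y.2⟩
  map_one' := Subtype.ext (map_one (qExpand 𝕜 q))
  map_mul' _ _ := Subtype.ext (map_mul (qExpand 𝕜 q) _ _)
  map_zero' := Subtype.ext (map_zero (qExpand 𝕜 q))
  map_add' _ _ := Subtype.ext (map_add (qExpand 𝕜 q) _ _)
  commutes' a := Subtype.ext <| by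
    show qExpand 𝕜 q (algebraMap 𝕜 (LaurentSeries 𝕜) a) = algebraMap 𝕜 (LaurentSeries 𝕜) a
    rw [algebraMap_laurentSeries_eq_single, qExpand_single, mul_zero]

@[simp]
theorem coe_psiFN (y : FresBar N A) :
    (psiFN N A h hA y : LaurentSeries 𝕜) = qExpand 𝕜 q (y : LaurentSeries 𝕜) := rfl

/-- **`Ψ τ = τ ^ q`** -/
theorem psiFN_tauF : psiFN N A h hA (tauF N A) = tauF N A ^ q := by
  haveI : Fact q.Prime := ⟨h.prime⟩
  haveI : CharP 𝕜 q := charP_residue A h.prime hA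
  apply Subtype.ext
  rw [coe_psiFN, coe_tauF]
  push_cast
  rw [coe_tauF]
  exact QS.qExpand_jqModC_char q

/-- `Ψ (1/τ) = (1/τ) ^ q` -/
theorem psiFN_inv_tauF : psiFN N A h hA (tauF N A)⁻¹ = (tauF N A)⁻¹ ^ q := by
  rw [map_inv₀, psiFN_tauF, inv_pow]

/-- **`Ψ` preserves the chart at infinity** `{RegFin k τ⁻¹}` (`hΨC` of `hinf_sym`) -/
theorem regFin_inv_psiFN {a : FresBar N A} (ha : RegFin 𝕜 (tauF N A)⁻¹ a) :
    RegFin 𝕜 (tauF N A)⁻¹ (psiFN N A h hA a) :=
  Fermat.Agent.GK.HinfSym.regFin_inv_algHom (psiFN N A h hA) (psiFN_tauF N A h hA) ha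

end Fermat.Agent.GK.PsiFN
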