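/-
GATE-K / N7d (helper49): comparison of the residue field `FresBar (N' * q) A` of level `N = N' q`
(`q ∤ N'`, `A` over `q`) with the residue field `FresBar N' A` of the good level `N'`: the two are
EQUAL as subfields of `k((Q))`; `goodEquiv` identifies the two TYPES (`coe = id` on Laurent
series), carries `j~` to `τ`, helper15's `psiF` to `psiFN`, and transports `RegFin`, `RegOver`,
`Lfib`.
-/
import Fermat.Agent.GK.Flat.PsiFN
import Fermat.Agent.GK.QS.IntRN

set_option autoImplicit false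

noncomputable section

namespace Fermat.Agent.GK.PsiFNGood

open HahnSeries ModularCurve IsLocalRing Polynomial
open Fermat.Agent.S24 Fermat.Agent.S24_helper62 Fermat.Agent.GJ.J1 Fermat.Agent.GJ.J1.Val
open Fermat.Agent.GJ.J1.Haupt Fermat.Agent.GK.AL Fermat.Agent.GK.CuspSep
open Fermat.Agent.GK.Val.TwoVal Fermat.Agent.GJ.J3 Fermat.Agent.GK.PsiFN

/-! ### transport of `RegFin`, `RegOver`, `Lfib` along an algebra isomorphism -/

section Transport

variable {K F F' : Type*} [Field K] [Field F] [Field F'] [Algebra K F] [Algebra K F']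

theorem regFin_algEquiv (e : F ≃ₐ[K] F') {s x : F} (hx : RegFin K s x) :
    RegFin K (e s) (e x) :=
  Fermat.Agent.GK.QS.RegFin.map_algHom (e : F →ₐ[K] F') (regFin_self _) hx

theorem regFin_algEquiv_iff (e : F ≃ₐ[K] F') {s x : F} :
    RegFin K (e s) (e x) ↔ RegFin K s x := by
  refine ⟨fun hx => ?_, regFin_algEquiv e⟩
  have := regFin_algEquiv e.symm hx
  rwa [e.symm_apply_apply, e.symm_apply_apply] at this

theorem regOver_algEquiv (e : F ≃ₐ[K] F') {s x : F} (hx : RegOver K s x) :
    RegOver K (e s) (e x) := by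
  obtain ⟨b, hb0, hb⟩ := hx
  refine ⟨b, hb0, ?_⟩
  have h1 : e (Polynomial.aeval s b) = Polynomial.aeval (e s) b :=
    (Polynomial.aeval_algHom_apply (e : F →ₐ[K] F') s b).symm
  have := regFin_algEquiv e hb
  rwa [map_mul, h1] at this

theorem mem_Lfib_algEquiv (e : F ≃ₐ[K] F') {t x : F} {n : ℤ} (hx : x ∈ Lfib K t n) :
    e x ∈ Lfib K (e t) n := by
  rw [mem_Lfib] at hx ⊢
  obtain ⟨h1, h2⟩ := hx
  refine ⟨fun c => ?_, ?_⟩
  · have := regOver_algEquiv e (h1 c)
    rwa [map_sub, e.commutes] at this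
  · have := regOver_algEquiv e h2
    rwa [map_mul, map_zpow₀, map_inv₀] at this

theorem mem_Lfib_algEquiv_iff (e : F ≃ₐ[K] F') {t x : F} {n : ℤ} :
    e x ∈ Lfib K (e t) n ↔ x ∈ Lfib K t n := by
  refine ⟨fun hx => ?_, mem_Lfib_algEquiv e⟩
  have := mem_Lfib_algEquiv e.symm hx
  rwa [e.symm_apply_apply, e.symm_apply_apply] at this

end Transport

/-! ### the identification -/

variable {q : ℕ} [NeZero q] (A : ValuationSubring Kbar) (hA : A.LiesOverPrime q)
variable (N' : ℕ) [NeZero N'] [NeZero (N' * q)] (h' : ExactDvd q (N' * q))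

local notation "𝕜" => ResidueField A

include h' in
theorem not_dvd_good : ¬ q ∣ N' := fun hd =>
  h'.not_sq (by rw [pow_two]; exact Nat.mul_dvd_mul hd dvd_rfl)

include h' hA in
/-- the residue fields of level `N' q` and of the good level `N'` coincide inside `k((Q))` -/
theorem FresBar_mul_eq : FresBar (N' * q) A = FresBar N' A := by
  haveI : Fact q.Prime := ⟨h'.prime⟩
  have hqN' : ¬ q ∣ N' := not_dvd_good N' h'
  have hres : FresBar (N' * q) A = modularFunctionFieldFullC 𝕜 N' :=
    (degrees N' q A h' hqN' hA (jF_mem_Rw (N' * q) A) (isRed2_jF (N' * q) A h' hA).1).2.2.1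
  rw [hres, Res.FresBar_eq_fullC N' A hqN' hA]

/-- the identification of the two residue-field TYPES -/
def goodEquiv : FresBar N' A ≃ₐ[𝕜] FresBar (N' * q) A :=
  IntermediateField.equivOfEq (FresBar_mul_eq A hA N' h').symm

theorem coe_goodEquiv (y : FresBar N' A) :
    ((goodEquiv A hA N' h' y : FresBar (N' * q) A) : LaurentSeries 𝕜) = (y : LaurentSeries 𝕜) := by
  unfold goodEquiv IntermediateField.equivOfEq
  exact congrArg Subtype.val (Subalgebra.equivOfEq_apply _ _ _ _)

theorem coe_goodEquiv_symm (y : FresBar (N' * q) A) :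
    (((goodEquiv A hA N' h').symm y : FresBar N' A) : LaurentSeries 𝕜) = (y : LaurentSeries 𝕜) := by
  have := coe_goodEquiv A hA N' h' ((goodEquiv A hA N' h').symm y)
  rw [AlgEquiv.apply_symm_apply] at this
  exact this.symm

/-- `τ` of level `N' q` is `j~` of level `N'` -/
theorem goodEquiv_jt : goodEquiv A hA N' h' (Fermat.Agent.GK.QS.jt N' A) = tauF (N' * q) A := by
  apply Subtype.ext
  rw [coe_goodEquiv, Fermat.Agent.GK.QS.coe_jt, coe_tauF]

/-- `psiFN` is helper15's `psiF` under the identification -/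
theorem psiFN_goodEquiv [Fact q.Prime] (hqN' : ¬ q ∣ N') (y : FresBar N' A) :
    psiFN (N' * q) A h' hA (goodEquiv A hA N' h' y) =
      goodEquiv A hA N' h' (Fermat.Agent.GK.QS.psiF N' q A hqN' hA y) := by
  apply Subtype.ext
  rw [coe_psiFN, coe_goodEquiv, coe_goodEquiv, Fermat.Agent.GK.QS.coe_psiF]

/-- `Lfib` of the good level vs `Lfib` of level `N' q` -/
theorem mem_Lfib_goodEquiv_iff {y : FresBar N' A} {n : ℤ} :
    goodEquiv A hA N' h' y ∈ Lfib 𝕜 (tauF (N' * q) A) n ↔
      y ∈ Lfib 𝕜 (Fermat.Agent.GK.QS.jt N' A) n := by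
  rw [← goodEquiv_jt A hA N' h']
  exact mem_Lfib_algEquiv_iff (goodEquiv A hA N' h')

end Fermat.Agent.GK.PsiFNGood
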