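import Fermat.Agent.GK.Flat.Pencil
import Fermat.Agent.GJ.J1.InstRed

/-!
# GATE-K / N7d-INST-S : the lattice side of the pencil count (helper66)

`K` algebraically closed (`= ℚ̄`), `F / K` a function field, `t : F` the chart (`= j`),
`B : Subring F` the closed unit ball of the sup norm (`= Rw₁ ⊓ Rw₂`), `red : B →+* Ω` the
reduction to the residue ring (`Ω = F~₁ × F~₂`, a `k`-algebra, NOT a domain), `A ⊂ K` the
valuation ring of the base with residue map `res : A →+* k`.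

* `latS D t n : Submodule k Ω` := `red (Lfib K t n ∩ B)` — the reduction of the lattice
  `L(n·(t)_∞)_A`.
* `latS_mono`, `red_t_mul_mem_latS` : stability under `s0 = 1` and `s1 = red t`.
* `exists_mem_latS_of_regFin` (finite chart, step (2) of board 2196 (ii)) :
  `x ∈ B` integral over `K[t]` ⟹ `red x ∈ latS (n + a)` for all large `a`.
* `exists_pow_mul_mem_latS_of_regFin_inv` (chart at infinity, step (3)) :
  `y ∈ B` integral over `K[t⁻¹]` ⟹ `(red t)^(n+a) * red y ∈ latS (n + a)` for all large `a`.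
* `exists_latS_eq` : **`∃ N0, ∀ N ≥ N0, latS D t N = T N`** for any graded family `T` satisfying
  the hypotheses of `Pencil.eventually_eq_of_count` (fibre side, helper34) together with
  the two chart-membership hypotheses `hfin`, `hinf`.
* `const_eq_of_latS` : the numerical consequence `b' = b` (`1 - g(N) = 2 - 2 g(N') - |Σ|`).
-/

namespace Fermat.Agent.GK.PencilInstS

open Module Fermat.Agent.GJ.J1 Fermat.Agent.GJ.J1.G1 Fermat.Agent.GJ.J1.InstRed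
open Fermat.Agent.GK.Pencil

variable {K F k Ω : Type*} [Field K] [Field F] [Algebra K F] [Field k] [CommRing Ω] [Algebra k Ω]

/-- The reduction data of the sup-norm unit ball. -/
structure BallRed (K F k Ω : Type*) [Field K] [Field F] [Algebra K F] [Field k] [CommRing Ω]
    [Algebra k Ω] where
  /-- the valuation ring of the base field -/
  A : ValuationSubring K
  /-- the closed unit ball (`Rw₁ ⊓ Rw₂`) -/
  B : Subring F
  algebraMap_mem : ∀ a : A, algebraMap K F (a : K) ∈ B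
  /-- residue map of the base -/
  res : A →+* k
  res_surjective : Function.Surjective res
  /-- reduction to the residue ring -/
  red : B →+* Ω
  red_algebraMap : ∀ a : A, red ⟨algebraMap K F (a : K), algebraMap_mem a⟩ = algebraMap k Ω (res a)

variable (D : BallRed K F k Ω)

/-- `red (Lfib K t n ∩ B)` as a `k`-subspace of `Ω`. -/
def latS (t : F) (n : ℕ) : Submodule k Ω where
  carrier := {z | ∃ x, ∃ hx : x ∈ D.B, x ∈ Lfib K t (n : ℤ) ∧ D.red ⟨x, hx⟩ = z}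
  zero_mem' := ⟨0, D.B.zero_mem, (Lfib K t (n : ℤ)).zero_mem, map_zero _⟩
  add_mem' := by
    rintro _ _ ⟨x, hx, hxL, rfl⟩ ⟨y, hy, hyL, rfl⟩
    refine ⟨x + y, D.B.add_mem hx hy, (Lfib K t (n : ℤ)).add_mem hxL hyL, ?_⟩
    rw [← map_add]
    rfl
  smul_mem' := by
    rintro c _ ⟨x, hx, hxL, rfl⟩
    obtain ⟨a, rfl⟩ := D.res_surjective c
    refine ⟨algebraMap K F (a : K) * x, D.B.mul_mem (D.algebraMap_mem a) hx, ?_, ?_⟩
    · rw [← Algebra.smul_def]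
      exact (Lfib K t (n : ℤ)).smul_mem _ hxL
    · have : (⟨algebraMap K F (a : K) * x, D.B.mul_mem (D.algebraMap_mem a) hx⟩ : D.B)
          = ⟨algebraMap K F (a : K), D.algebraMap_mem a⟩ * ⟨x, hx⟩ := rfl
      rw [this, map_mul, D.red_algebraMap, Algebra.smul_def]

theorem mem_latS {t : F} {n : ℕ} {z : Ω} :
    z ∈ latS D t n ↔ ∃ x, ∃ hx : x ∈ D.B, x ∈ Lfib K t (n : ℤ) ∧ D.red ⟨x, hx⟩ = z := Iff.rfl

theorem red_mem_latS {t : F} {n : ℕ} {x : F} (hx : x ∈ D.B) (hxL : x ∈ Lfib K t (n : ℤ)) :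
    D.red ⟨x, hx⟩ ∈ latS D t n := ⟨x, hx, hxL, rfl⟩

section Lfib

variable [IsAlgClosed K]

/-- `Lfib` is increasing in the pole bound. -/
theorem Lfib_mono (t : F) {n m : ℕ} (h : n ≤ m) : Lfib K t (n : ℤ) ≤ Lfib K t (m : ℤ) := by
  intro x hx
  rw [mem_Lfib_iff_of_isAlgClosed] at hx ⊢
  refine ⟨hx.1, ?_⟩
  have e : t⁻¹ ^ (m : ℤ) * x = t⁻¹ ^ (m - n) * (t⁻¹ ^ (n : ℤ) * x) := by
    rw [zpow_natCast, zpow_natCast, ← mul_assoc, ← pow_add, Nat.sub_add_cancel h]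
  rw [e]
  exact ((regFin_self (K := K) t⁻¹).pow _).regOver.mul hx.2

/-- `t · L(n (t)_∞) ⊂ L((n+1) (t)_∞)`. -/
theorem mul_mem_Lfib_succ {t : F} (ht0 : t ≠ 0) {n : ℕ} {x : F} (hx : x ∈ Lfib K t (n : ℤ)) :
    t * x ∈ Lfib K t ((n + 1 : ℕ) : ℤ) := by
  rw [mem_Lfib_iff_of_isAlgClosed] at hx ⊢
  refine ⟨(regFin_self t).mul hx.1, ?_⟩
  have e : t⁻¹ ^ ((n + 1 : ℕ) : ℤ) * (t * x) = t⁻¹ ^ (n : ℤ) * x := by
    rw [zpow_natCast, zpow_natCast, pow_succ]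
    field_simp
  rw [e]
  exact hx.2

/-- finite chart: an element integral over `K[t]` lies in `L(m (t)_∞)` for all large `m`. -/
theorem exists_mem_Lfib_of_regFin {t : F} (ht0 : t ≠ 0) {x : F} (hx : RegFin K t x) :
    ∃ M : ℕ, ∀ m : ℕ, M ≤ m → x ∈ Lfib K t (m : ℤ) := by
  obtain ⟨M, hM⟩ := exists_pow_inv_mul_regFin ht0 hx
  refine ⟨M, fun m hm => ?_⟩
  rw [mem_Lfib_iff_of_isAlgClosed]
  refine ⟨hx, ?_⟩
  rw [zpow_natCast]
  exact (regFin_pow_mul_of_le hm hM).regOver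

/-- chart at infinity: for `y` integral over `K[t⁻¹]`, `t^m y ∈ L(m (t)_∞)` for all large `m`. -/
theorem exists_pow_mul_mem_Lfib_of_regFin_inv {t : F} (ht0 : t ≠ 0) {y : F}
    (hy : RegFin K t⁻¹ y) : ∃ M : ℕ, ∀ m : ℕ, M ≤ m → t ^ m * y ∈ Lfib K t (m : ℤ) := by
  have h := exists_pow_inv_mul_regFin (K := K) (inv_ne_zero ht0) hy
  rw [inv_inv] at h
  obtain ⟨M, hM⟩ := h
  refine ⟨M, fun m hm => ?_⟩
  rw [mem_Lfib_iff_of_isAlgClosed]
  refine ⟨regFin_pow_mul_of_le hm hM, ?_⟩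
  have e : t⁻¹ ^ (m : ℤ) * (t ^ m * y) = y := by
    rw [zpow_natCast, ← mul_assoc, ← mul_pow, inv_mul_cancel₀ ht0, one_pow, one_mul]
  rw [e]
  exact hy.regOver

end Lfib

section Stability

variable [IsAlgClosed K] {t : F}

theorem latS_mono {n m : ℕ} (h : n ≤ m) : latS D t n ≤ latS D t m := by
  rintro _ ⟨x, hx, hxL, rfl⟩
  exact ⟨x, hx, Lfib_mono t h hxL, rfl⟩

theorem red_t_mul_mem_latS (ht : t ∈ D.B) (ht0 : t ≠ 0) {n : ℕ} {z : Ω} (hz : z ∈ latS D t n) :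
    D.red ⟨t, ht⟩ * z ∈ latS D t (n + 1) := by
  obtain ⟨x, hx, hxL, rfl⟩ := hz
  refine ⟨t * x, D.B.mul_mem ht hx, mul_mem_Lfib_succ ht0 hxL, ?_⟩
  rw [← map_mul]
  rfl

/-- **finite chart** (step (2)). -/
theorem exists_mem_latS_of_regFin (ht0 : t ≠ 0) {x : F} (hx : x ∈ D.B) (hxr : RegFin K t x) :
    ∃ M : ℕ, ∀ m : ℕ, M ≤ m → D.red ⟨x, hx⟩ ∈ latS D t m := by
  obtain ⟨M, hM⟩ := exists_mem_Lfib_of_regFin ht0 hxr
  exact ⟨M, fun m hm => ⟨x, hx, hM m hm, rfl⟩⟩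

/-- **chart at infinity** (step (3)). -/
theorem exists_pow_mul_mem_latS_of_regFin_inv (ht : t ∈ D.B) (ht0 : t ≠ 0) {y : F}
    (hy : y ∈ D.B) (hyr : RegFin K t⁻¹ y) :
    ∃ M : ℕ, ∀ m : ℕ, M ≤ m → D.red ⟨t, ht⟩ ^ m * D.red ⟨y, hy⟩ ∈ latS D t m := by
  obtain ⟨M, hM⟩ := exists_pow_mul_mem_Lfib_of_regFin_inv ht0 hyr
  refine ⟨M, fun m hm => ⟨t ^ m * y, D.B.mul_mem (D.B.pow_mem ht m) hy, hM m hm, ?_⟩⟩
  rw [← map_pow, ← map_mul]
  rfl

end Stability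

section Main

variable [IsAlgClosed K] {t : F} (T : ℕ → Submodule k Ω)

/-- **N7d-INST-S.**  The reduced lattices `latS D t N = red (L(N (t)_∞) ∩ B)` coincide with the
fibre-side spaces `T N` for all large `N`, provided

* `T` satisfies the fibre-side hypotheses of the pencil count (`hT0 hT1 h4 hdim`, with `s0 = 1`,
  `s1 = red t`),
* `hST` : reductions of lattice elements lie in `T` (N4 + glueing),
* `hfin` : every element of `T (n0 + 1)` is the reduction of an element of `B` integral over `K[t]`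
  (`T n ⊂ B~ = red (B ∩ O_fin)`, step (2)),
* `hinf` : every element of `T (n0 + 1)` is `(red t)^(n0+1)` times the reduction of an element of
  `B` integral over `K[t⁻¹]` (`z / s1^n ∈ B_∞~`, step (3)). -/
theorem exists_latS_eq [∀ n, FiniteDimensional k (T n)] (ht : t ∈ D.B) (ht0 : t ≠ 0)
    (hs1 : ∀ z : Ω, D.red ⟨t, ht⟩ * z = 0 → z = 0)
    (hST : ∀ n, latS D t n ≤ T n)
    (hT0 : ∀ n, T n ≤ T (n + 1))
    (hT1 : ∀ n, ∀ z ∈ T n, D.red ⟨t, ht⟩ * z ∈ T (n + 1))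
    (h4 : ∀ n, ∀ w ∈ T (n + 1), D.red ⟨t, ht⟩ * w ∈ T (n + 1) → w ∈ T n)
    (a b : ℤ) (n0 : ℕ) (hdim : ∀ n, n0 ≤ n → (finrank k (T n) : ℤ) = a * n + b)
    (hfin : ∀ z ∈ T (n0 + 1), ∃ x, ∃ hx : x ∈ D.B, RegFin K t x ∧ D.red ⟨x, hx⟩ = z)
    (hinf : ∀ z ∈ T (n0 + 1), ∃ y, ∃ hy : y ∈ D.B, RegFin K t⁻¹ y ∧
      D.red ⟨t, ht⟩ ^ (n0 + 1) * D.red ⟨y, hy⟩ = z) :
    ∃ N0, ∀ N, N0 ≤ N → latS D t N = T N := by
  refine eventually_eq_of_count (1 : Ω) (D.red ⟨t, ht⟩) (latS D t) T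
    (fun z hz => by simpa using hz) hs1 hST
    (fun n z hz => by rw [one_mul]; exact latS_mono D (Nat.le_succ n) hz)
    (fun n z hz => red_t_mul_mem_latS D ht ht0 hz)
    (fun n z hz => by rw [one_mul]; exact hT0 n hz) hT1 ?_ a b n0 hdim ?_
  · intro n x hx y hy hxy
    rw [one_mul] at hxy
    refine ⟨y, h4 n y hy (hxy ▸ hx), hxy, (one_mul y).symm⟩
  · intro z hz
    obtain ⟨x, hx, hxr, rfl⟩ := hfin z hz
    obtain ⟨y, hy, hyr, hyz⟩ := hinf _ hz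
    obtain ⟨M1, hM1⟩ := exists_mem_latS_of_regFin D ht0 hx hxr
    obtain ⟨M2, hM2⟩ := exists_pow_mul_mem_latS_of_regFin_inv D ht ht0 hy hyr
    refine ⟨max M1 M2, ?_, ?_⟩
    · rw [one_pow, one_mul]
      exact hM1 _ (by have := le_max_left M1 M2; omega)
    · have h := hM2 (n0 + 1 + max M1 M2) (by have := le_max_right M1 M2; omega)
      have e : D.red ⟨t, ht⟩ ^ max M1 M2 * D.red ⟨x, hx⟩
          = D.red ⟨t, ht⟩ ^ (n0 + 1 + max M1 M2) * D.red ⟨y, hy⟩ := by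
        rw [← hyz, pow_add]
        ring
      rw [e]
      exact h

/-- **Numerical consequence**: if `finrank (latS D t n) = a' n + b'` (N2: rank of the lattice +
injectivity of the reduction modulo `𝔪_A`; `a' = [F : K(t)]`, `b' = 1 - g`) and
`finrank (T n) = a n + b` (nodal Riemann: `b = 2 - g₁ - g₂ - |Σ|`) for large `n`, then
`a' = a` and `b' = b`. -/
theorem const_eq_of_latS [∀ n, FiniteDimensional k (T n)] (ht : t ∈ D.B) (ht0 : t ≠ 0)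
    (hs1 : ∀ z : Ω, D.red ⟨t, ht⟩ * z = 0 → z = 0)
    (hST : ∀ n, latS D t n ≤ T n)
    (hT0 : ∀ n, T n ≤ T (n + 1))
    (hT1 : ∀ n, ∀ z ∈ T n, D.red ⟨t, ht⟩ * z ∈ T (n + 1))
    (h4 : ∀ n, ∀ w ∈ T (n + 1), D.red ⟨t, ht⟩ * w ∈ T (n + 1) → w ∈ T n)
    (a b : ℤ) (n0 : ℕ) (hdim : ∀ n, n0 ≤ n → (finrank k (T n) : ℤ) = a * n + b)
    (hfin : ∀ z ∈ T (n0 + 1), ∃ x, ∃ hx : x ∈ D.B, RegFin K t x ∧ D.red ⟨x, hx⟩ = z)
    (hinf : ∀ z ∈ T (n0 + 1), ∃ y, ∃ hy : y ∈ D.B, RegFin K t⁻¹ y ∧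
      D.red ⟨t, ht⟩ ^ (n0 + 1) * D.red ⟨y, hy⟩ = z)
    (a' b' : ℤ) (hdimS : ∀ n, n0 ≤ n → (finrank k (latS D t n) : ℤ) = a' * n + b') :
    a' = a ∧ b' = b :=
  coeff_eq_of_eventually_eq (latS D t) T
    (exists_latS_eq D T ht ht0 hs1 hST hT0 hT1 h4 a b n0 hdim hfin hinf) a b a' b' n0 hdim hdimS

end Main

end Fermat.Agent.GK.PencilInstS
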