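import Fermat.Agent.GK.Flat.PencilInstS
import Fermat.Agent.GK.Nodal.FrobGlueInfty

/-!
# GATE-K / N7d : the chart-at-infinity hypothesis `hinf` of `PencilInstS` from `hfin` (helper29)

`D : BallRed K F k (Ft × Ft)` is helper66's reduction datum of the sup-norm unit ball
(`Ω = Ft × Ft`, `Ft` the residue function field `F~_{N'}`), `Ψ : Ft →ₐ[k] Ft` the relative
Frobenius (`Ψ f = f ∘ Frob`), `t = j`.

* `redAlg D s` : the `k`-subalgebra `red {x ∈ B | x integral over K[s]}` of `Ft × Ft`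
  (`s = t` : the reduction `B~` of the finite chart; `s = t⁻¹` : the reduction `B_∞~` of the
  chart at infinity).
* `exists_pow_mul_mem_redAlg_inv` : `B[1/t] ⊆ ⋃ t ^ m B_∞` after reduction.
* `hinf_of_hfin` : **helper66's hypothesis `hinf` follows from `hfin`**, the pole bound of the
  fibre-side space (`hpole`), the two graphs over the chart at infinity `C₁` of the fibre
  (`h1`, `h2` : old functions `α* f`, `β* f`, `f` regular off `j = 0` at level `N'`) and ONE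
  K-CUSP element `e ∈ B_∞~` with `e.1 - Ψ e.2 = 1 + c * tt` (`tt = 1 / j~`; e.g.
  `e = red (j_q / j ^ q) = (1, tt ^ (q² - 1))`).  No nodes, no primes, no Dedekind hypothesis.
* `hinf_of_hfin_sigma` : the same for a general chart `t` (e.g. the symmetric `t = j * j_q`),
  where `σ = red t⁻¹` is any element with components in `C₁` and `e.1 - Ψ e.2 = 1 + c * σ.1`.
-/

set_option autoImplicit false

namespace Fermat.Agent.GK.PencilInf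

open Fermat.Agent.GJ.J1 Fermat.Agent.GJ.J1.InstRed Fermat.Agent.GK.PencilInstS
open Fermat.Agent.GK.FrobGlue

variable {K F k Ft : Type*} [Field K] [Field F] [Algebra K F] [Field k] [CommRing Ft]
  [Algebra k Ft]

variable (D : BallRed K F k (Ft × Ft))

/-- `red {x ∈ B | x integral over K[s]}` as a `k`-subalgebra of `Ft × Ft`. -/
def redAlg (s : F) : Subalgebra k (Ft × Ft) where
  carrier := {z | ∃ x, ∃ hx : x ∈ D.B, RegFin K s x ∧ D.red ⟨x, hx⟩ = z}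
  mul_mem' := by
    rintro _ _ ⟨x, hx, hxr, rfl⟩ ⟨y, hy, hyr, rfl⟩
    refine ⟨x * y, D.B.mul_mem hx hy, hxr.mul hyr, ?_⟩
    rw [← map_mul]
    rfl
  add_mem' := by
    rintro _ _ ⟨x, hx, hxr, rfl⟩ ⟨y, hy, hyr, rfl⟩
    refine ⟨x + y, D.B.add_mem hx hy, hxr.add hyr, ?_⟩
    rw [← map_add]
    rfl
  algebraMap_mem' := by
    intro c
    obtain ⟨a, rfl⟩ := D.res_surjective c
    exact ⟨algebraMap K F (a : K), D.algebraMap_mem a, regFin_algebraMap s (a : K),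
      D.red_algebraMap a⟩

theorem mem_redAlg {s : F} {z : Ft × Ft} :
    z ∈ redAlg D s ↔ ∃ x, ∃ hx : x ∈ D.B, RegFin K s x ∧ D.red ⟨x, hx⟩ = z := Iff.rfl

theorem red_mem_redAlg {s x : F} (hx : x ∈ D.B) (hxr : RegFin K s x) :
    D.red ⟨x, hx⟩ ∈ redAlg D s := ⟨x, hx, hxr, rfl⟩

/-- `red t * red t⁻¹ = 1`. -/
theorem red_mul_red_inv {t : F} (ht : t ∈ D.B) (ht0 : t ≠ 0) (hti : t⁻¹ ∈ D.B) :
    D.red ⟨t, ht⟩ * D.red ⟨t⁻¹, hti⟩ = 1 := by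
  rw [← map_mul]
  have : (⟨t, ht⟩ : D.B) * ⟨t⁻¹, hti⟩ = 1 := Subtype.ext (mul_inv_cancel₀ ht0)
  rw [this, map_one]

/-- **localisation**: every element of `B~` is moved into `B_∞~` by a power of `red t⁻¹`. -/
theorem exists_pow_mul_mem_redAlg_inv {t : F} (ht0 : t ≠ 0) (hti : t⁻¹ ∈ D.B)
    {z : Ft × Ft} (hz : z ∈ redAlg D t) :
    ∃ m : ℕ, D.red ⟨t⁻¹, hti⟩ ^ m * z ∈ redAlg D t⁻¹ := by
  obtain ⟨x, hx, hxr, rfl⟩ := hz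
  obtain ⟨m, hm⟩ := exists_pow_inv_mul_regFin (K := K) ht0 hxr
  refine ⟨m, t⁻¹ ^ m * x, D.B.mul_mem (D.B.pow_mem hti m) hx, hm, ?_⟩
  rw [← map_pow, ← map_mul]
  rfl

/-- **`hinf` from `hfin`.**  `T` is the fibre-side space of degree `n` (`T (n0 + 1)` in
`PencilInstS.exists_latS_eq`), `C₁` the chart at infinity of the fibre. -/
theorem hinf_of_hfin (Ψ : Ft →ₐ[k] Ft) {t : F} (ht : t ∈ D.B) (ht0 : t ≠ 0) (hti : t⁻¹ ∈ D.B)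
    (C₁ : Subalgebra k Ft) (hΨ : ∀ a ∈ C₁, Ψ a ∈ C₁)
    (h1 : ∀ a ∈ C₁, (a, Ψ a) ∈ redAlg D t⁻¹) (h2 : ∀ b ∈ C₁, (Ψ b, b) ∈ redAlg D t⁻¹)
    {tt : Ft} (htt : tt ∈ C₁) (hσ : D.red ⟨t⁻¹, hti⟩ = (tt, Ψ tt))
    {e : Ft × Ft} (he : e ∈ redAlg D t⁻¹) (he2 : e.2 ∈ C₁) {c : Ft} (hc : c ∈ C₁)
    (hec : e.1 - Ψ e.2 = 1 + c * tt)
    (T : Submodule k (Ft × Ft)) (n : ℕ)
    (hfin : ∀ z ∈ T, ∃ x, ∃ hx : x ∈ D.B, RegFin K t x ∧ D.red ⟨x, hx⟩ = z)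
    (hpole : ∀ z ∈ T, (((tt, Ψ tt) : Ft × Ft) ^ n * z).1 ∈ C₁ ∧
      (((tt, Ψ tt) : Ft × Ft) ^ n * z).2 ∈ C₁) :
    ∀ z ∈ T, ∃ y, ∃ hy : y ∈ D.B, RegFin K t⁻¹ y ∧ D.red ⟨t, ht⟩ ^ n * D.red ⟨y, hy⟩ = z := by
  intro z hz
  have hz0 : z ∈ redAlg D t := hfin z hz
  have hloc : ∀ w ∈ redAlg D t, ∃ m : ℕ, ((tt, Ψ tt) : Ft × Ft) ^ m * w ∈ redAlg D t⁻¹ := by
    intro w hw
    obtain ⟨m, hm⟩ := exists_pow_mul_mem_redAlg_inv D ht0 hti hw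
    exact ⟨m, hσ ▸ hm⟩
  obtain ⟨y, hy, hyr, hyz⟩ := transfer Ψ C₁ hΨ (redAlg D t) (redAlg D t⁻¹) h1 h2 htt he he2 hc hec
    hloc hz0 n (hpole z hz).1 (hpole z hz).2
  refine ⟨y, hy, hyr, ?_⟩
  rw [hyz, ← hσ, ← mul_assoc, ← mul_pow, red_mul_red_inv D ht ht0 hti, one_pow, one_mul]

/-- `red t⁻¹ ∈ B_∞~`. -/
theorem red_inv_mem_redAlg {t : F} (hti : t⁻¹ ∈ D.B) :
    D.red ⟨t⁻¹, hti⟩ ∈ redAlg D t⁻¹ :=
  red_mem_redAlg D hti (regFin_self (K := K) t⁻¹)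

/-- **`hinf` from `hfin`, general chart** (e.g. the symmetric chart `t = j * j_q`, where
`σ = red t⁻¹ = (s ^ (1 + q), s ^ (1 + q))` is NOT of the form `(u, Ψ u)`): the K-CUSP element `e`
satisfies `e.1 - Ψ e.2 = 1 + c * σ.1`. -/
theorem hinf_of_hfin_sigma (Ψ : Ft →ₐ[k] Ft) {t : F} (ht : t ∈ D.B) (ht0 : t ≠ 0)
    (hti : t⁻¹ ∈ D.B)
    (C₁ : Subalgebra k Ft) (hΨ : ∀ a ∈ C₁, Ψ a ∈ C₁)
    (h1 : ∀ a ∈ C₁, (a, Ψ a) ∈ redAlg D t⁻¹) (h2 : ∀ b ∈ C₁, (Ψ b, b) ∈ redAlg D t⁻¹)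
    (hσ1 : (D.red ⟨t⁻¹, hti⟩).1 ∈ C₁) (hσ2 : (D.red ⟨t⁻¹, hti⟩).2 ∈ C₁)
    {e : Ft × Ft} (he : e ∈ redAlg D t⁻¹) (he2 : e.2 ∈ C₁) {c : Ft} (hc : c ∈ C₁)
    (hec : e.1 - Ψ e.2 = 1 + c * (D.red ⟨t⁻¹, hti⟩).1)
    (T : Submodule k (Ft × Ft)) (n : ℕ)
    (hfin : ∀ z ∈ T, ∃ x, ∃ hx : x ∈ D.B, RegFin K t x ∧ D.red ⟨x, hx⟩ = z)
    (hpole : ∀ z ∈ T, (D.red ⟨t⁻¹, hti⟩ ^ n * z).1 ∈ C₁ ∧ (D.red ⟨t⁻¹, hti⟩ ^ n * z).2 ∈ C₁) :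
    ∀ z ∈ T, ∃ y, ∃ hy : y ∈ D.B, RegFin K t⁻¹ y ∧ D.red ⟨t, ht⟩ ^ n * D.red ⟨y, hy⟩ = z := by
  intro z hz
  have hz0 : z ∈ redAlg D t := hfin z hz
  have hloc : ∀ w ∈ redAlg D t, ∃ m : ℕ, D.red ⟨t⁻¹, hti⟩ ^ m * w ∈ redAlg D t⁻¹ :=
    fun w hw => exists_pow_mul_mem_redAlg_inv D ht0 hti hw
  obtain ⟨y, hy, hyr, hyz⟩ := transfer_sigma Ψ C₁ hΨ (redAlg D t) (redAlg D t⁻¹) h1 h2
    (red_inv_mem_redAlg D hti) hσ1 hσ2 he he2 hc hec hloc hz0 n (hpole z hz).1 (hpole z hz).2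
  refine ⟨y, hy, hyr, ?_⟩
  rw [hyz, ← mul_assoc, ← mul_pow, red_mul_red_inv D ht ht0 hti, one_pow, one_mul]

end Fermat.Agent.GK.PencilInf
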