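import Fermat.Agent.GK.Flat.PencilInstS2
import Fermat.Agent.GK.Flat.PencilInf
import Fermat.Agent.GK.NodalPole
import Fermat.Agent.GJ.J1.GenusBridge2

/-!
# GATE-K / N7d-ASSEMBLY : the hard inequality of the node count, hypothesis form (helper66)

This file glues the landed pieces of the pencil count into ONE theorem, free of concrete
modular objects and generic in the chart `t` (the symmetric chart `t = j * j_q` plugs in):

* `PencilInstS2.const_le_of_latS` (helper66) : `T N ≤ red (L(N (t)_∞) ∩ B)` for large `N`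
  + the trivial half of ORTH  ⟹  `b ≤ b'`;
* `NodalGraded.T`, `T_mono`, `smul_mem_T`, `cancel_mem_T`, `exists_finrank_T` (helper34) : the
  fibre side `T n = {z ∈ L(n D₁) × L(n D₂) | z.1 (P j) = z.2 (Q j)}`, its stability, `(h4)` and
  its Hilbert function;
* `NodalPole.pole_T` (helper34) : the pole bound `hpole` in chart language;
* `PencilInf.hinf_of_hfin_sigma` (helper29) : the chart at infinity from the finite chart, the
  two graphs over `C₁` and ONE K-CUSP element.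

Setting: `K` algebraically closed, `F / K` the generic fibre, `D : BallRed K F k (Ft × Ft)` the
reduction datum of the sup-norm unit ball, `Ft` the residue function field (Place API over `k`),
`t, t⁻¹ ∈ B` the chart with `red t = (t₁, t₂)`, `t_i` with exact pole divisor `D_i` on `Ft`,
nodes `P j, Q j` (degree one, off `D_i`), `Ψ` the relative Frobenius, `C₁ ⊆ Ft` a subalgebra
containing every function integral over `k[t_i⁻¹]` (the functions regular at the cusps).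

* `hinf_T` : the hypothesis `hinf` of `PencilInstS` for the family `T`.
* `card_nodes_ge` : `ℓ₁(0) + ℓ₂(0) - g₁ - g₂ - card ι ≤ b'` when
  `dim_K L(n (t)_∞) = (deg D₁ + deg D₂) n + b'` for large `n`.
* `card_nodes_ge_gLat` : the same with `b' = 1 - gLat K t`, from
  `[F : K(t)] = deg D₁ + deg D₂` (`t` separating): `1 + gLat K t ≤ g₁ + g₂ + card ι` when
  `ℓ_i(0) = 1`, i.e. **`|Σ| ≥ 1 + g(N) - 2 g(N')`**.
-/

set_option autoImplicit false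
set_option linter.unusedSectionVars false

noncomputable section

open AlgebraicCurve IntermediateField Module

namespace Fermat.Agent.GK.NodesGe

open Fermat.Agent.RRh45 Fermat.Agent.RR Fermat.Agent.S24
open Fermat.Agent.GJ.J1 Fermat.Agent.GJ.J1.InstRed
open Fermat.Agent.GK.PencilInstS Fermat.Agent.GK.PencilInf
open Fermat.Agent.GK.NodalGraded Fermat.Agent.GK.NodalPole

variable {K F k Ft : Type*} [Field K] [Field F] [Algebra K F] [Field k] [Field Ft] [Algebra k Ft]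
variable (D : BallRed K F k (Ft × Ft))
variable {ι : Type*} {P Q : ι → Place k Ft} {D₁ D₂ : Divisor k Ft} {t₁ t₂ : Ft}

/-- `red t⁻¹ = (t₁⁻¹, t₂⁻¹)` when `red t = (t₁, t₂)`. -/
theorem red_inv_eq {t : F} (ht : t ∈ D.B) (ht0 : t ≠ 0) (hti : t⁻¹ ∈ D.B)
    (hred : D.red ⟨t, ht⟩ = (t₁, t₂)) :
    D.red ⟨t⁻¹, hti⟩ = (t₁⁻¹, t₂⁻¹) := by
  have h := red_mul_red_inv D ht ht0 hti
  rw [hred] at h
  have e1 : t₁ * (D.red ⟨t⁻¹, hti⟩).1 = 1 := congrArg Prod.fst h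
  have e2 : t₂ * (D.red ⟨t⁻¹, hti⟩).2 = 1 := congrArg Prod.snd h
  refine Prod.ext ?_ ?_
  · exact eq_inv_of_mul_eq_one_right e1
  · exact eq_inv_of_mul_eq_one_right e2

/-- **`hinf` for the glued Riemann–Roch family `T`** : every `z ∈ T n` is `(red t) ^ n * red y`
with `y ∈ B` integral over `K[t⁻¹]`. -/
theorem hinf_T (x₁ : Ft) [IsGen k x₁] {t : F} (ht : t ∈ D.B) (ht0 : t ≠ 0) (hti : t⁻¹ ∈ D.B)
    (hred : D.red ⟨t, ht⟩ = (t₁, t₂))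
    (ht₁ : ExactPoles t₁ D₁) (ht₂ : ExactPoles t₂ D₂)
    (Ψ : Ft →ₐ[k] Ft) (C₁ : Subalgebra k Ft) (hΨ : ∀ a ∈ C₁, Ψ a ∈ C₁)
    (hC1 : ∀ x, RegFin k t₁⁻¹ x → x ∈ C₁) (hC2 : ∀ x, RegFin k t₂⁻¹ x → x ∈ C₁)
    (h1 : ∀ a ∈ C₁, (a, Ψ a) ∈ redAlg D t⁻¹) (h2 : ∀ b ∈ C₁, (Ψ b, b) ∈ redAlg D t⁻¹)
    {e : Ft × Ft} (he : e ∈ redAlg D t⁻¹) (he2 : e.2 ∈ C₁) {c : Ft} (hc : c ∈ C₁)
    (hec : e.1 - Ψ e.2 = 1 + c * t₁⁻¹)
    (n : ℕ)
    (hfin : ∀ z ∈ T P Q D₁ D₂ n, ∃ x, ∃ hx : x ∈ D.B, RegFin K t x ∧ D.red ⟨x, hx⟩ = z) :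
    ∀ z ∈ T P Q D₁ D₂ n, ∃ y, ∃ hy : y ∈ D.B, RegFin K t⁻¹ y ∧
      D.red ⟨t, ht⟩ ^ n * D.red ⟨y, hy⟩ = z := by
  have hσ := red_inv_eq D ht ht0 hti hred
  refine hinf_of_hfin_sigma D Ψ ht ht0 hti C₁ hΨ h1 h2 ?_ ?_ he he2 hc ?_ (T P Q D₁ D₂ n) n hfin ?_
  · rw [hσ]
    exact hC1 _ (regFin_self (K := k) t₁⁻¹)
  · rw [hσ]
    exact hC2 _ (regFin_self (K := k) t₂⁻¹)
  · rw [hσ]
    exact hec
  · intro z hz
    obtain ⟨-, -, h3, h4⟩ := pole_T x₁ x₁ ht₁ ht₂ hz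
    rw [hσ]
    refine ⟨?_, ?_⟩
    · have : (((t₁⁻¹, t₂⁻¹) : Ft × Ft) ^ n * z).1 = t₁⁻¹ ^ n * z.1 := by simp
      rw [this]
      exact hC1 _ h3
    · have : (((t₁⁻¹, t₂⁻¹) : Ft × Ft) ^ n * z).2 = t₂⁻¹ ^ n * z.2 := by simp
      rw [this]
      exact hC2 _ h4

variable [Fintype ι] [DecidableEq ι]
variable [FiniteResidues k Ft] [HasPrincipalDivisors k Ft] [Nonempty (Place k Ft)]

/-- **N7d, the hard inequality in hypothesis form.**  If `dim_K L(n (t)_∞) = a n + b'` for large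
`n` with `a = deg D₁ + deg D₂`, then the constant term of the Hilbert function of the nodal
fibre is at most `b'`. -/
theorem card_nodes_ge [IsAlgClosed K] (x₁ : Ft) [IsGen k x₁]
    {t : F} (ht : t ∈ D.B) (ht0 : t ≠ 0) (hti : t⁻¹ ∈ D.B)
    [∀ n : ℕ, FiniteDimensional K (Lfib K t (n : ℤ))]
    (hred : D.red ⟨t, ht⟩ = (t₁, t₂))
    (hP : Function.Injective P) (hQ : Function.Injective Q)
    (hdegP : ∀ j, (P j).deg = 1) (hdegQ : ∀ j, (Q j).deg = 1)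
    (hD₁ : ∀ j, D₁ (P j) = 0) (hD₂ : ∀ j, D₂ (Q j) = 0)
    (hpos₁ : 0 < Divisor.degree D₁) (hpos₂ : 0 < Divisor.degree D₂)
    (ht₁ : ExactPoles t₁ D₁) (ht₂ : ExactPoles t₂ D₂)
    (hs : ((t₁, t₂) : Ft × Ft) ∈ T P Q D₁ D₂ 1)
    (Ψ : Ft →ₐ[k] Ft) (C₁ : Subalgebra k Ft) (hΨ : ∀ a ∈ C₁, Ψ a ∈ C₁)
    (hC1 : ∀ x, RegFin k t₁⁻¹ x → x ∈ C₁) (hC2 : ∀ x, RegFin k t₂⁻¹ x → x ∈ C₁)
    (h1 : ∀ a ∈ C₁, (a, Ψ a) ∈ redAlg D t⁻¹) (h2 : ∀ b ∈ C₁, (Ψ b, b) ∈ redAlg D t⁻¹)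
    {e : Ft × Ft} (he : e ∈ redAlg D t⁻¹) (he2 : e.2 ∈ C₁) {c : Ft} (hc : c ∈ C₁)
    (hec : e.1 - Ψ e.2 = 1 + c * t₁⁻¹)
    (hfin : ∀ n, ∀ z ∈ T P Q D₁ D₂ n, z ∈ redAlg D t)
    (b' : ℤ) (n₁ : ℕ)
    (hdimK : ∀ n : ℕ, n₁ ≤ n → (finrank K (Lfib K t (n : ℤ)) : ℤ)
      = (Divisor.degree D₁ + Divisor.degree D₂) * n + b') :
    (finrank k (riemannRochSpace (0 : Divisor k Ft)) : ℤ)
        + finrank k (riemannRochSpace (0 : Divisor k Ft))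
        - genusFF k Ft - genusFF k Ft - Fintype.card ι ≤ b' := by
  obtain ⟨n₀, hn₀⟩ := exists_finrank_T (k := k) hP hQ hdegP hdegQ hD₁ hD₂ hpos₁ hpos₂
  set N := max n₀ n₁ with hN
  refine const_le_of_latS D (T P Q D₁ D₂) ht ht0 ?_ ?_ ?_ ?_
    (Divisor.degree D₁ + Divisor.degree D₂) _ N ?_ ?_ ?_ b' ?_
  · -- `red t` is a non-zero-divisor of `Ft × Ft`
    intro z hz
    rw [hred] at hz
    have e1 : t₁ * z.1 = 0 := congrArg Prod.fst hz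
    have e2 : t₂ * z.2 = 0 := congrArg Prod.snd hz
    exact Prod.ext ((mul_eq_zero.mp e1).resolve_left ht₁.ne_zero)
      ((mul_eq_zero.mp e2).resolve_left ht₂.ne_zero)
  · exact fun n => T_mono ht₁.nonneg ht₂.nonneg n
  · intro n z hz
    rw [hred]
    exact smul_mem_T ht₁ ht₂ hs hz
  · intro n w hw hsw
    rw [hred] at hsw
    exact cancel_mem_T ht₁ ht₂ hw hsw
  · intro n hn
    rw [hn₀ n (le_trans (le_max_left _ _) hn)]
    ring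
  · exact fun z hz => hfin (N + 1) z hz
  · exact hinf_T D x₁ ht ht0 hti hred ht₁ ht₂ Ψ C₁ hΨ hC1 hC2 h1 h2 he he2 hc hec (N + 1)
      (fun z hz => hfin (N + 1) z hz)
  · exact fun n hn => hdimK n (le_trans (le_max_right _ _) hn)

/-- **`|Σ| ≥ 1 + g(N) - 2 g(N')`** : the same with the generic-fibre side supplied by the lattice
Riemann theorem `GenusBridge2.finrank_Lfib_eq_gLat` (`t` a separating chart of degree
`deg D₁ + deg D₂`). -/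
theorem card_nodes_ge_gLat [IsAlgClosed K] (x₁ : Ft) [IsGen k x₁]
    {t : F} (ht : t ∈ D.B) (ht0 : t ≠ 0) (hti : t⁻¹ ∈ D.B)
    (htr : Transcendental K t) [FiniteDimensional K⟮t⟯ F] [Algebra.IsSeparable K⟮t⟯ F]
    (hdeg : (finrank K⟮t⟯ F : ℤ) = Divisor.degree D₁ + Divisor.degree D₂)
    (hred : D.red ⟨t, ht⟩ = (t₁, t₂))
    (hP : Function.Injective P) (hQ : Function.Injective Q)
    (hdegP : ∀ j, (P j).deg = 1) (hdegQ : ∀ j, (Q j).deg = 1)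
    (hD₁ : ∀ j, D₁ (P j) = 0) (hD₂ : ∀ j, D₂ (Q j) = 0)
    (hpos₁ : 0 < Divisor.degree D₁) (hpos₂ : 0 < Divisor.degree D₂)
    (ht₁ : ExactPoles t₁ D₁) (ht₂ : ExactPoles t₂ D₂)
    (hs : ((t₁, t₂) : Ft × Ft) ∈ T P Q D₁ D₂ 1)
    (Ψ : Ft →ₐ[k] Ft) (C₁ : Subalgebra k Ft) (hΨ : ∀ a ∈ C₁, Ψ a ∈ C₁)
    (hC1 : ∀ x, RegFin k t₁⁻¹ x → x ∈ C₁) (hC2 : ∀ x, RegFin k t₂⁻¹ x → x ∈ C₁)
    (h1 : ∀ a ∈ C₁, (a, Ψ a) ∈ redAlg D t⁻¹) (h2 : ∀ b ∈ C₁, (Ψ b, b) ∈ redAlg D t⁻¹)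
    {e : Ft × Ft} (he : e ∈ redAlg D t⁻¹) (he2 : e.2 ∈ C₁) {c : Ft} (hc : c ∈ C₁)
    (hec : e.1 - Ψ e.2 = 1 + c * t₁⁻¹)
    (hfin : ∀ n, ∀ z ∈ T P Q D₁ D₂ n, z ∈ redAlg D t) :
    (finrank k (riemannRochSpace (0 : Divisor k Ft)) : ℤ)
        + finrank k (riemannRochSpace (0 : Divisor k Ft)) + gLat K t
      ≤ 1 + genusFF k Ft + genusFF k Ft + Fintype.card ι := by
  obtain ⟨hfd, -⟩ := G0Genus.finrank_Lfib_eq_gLat (K := K) t htr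
  obtain ⟨n₁, hn₁⟩ := G0Genus.finrank_Lfib_natCast_eq_gLat (K := K) t htr
  have : ∀ n : ℕ, FiniteDimensional K (Lfib K t (n : ℤ)) := fun n => hfd (n : ℤ)
  have key := card_nodes_ge D x₁ ht ht0 hti hred hP hQ hdegP hdegQ hD₁ hD₂ hpos₁ hpos₂ ht₁ ht₂ hs
    Ψ C₁ hΨ hC1 hC2 h1 h2 he he2 hc hec hfin (1 - (gLat K t : ℤ)) n₁ (fun n hn => by
      rw [hn₁ n hn, hdeg]
      ring)
  linarith

end Fermat.Agent.GK.NodesGe
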