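/-
GATE-K / N7d, CONCRETE reduction of the hard inequality (helper49): helper66's
`NodesGe.card_nodes_ge_gLat` at the concrete ball `D := ballFN N A h ⊂ F_N` (`q ∥ N`, `A` over `q`)
for the symmetric chart `t := j * j_q`, with

  `t₁ = t₂ := τ^(1+q)`, `D₁ = D₂ := (τ^(1+q))_∞`, `C₁ := {RegFin k τ⁻¹}`,
  `e := red (j_q / j^q) = (1, (τ⁻¹)^(q²-1))`, `c := -(τ⁻¹)^(q(q²-1)-(1+q))`

all discharged.  What is left is exactly: the nodes `P Q` (with `hs`), the relative Frobenius `Ψ`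
(`Ψ τ = τ^q`, stability of `C₁`), the two graphs `h1 h2` (or the old lifts `hα hβ`), `hfin`, and
the degree `hdeg`.
-/
import Fermat.Agent.GK.Flat.NodesGe
import Fermat.Agent.GK.Flat.BallTwo
import Fermat.Agent.GK.Cusp.SymChart
import Fermat.Agent.GK.Red.FrobChart

set_option autoImplicit false

noncomputable section

namespace Fermat.Agent.GK.NodesGeFN

open AlgebraicCurve IntermediateField Module IsLocalRing
open Fermat.Agent.RRh45 Fermat.Agent.RR Fermat.Agent.S24 Fermat.Agent.S24_helper62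
open Fermat.Agent.GJ.J1 Fermat.Agent.GJ.J1.InstRed Fermat.Agent.GJ.J1.Val
open Fermat.Agent.GK.PencilInstS Fermat.Agent.GK.PencilInf Fermat.Agent.GK.HinfSym
open Fermat.Agent.GK.NodalGraded Fermat.Agent.GK.NodalPole
open Fermat.Agent.GK.AL Fermat.Agent.GK.CuspSep Fermat.Agent.GK.BallTwo

variable {q : ℕ} (N : ℕ) [NeZero N] [NeZero q] (A : ValuationSubring Kbar) (h : ExactDvd q N)

local notation "𝕜" => ResidueField A

/-! ### the chart -/

/-- the symmetric chart `t = j * j_q` lies in the ball -/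
theorem tS_mem (hA : A.LiesOverPrime q) : jF N * jdF N q h.dvd ∈ (ballFN N A h).B :=
  (ballFN N A h).B.mul_mem (jF_mem_ballFN N A h hA) (jq_mem_ballFN N A h hA)

theorem tS_ne_zero : jF N * jdF N q h.dvd ≠ 0 :=
  mul_ne_zero (BallTwo.jF_ne_zero N) (jq_ne_zero N h.dvd)

theorem inv_tS_mem (hA : A.LiesOverPrime q) : (jF N * jdF N q h.dvd)⁻¹ ∈ (ballFN N A h).B := by
  rw [mul_inv]
  exact (ballFN N A h).B.mul_mem (inv_jF_mem_ballFN N A h hA) (inv_jq_mem_ballFN N A h hA)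

/-- `red (j j_q) = (τ^(1+q), τ^(1+q))` -/
theorem red_tS (hA : A.LiesOverPrime q) (hx : jF N * jdF N q h.dvd ∈ (ballFN N A h).B) :
    (ballFN N A h).red ⟨jF N * jdF N q h.dvd, hx⟩ =
      (tauF N A ^ (1 + q), tauF N A ^ (1 + q)) := by
  have h1 := Disc.isRed_mul (isRed1_jF N A) (isRed1_jq N A h hA)
  have h2 := Disc.isRed_mul (isRed2_jF N A h hA) (isRed2_jq N A h)
  rw [red_ballFN N A h h1 h2 hx]
  refine Prod.ext ?_ ?_
  · show tauF N A * tauF N A ^ q = tauF N A ^ (1 + q)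
    rw [pow_add, pow_one]
  · show tauF N A ^ q * tauF N A = tauF N A ^ (1 + q)
    rw [pow_add, pow_one, mul_comm]

/-! ### the chart at infinity of the fibre -/

theorem inv_pow_tau : (tauF N A ^ (1 + q))⁻¹ = (tauF N A)⁻¹ ^ (1 + q) := (inv_pow _ _).symm

/-- `C₁ ⊇` everything integral over `k[t₁⁻¹]`, `t₁ = τ^(1+q)` -/
theorem mem_Cinf_of_regFin {x : FresBar N A} (hx : RegFin 𝕜 (tauF N A ^ (1 + q))⁻¹ x) :
    x ∈ Cinf (k := 𝕜) (tauF N A) := by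
  rw [inv_pow_tau, Red.regFin_pow_iff (by omega : 0 < 1 + q)] at hx
  exact hx

/-! ### the K-CUSP element -/

/-- the K-CUSP element of the fibre, `red (j_q / j^q) = (1, (1/τ)^(q²-1))` -/
def eCusp (q' : ℕ) : FresBar N A × FresBar N A := (1, (tauF N A)⁻¹ ^ (q' ^ 2 - 1))

theorem eCusp_mem_redAlg (hA : A.LiesOverPrime q) :
    eCusp N A q ∈ redAlg (ballFN N A h) (jF N * jdF N q h.dvd)⁻¹ := by
  have hmem : e0F N h.dvd ∈ (ballFN N A h).B :=
    mem_B_of_isRed _ (isRed1_e0F N A h hA) (isRed2_e0F N A h hA)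
  have hred : (ballFN N A h).red ⟨e0F N h.dvd, hmem⟩ = eCusp N A q :=
    red_ballFN N A h (isRed1_e0F N A h hA) (isRed2_e0F N A h hA) hmem
  rw [← hred]
  exact red_mem_redAlg (ballFN N A h) hmem (hereg_FN N h.prime h.dvd)

omit [NeZero q] in
theorem eCusp_snd_mem : (eCusp N A q).2 ∈ Cinf (k := 𝕜) (tauF N A) :=
  (Cinf (tauF N A)).pow_mem (inv_mem_Cinf (tauF N A)) _

/-- the constant `c` of the K-CUSP identity -/
def cCusp (q' : ℕ) : FresBar N A := -(tauF N A)⁻¹ ^ (q' * (q' ^ 2 - 1) - (1 + q'))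

omit [NeZero q] in
theorem cCusp_mem : cCusp N A q ∈ Cinf (k := 𝕜) (tauF N A) :=
  (Cinf (tauF N A)).neg_mem ((Cinf (tauF N A)).pow_mem (inv_mem_Cinf (tauF N A)) _)

/-- **the K-CUSP identity** `e.1 - Ψ e.2 = 1 + c * t₁⁻¹` -/
theorem eCusp_identity (hq : 2 ≤ q) (Ψ : FresBar N A →ₐ[𝕜] FresBar N A)
    (hΨτ : Ψ (tauF N A) = tauF N A ^ q) :
    (eCusp N A q).1 - Ψ (eCusp N A q).2 =
      1 + cCusp N A q * (tauF N A ^ (1 + q))⁻¹ := by
  have hΨs : Ψ (tauF N A)⁻¹ = (tauF N A)⁻¹ ^ q := by rw [map_inv₀, hΨτ, inv_pow]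
  have hexp : q * (q ^ 2 - 1) = (q * (q ^ 2 - 1) - (1 + q)) + (1 + q) := by
    have h1 : 1 + q ≤ q * (q ^ 2 - 1) := by
      have h2 : 3 ≤ q ^ 2 - 1 := by
        have : 4 ≤ q ^ 2 := by nlinarith
        omega
      nlinarith
    omega
  rw [inv_pow_tau]
  show (1 : FresBar N A) - Ψ ((tauF N A)⁻¹ ^ (q ^ 2 - 1)) =
    1 + -(tauF N A)⁻¹ ^ (q * (q ^ 2 - 1) - (1 + q)) * (tauF N A)⁻¹ ^ (1 + q)
  rw [map_pow, hΨs, ← pow_mul, neg_mul, ← pow_add, ← hexp]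
  ring

/-! ### the two graphs from the old lifts -/

/-- `h1` from the `α`-old lifts (helper29's `graph_left_mem` at the concrete ball) -/
theorem h1_of_lifts (hA : A.LiesOverPrime q) (Ψ : FresBar N A →ₐ[𝕜] FresBar N A)
    (hΨτ : Ψ (tauF N A) = tauF N A ^ q)
    (hα : ∀ m : ℕ, ∀ y ∈ Lfib 𝕜 (tauF N A) (m : ℤ), ∃ x, ∃ hx : x ∈ (ballFN N A h).B,
      RegFin Kbar (jF N * jdF N q h.dvd)⁻¹ ((jF N)⁻¹ ^ m * x) ∧
        (ballFN N A h).red ⟨x, hx⟩ = (y, Ψ y))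
    {a : FresBar N A} (ha : RegFin 𝕜 (tauF N A)⁻¹ a) :
    (a, Ψ a) ∈ redAlg (ballFN N A h) (jF N * jdF N q h.dvd)⁻¹ := by
  haveI : IsAlgClosed 𝕜 := Fermat.Agent.GJ.ResidueAlgClosed.isAlgClosed_residueField A
  have hredj : (ballFN N A h).red ⟨jF N, jF_mem_ballFN N A h hA⟩ = (tauF N A, Ψ (tauF N A)) := by
    rw [hΨτ]; exact red_jF N A h hA _
  exact graph_left_mem (ballFN N A h) Ψ (tauF_ne_zero N A) (jF_mem_ballFN N A h hA)
    (BallTwo.jF_ne_zero N) (inv_jF_mem_ballFN N A h hA) hredj hα ha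

/-- `h2` from the `β`-old lifts (helper29's `graph_right_mem` at the concrete ball) -/
theorem h2_of_lifts (hA : A.LiesOverPrime q) (Ψ : FresBar N A →ₐ[𝕜] FresBar N A)
    (hΨτ : Ψ (tauF N A) = tauF N A ^ q)
    (hβ : ∀ m : ℕ, ∀ y ∈ Lfib 𝕜 (tauF N A) (m : ℤ), ∃ x, ∃ hx : x ∈ (ballFN N A h).B,
      RegFin Kbar (jF N * jdF N q h.dvd)⁻¹ ((jdF N q h.dvd)⁻¹ ^ m * x) ∧
        (ballFN N A h).red ⟨x, hx⟩ = (Ψ y, y))
    {b : FresBar N A} (hb : RegFin 𝕜 (tauF N A)⁻¹ b) :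
    (Ψ b, b) ∈ redAlg (ballFN N A h) (jF N * jdF N q h.dvd)⁻¹ := by
  haveI : IsAlgClosed 𝕜 := Fermat.Agent.GJ.ResidueAlgClosed.isAlgClosed_residueField A
  have hredjq : (ballFN N A h).red ⟨jdF N q h.dvd, jq_mem_ballFN N A h hA⟩ =
      (Ψ (tauF N A), tauF N A) := by
    rw [hΨτ]; exact red_jq N A h hA _
  exact graph_right_mem (ballFN N A h) Ψ (tauF_ne_zero N A) (jq_mem_ballFN N A h hA)
    (jq_ne_zero N h.dvd) (inv_jq_mem_ballFN N A h hA) hredjq hβ hb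

/-! ### the hard inequality, concrete form -/

/-- the instance needed to STATE `card_nodes_ge_FN` (`haveI := hasPrincipalDivisors_Fres …`) -/
theorem hasPrincipalDivisors_Fres (hgen : IsGen 𝕜 (tauF N A)) :
    HasPrincipalDivisors 𝕜 (FresBar N A) :=
  haveI := hgen
  Fermat.Agent.GJ.FF.PrincipalOf.hasPrincipalDivisors_gen (tauF N A)

/-- separability of `F_N / ℚ̄(j j_q)` (characteristic zero) -/
theorem isSeparable_tS :
    Algebra.IsSeparable Kbar⟮jF N * jdF N q h.dvd⟯ (FN N) := by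
  have h1 := SymChart.isGen_tS N h.dvd
  have : FiniteDimensional Kbar⟮jF N * jdF N q h.dvd⟯ (FN N) := h1.finite
  have : CharZero Kbar⟮jF N * jdF N q h.dvd⟯ := inferInstance
  have : PerfectField Kbar⟮jF N * jdF N q h.dvd⟯ := PerfectField.ofCharZero
  have : Algebra.IsAlgebraic Kbar⟮jF N * jdF N q h.dvd⟯ (FN N) := Algebra.IsAlgebraic.of_finite _ _
  exact Algebra.IsAlgebraic.isSeparable_of_perfectField

/-- **`|Σ| ≥ 1 + g(N) − 2 g(N')`, concrete reduction.**  `ℓ(0) + ℓ(0) + g(N) ≤ 1 + g̃ + g̃ + |Σ|`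
for the nodal family `T` of the special fibre glued along `P j ~ Q j`, from: the nodes, the
relative Frobenius `Ψ`, the two graphs over the chart at infinity, `hfin`, and the degree. -/
theorem card_nodes_ge_FN (hA : A.LiesOverPrime q) (hgen : IsGen 𝕜 (tauF N A))
    [HasPrincipalDivisors 𝕜 (FresBar N A)] {ι : Type*} [Fintype ι] [DecidableEq ι] {P Q : ι → Place 𝕜 (FresBar N A)}
    (hdeg : (finrank Kbar⟮jF N * jdF N q h.dvd⟯ (FN N) : ℤ) =
      Divisor.degree (Bound.poleDiv 𝕜 (tauF N A ^ (1 + q))) +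
        Divisor.degree (Bound.poleDiv 𝕜 (tauF N A ^ (1 + q))))
    (hP : Function.Injective P) (hQ : Function.Injective Q)
    (hdegP : ∀ j, (P j).deg = 1) (hdegQ : ∀ j, (Q j).deg = 1)
    (hD₁ : ∀ j, Bound.poleDiv 𝕜 (tauF N A ^ (1 + q)) (P j) = 0)
    (hD₂ : ∀ j, Bound.poleDiv 𝕜 (tauF N A ^ (1 + q)) (Q j) = 0)
    (hs : ((tauF N A ^ (1 + q), tauF N A ^ (1 + q)) : FresBar N A × FresBar N A) ∈
      T P Q (Bound.poleDiv 𝕜 (tauF N A ^ (1 + q))) (Bound.poleDiv 𝕜 (tauF N A ^ (1 + q))) 1)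
    (Ψ : FresBar N A →ₐ[𝕜] FresBar N A) (hΨτ : Ψ (tauF N A) = tauF N A ^ q)
    (hΨC : ∀ a, RegFin 𝕜 (tauF N A)⁻¹ a → RegFin 𝕜 (tauF N A)⁻¹ (Ψ a))
    (h1 : ∀ a, RegFin 𝕜 (tauF N A)⁻¹ a →
      (a, Ψ a) ∈ redAlg (ballFN N A h) (jF N * jdF N q h.dvd)⁻¹)
    (h2 : ∀ b, RegFin 𝕜 (tauF N A)⁻¹ b →
      (Ψ b, b) ∈ redAlg (ballFN N A h) (jF N * jdF N q h.dvd)⁻¹)
    (hfin : ∀ n, ∀ z ∈ T P Q (Bound.poleDiv 𝕜 (tauF N A ^ (1 + q)))
      (Bound.poleDiv 𝕜 (tauF N A ^ (1 + q))) n, z ∈ redAlg (ballFN N A h) (jF N * jdF N q h.dvd)) :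
    (finrank 𝕜 (riemannRochSpace (0 : Divisor 𝕜 (FresBar N A))) : ℤ)
        + finrank 𝕜 (riemannRochSpace (0 : Divisor 𝕜 (FresBar N A)))
        + gLat Kbar (jF N * jdF N q h.dvd)
      ≤ 1 + genusFF 𝕜 (FresBar N A) + genusFF 𝕜 (FresBar N A) + Fintype.card ι := by
  haveI := hgen
  haveI : FiniteResidues 𝕜 (FresBar N A) := Fermat.Agent.GJ.FF.finiteResidues (tauF N A)
  haveI : Nonempty (Place 𝕜 (FresBar N A)) := Fermat.Agent.GJ.FF.nonempty_place (tauF N A)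
  haveI : FiniteDimensional Kbar⟮jF N * jdF N q h.dvd⟯ (FN N) := (SymChart.isGen_tS N h.dvd).finite
  haveI := isSeparable_tS N h
  have ht1tr : Transcendental 𝕜 (tauF N A ^ (1 + q)) :=
    (transcendental_tauF N A).pow (by omega)
  have ht10 : tauF N A ^ (1 + q) ≠ 0 := pow_ne_zero _ (tauF_ne_zero N A)
  exact NodesGe.card_nodes_ge_gLat (ballFN N A h) (tauF N A) (tS_mem N A h hA) (tS_ne_zero N h)
    (inv_tS_mem N A h hA) (SymChart.transcendental_tS N h.dvd) hdeg (red_tS N A h hA _)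
    hP hQ hdegP hdegQ hD₁ hD₂ (degree_poleDiv_pos (tauF N A) ht1tr)
    (degree_poleDiv_pos (tauF N A) ht1tr) (exactPoles_poleDiv ht10) (exactPoles_poleDiv ht10) hs
    Ψ (Cinf (tauF N A)) (fun a ha => hΨC a ha)
    (fun x hx => mem_Cinf_of_regFin N A hx) (fun x hx => mem_Cinf_of_regFin N A hx)
    (fun a ha => h1 a ha) (fun b hb => h2 b hb)
    (eCusp_mem_redAlg N A h hA) (eCusp_snd_mem N A) (cCusp_mem N A)
    (eCusp_identity N A h.prime.two_le Ψ hΨτ) hfin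

end Fermat.Agent.GK.NodesGeFN
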