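/-
GATE-K / N7d, CONCRETE reduction, step 2 (helper49): `NodesGeFN.card_nodes_ge_FN` with
`Ψ := psiFN` (Frobenius of the residue field of level `N`), `hΨτ`, `hΨC` (helper29
`regFin_inv_algHom`), `hdeg` and `IsGen k τ` (helper92 `SymDegreeInst`) plugged in, and the two
graphs `h1 h2` replaced by the old lifts `hα hβ`.

REMAINING hypotheses: the nodes `P Q` (`hP hQ hdegP hdegQ hD₁ hD₂ hs`), the old lifts `hα hβ`, and
`hfin`.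
-/
import Fermat.Agent.GK.Flat.NodesGeFN
import Fermat.Agent.GK.Flat.PsiFN
import Fermat.Agent.GK.Flat.SymDegreeInst

set_option autoImplicit false

noncomputable section

namespace Fermat.Agent.GK.NodesGeFN

open AlgebraicCurve IntermediateField Module IsLocalRing
open Fermat.Agent.RRh45 Fermat.Agent.RR Fermat.Agent.S24 Fermat.Agent.S24_helper62
open Fermat.Agent.GJ.J1 Fermat.Agent.GJ.J1.InstRed Fermat.Agent.GJ.J1.Val
open Fermat.Agent.GK.PencilInstS Fermat.Agent.GK.PencilInf Fermat.Agent.GK.HinfSym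
open Fermat.Agent.GK.NodalGraded Fermat.Agent.GK.NodalPole
open Fermat.Agent.GK.AL Fermat.Agent.GK.CuspSep Fermat.Agent.GK.BallTwo Fermat.Agent.GK.PsiFN

variable {q : ℕ} (N : ℕ) [NeZero N] [NeZero q] (A : ValuationSubring Kbar) (h : ExactDvd q N)

local notation "𝕜" => ResidueField A

/-- `hdeg` of `card_nodes_ge_FN` (helper92 `hdeg_tS_deg`, exponent `1 + q`) -/
theorem hdeg_FN (hA : A.LiesOverPrime q)
    [HasPrincipalDivisors 𝕜 (FresBar N A)] :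
    (finrank Kbar⟮jF N * jdF N q h.dvd⟯ (FN N) : ℤ) =
      Divisor.degree (Bound.poleDiv 𝕜 (tauF N A ^ (1 + q))) +
        Divisor.degree (Bound.poleDiv 𝕜 (tauF N A ^ (1 + q))) := by
  have ht10 : tauF N A ^ (q + 1) ≠ 0 := pow_ne_zero _ (tauF_ne_zero N A)
  rw [add_comm 1 q]
  exact Fermat.Agent.GK.SymDegree.hdeg_tS_deg N A h hA _ _
    (fun v => Bound.poleDiv_apply ht10 v) (fun v => Bound.poleDiv_apply ht10 v)

/-- **`|Σ| ≥ 1 + g(N) − 2 g(N')`, concrete reduction, step 2.** -/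
theorem card_nodes_ge_FN2 (hA : A.LiesOverPrime q)
    [HasPrincipalDivisors 𝕜 (FresBar N A)] {ι : Type*} [Fintype ι] [DecidableEq ι]
    {P Q : ι → Place 𝕜 (FresBar N A)}
    (hP : Function.Injective P) (hQ : Function.Injective Q)
    (hdegP : ∀ j, (P j).deg = 1) (hdegQ : ∀ j, (Q j).deg = 1)
    (hD₁ : ∀ j, Bound.poleDiv 𝕜 (tauF N A ^ (1 + q)) (P j) = 0)
    (hD₂ : ∀ j, Bound.poleDiv 𝕜 (tauF N A ^ (1 + q)) (Q j) = 0)
    (hs : ((tauF N A ^ (1 + q), tauF N A ^ (1 + q)) : FresBar N A × FresBar N A) ∈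
      T P Q (Bound.poleDiv 𝕜 (tauF N A ^ (1 + q))) (Bound.poleDiv 𝕜 (tauF N A ^ (1 + q))) 1)
    (hα : ∀ m : ℕ, ∀ y ∈ Lfib 𝕜 (tauF N A) (m : ℤ), ∃ x, ∃ hx : x ∈ (ballFN N A h).B,
      RegFin Kbar (jF N * jdF N q h.dvd)⁻¹ ((jF N)⁻¹ ^ m * x) ∧
        (ballFN N A h).red ⟨x, hx⟩ = (y, psiFN N A h hA y))
    (hβ : ∀ m : ℕ, ∀ y ∈ Lfib 𝕜 (tauF N A) (m : ℤ), ∃ x, ∃ hx : x ∈ (ballFN N A h).B,
      RegFin Kbar (jF N * jdF N q h.dvd)⁻¹ ((jdF N q h.dvd)⁻¹ ^ m * x) ∧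
        (ballFN N A h).red ⟨x, hx⟩ = (psiFN N A h hA y, y))
    (hfin : ∀ n, ∀ z ∈ T P Q (Bound.poleDiv 𝕜 (tauF N A ^ (1 + q)))
      (Bound.poleDiv 𝕜 (tauF N A ^ (1 + q))) n, z ∈ redAlg (ballFN N A h) (jF N * jdF N q h.dvd)) :
    (finrank 𝕜 (riemannRochSpace (0 : Divisor 𝕜 (FresBar N A))) : ℤ)
        + finrank 𝕜 (riemannRochSpace (0 : Divisor 𝕜 (FresBar N A)))
        + gLat Kbar (jF N * jdF N q h.dvd)
      ≤ 1 + genusFF 𝕜 (FresBar N A) + genusFF 𝕜 (FresBar N A) + Fintype.card ι :=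
  card_nodes_ge_FN N A h hA (Fermat.Agent.GK.SymDegree.isGen_tauF N A) (hdeg_FN N A h hA)
    hP hQ hdegP hdegQ hD₁ hD₂ hs (psiFN N A h hA) (psiFN_tauF N A h hA)
    (fun _ ha => regFin_inv_psiFN N A h hA ha)
    (fun _ ha => h1_of_lifts N A h hA _ (psiFN_tauF N A h hA) hα ha)
    (fun _ hb => h2_of_lifts N A h hA _ (psiFN_tauF N A h hA) hβ hb) hfin

/-! ### variants with the old lifts only in large degree (`m ≥ m0`, J1 surjectivity) -/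

/-- `h1` from the `α`-old lifts in degrees `m ≥ m0` -/
theorem h1_of_lifts_ge (hA : A.LiesOverPrime q) (Ψ : FresBar N A →ₐ[𝕜] FresBar N A)
    (hΨτ : Ψ (tauF N A) = tauF N A ^ q) (m0 : ℕ)
    (hα : ∀ m : ℕ, m0 ≤ m → ∀ y ∈ Lfib 𝕜 (tauF N A) (m : ℤ), ∃ x, ∃ hx : x ∈ (ballFN N A h).B,
      RegFin Kbar (jF N * jdF N q h.dvd)⁻¹ ((jF N)⁻¹ ^ m * x) ∧
        (ballFN N A h).red ⟨x, hx⟩ = (y, Ψ y))
    {a : FresBar N A} (ha : RegFin 𝕜 (tauF N A)⁻¹ a) :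
    (a, Ψ a) ∈ redAlg (ballFN N A h) (jF N * jdF N q h.dvd)⁻¹ := by
  haveI : IsAlgClosed 𝕜 := Fermat.Agent.GJ.ResidueAlgClosed.isAlgClosed_residueField A
  have hredj : (ballFN N A h).red ⟨jF N, jF_mem_ballFN N A h hA⟩ = (tauF N A, Ψ (tauF N A)) := by
    rw [hΨτ]; exact red_jF N A h hA _
  exact graph_left_mem_ge (ballFN N A h) Ψ (tauF_ne_zero N A) (jF_mem_ballFN N A h hA)
    (BallTwo.jF_ne_zero N) (inv_jF_mem_ballFN N A h hA) hredj m0 hα ha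

/-- `h2` from the `β`-old lifts in degrees `m ≥ m0` -/
theorem h2_of_lifts_ge (hA : A.LiesOverPrime q) (Ψ : FresBar N A →ₐ[𝕜] FresBar N A)
    (hΨτ : Ψ (tauF N A) = tauF N A ^ q) (m0 : ℕ)
    (hβ : ∀ m : ℕ, m0 ≤ m → ∀ y ∈ Lfib 𝕜 (tauF N A) (m : ℤ), ∃ x, ∃ hx : x ∈ (ballFN N A h).B,
      RegFin Kbar (jF N * jdF N q h.dvd)⁻¹ ((jdF N q h.dvd)⁻¹ ^ m * x) ∧
        (ballFN N A h).red ⟨x, hx⟩ = (Ψ y, y))
    {b : FresBar N A} (hb : RegFin 𝕜 (tauF N A)⁻¹ b) :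
    (Ψ b, b) ∈ redAlg (ballFN N A h) (jF N * jdF N q h.dvd)⁻¹ := by
  haveI : IsAlgClosed 𝕜 := Fermat.Agent.GJ.ResidueAlgClosed.isAlgClosed_residueField A
  have hredjq : (ballFN N A h).red ⟨jdF N q h.dvd, jq_mem_ballFN N A h hA⟩ =
      (Ψ (tauF N A), tauF N A) := by
    rw [hΨτ]; exact red_jq N A h hA _
  exact graph_right_mem_ge (ballFN N A h) Ψ (tauF_ne_zero N A) (jq_mem_ballFN N A h hA)
    (jq_ne_zero N h.dvd) (inv_jq_mem_ballFN N A h hA) hredjq m0 hβ hb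

/-- **`card_nodes_ge_FN2` with the old lifts only for `m ≥ m0`.** -/
theorem card_nodes_ge_FN2_ge (hA : A.LiesOverPrime q)
    [HasPrincipalDivisors 𝕜 (FresBar N A)] {ι : Type*} [Fintype ι] [DecidableEq ι]
    {P Q : ι → Place 𝕜 (FresBar N A)}
    (hP : Function.Injective P) (hQ : Function.Injective Q)
    (hdegP : ∀ j, (P j).deg = 1) (hdegQ : ∀ j, (Q j).deg = 1)
    (hD₁ : ∀ j, Bound.poleDiv 𝕜 (tauF N A ^ (1 + q)) (P j) = 0)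
    (hD₂ : ∀ j, Bound.poleDiv 𝕜 (tauF N A ^ (1 + q)) (Q j) = 0)
    (hs : ((tauF N A ^ (1 + q), tauF N A ^ (1 + q)) : FresBar N A × FresBar N A) ∈
      T P Q (Bound.poleDiv 𝕜 (tauF N A ^ (1 + q))) (Bound.poleDiv 𝕜 (tauF N A ^ (1 + q))) 1)
    (mα mβ : ℕ)
    (hα : ∀ m : ℕ, mα ≤ m → ∀ y ∈ Lfib 𝕜 (tauF N A) (m : ℤ), ∃ x,
      ∃ hx : x ∈ (ballFN N A h).B,
      RegFin Kbar (jF N * jdF N q h.dvd)⁻¹ ((jF N)⁻¹ ^ m * x) ∧
        (ballFN N A h).red ⟨x, hx⟩ = (y, psiFN N A h hA y))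
    (hβ : ∀ m : ℕ, mβ ≤ m → ∀ y ∈ Lfib 𝕜 (tauF N A) (m : ℤ), ∃ x,
      ∃ hx : x ∈ (ballFN N A h).B,
      RegFin Kbar (jF N * jdF N q h.dvd)⁻¹ ((jdF N q h.dvd)⁻¹ ^ m * x) ∧
        (ballFN N A h).red ⟨x, hx⟩ = (psiFN N A h hA y, y))
    (hfin : ∀ n, ∀ z ∈ T P Q (Bound.poleDiv 𝕜 (tauF N A ^ (1 + q)))
      (Bound.poleDiv 𝕜 (tauF N A ^ (1 + q))) n, z ∈ redAlg (ballFN N A h) (jF N * jdF N q h.dvd)) :
    (finrank 𝕜 (riemannRochSpace (0 : Divisor 𝕜 (FresBar N A))) : ℤ)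
        + finrank 𝕜 (riemannRochSpace (0 : Divisor 𝕜 (FresBar N A)))
        + gLat Kbar (jF N * jdF N q h.dvd)
      ≤ 1 + genusFF 𝕜 (FresBar N A) + genusFF 𝕜 (FresBar N A) + Fintype.card ι :=
  card_nodes_ge_FN N A h hA (Fermat.Agent.GK.SymDegree.isGen_tauF N A) (hdeg_FN N A h hA)
    hP hQ hdegP hdegQ hD₁ hD₂ hs (psiFN N A h hA) (psiFN_tauF N A h hA)
    (fun _ ha => regFin_inv_psiFN N A h hA ha)
    (fun _ ha => h1_of_lifts_ge N A h hA _ (psiFN_tauF N A h hA) mα hα ha)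
    (fun _ hb => h2_of_lifts_ge N A h hA _ (psiFN_tauF N A h hA) mβ hβ hb) hfin

end Fermat.Agent.GK.NodesGeFN
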