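/-
GATE-K / N7d → N9-INST (helper49): helper66's `NodesGe.exists_hdimT` (the inputs `g' c0 hg' hdimT`
of helper30's `claim2_core` / helper44's `ssPackage_twoRed`) at the CONCRETE ball `ballFN N A h`,
symmetric chart `t = j * j_q`, `Ψ = psiFN`, with everything but the nodes, the old lifts and `hfin`
discharged (same reduction as `NodesGeFN.card_nodes_ge_FN2_ge`).
-/
import Fermat.Agent.GK.Flat.NodesGeFN2
import Fermat.Agent.GK.Flat.NodesGeClaim2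

set_option autoImplicit false

noncomputable section

namespace Fermat.Agent.GK.NodesGeFN

open AlgebraicCurve IntermediateField Module IsLocalRing
open Fermat.Agent.RRh45 Fermat.Agent.RR Fermat.Agent.S24 Fermat.Agent.S24_helper62
open Fermat.Agent.GJ.J1 Fermat.Agent.GJ.J1.InstRed Fermat.Agent.GJ.J1.Val Fermat.Agent.GJ.J1.InstGen
open Fermat.Agent.GK.PencilInstS Fermat.Agent.GK.PencilInf Fermat.Agent.GK.HinfSym
open Fermat.Agent.GK.NodalGraded Fermat.Agent.GK.NodalPole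
open Fermat.Agent.GK.AL Fermat.Agent.GK.CuspSep Fermat.Agent.GK.BallTwo Fermat.Agent.GK.PsiFN

variable {q : ℕ} (N : ℕ) [NeZero N] [NeZero q] (A : ValuationSubring Kbar) (h : ExactDvd q N)

local notation "𝕜" => ResidueField A

/-- **`g' c0 hg' hdimT` of `claim2_core` at `F_N`, `q ∥ N`** (symmetric chart), from the nodes, the
old lifts (in degrees `≥ mα, mβ`) and `hfin`. -/
theorem exists_hdimT_FN (hA : A.LiesOverPrime q)
    [FiniteResidues Kbar (FN N)] [HasPrincipalDivisors Kbar (FN N)] [Nonempty (Place Kbar (FN N))]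
    [HasPrincipalDivisors 𝕜 (FresBar N A)] {ι : Type*} [Fintype ι] [DecidableEq ι]
    {P Q : ι → Place 𝕜 (FresBar N A)}
    (hP : Function.Injective P) (hQ : Function.Injective Q)
    (hdegP : ∀ j, (P j).deg = 1) (hdegQ : ∀ j, (Q j).deg = 1)
    (hD₁ : ∀ j, Bound.poleDiv 𝕜 (tauF N A ^ (1 + q)) (P j) = 0)
    (hD₂ : ∀ j, Bound.poleDiv 𝕜 (tauF N A ^ (1 + q)) (Q j) = 0)
    (hs : ((tauF N A ^ (1 + q), tauF N A ^ (1 + q)) : FresBar N A × FresBar N A) ∈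
      T P Q (Bound.poleDiv 𝕜 (tauF N A ^ (1 + q))) (Bound.poleDiv 𝕜 (tauF N A ^ (1 + q))) 1)
    (mα mβ : ℕ)
    (hα : ∀ m : ℕ, mα ≤ m → ∀ y ∈ Lfib 𝕜 (tauF N A) (m : ℤ), ∃ x,
      ∃ hx : x ∈ (ballFN N A h).B,
      RegFin Kbar (jF N * jdF N q h.dvd)⁻¹ ((jF N)⁻¹ ^ m * x) ∧
        (ballFN N A h).red ⟨x, hx⟩ = (y, psiFN N A h hA y))
    (hβ : ∀ m : ℕ, mβ ≤ m → ∀ y ∈ Lfib 𝕜 (tauF N A) (m : ℤ), ∃ x,
      ∃ hx : x ∈ (ballFN N A h).B,
      RegFin Kbar (jF N * jdF N q h.dvd)⁻¹ ((jdF N q h.dvd)⁻¹ ^ m * x) ∧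
        (ballFN N A h).red ⟨x, hx⟩ = (psiFN N A h hA y, y))
    (hfin : ∀ n, ∀ z ∈ T P Q (Bound.poleDiv 𝕜 (tauF N A ^ (1 + q)))
      (Bound.poleDiv 𝕜 (tauF N A ^ (1 + q))) n, z ∈ redAlg (ballFN N A h) (jF N * jdF N q h.dvd)) :
    ∃ g' c0 : ℕ, genusRR Kbar (FN N) ≤ (g' : ℤ) ∧
      g' + 1 = genusFF 𝕜 (FresBar N A) + genusFF 𝕜 (FresBar N A) + Fintype.card ι ∧
      ∀ n, c0 ≤ n →
        finrank 𝕜 (T P Q (Bound.poleDiv 𝕜 (tauF N A ^ (1 + q)))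
          (Bound.poleDiv 𝕜 (tauF N A ^ (1 + q))) n) + g' =
          n * finrank Kbar⟮jF N * jdF N q h.dvd⟯ (FN N) + 1 := by
  haveI := Fermat.Agent.GK.SymDegree.isGen_tauF N A
  haveI : IsAlgClosed 𝕜 := Fermat.Agent.GJ.ResidueAlgClosed.isAlgClosed_residueField A
  haveI : FiniteResidues 𝕜 (FresBar N A) := Fermat.Agent.GJ.FF.finiteResidues (tauF N A)
  haveI : Nonempty (Place 𝕜 (FresBar N A)) := Fermat.Agent.GJ.FF.nonempty_place (tauF N A)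
  haveI : FiniteDimensional Kbar⟮jF N * jdF N q h.dvd⟯ (FN N) := (SymChart.isGen_tS N h.dvd).finite
  haveI := isSeparable_tS N h
  have ht1tr : Transcendental 𝕜 (tauF N A ^ (1 + q)) :=
    (transcendental_tauF N A).pow (by omega)
  have ht10 : tauF N A ^ (1 + q) ≠ 0 := pow_ne_zero _ (tauF_ne_zero N A)
  exact NodesGe.exists_hdimT (ballFN N A h) (tauF N A) (tS_mem N A h hA) (tS_ne_zero N h)
    (inv_tS_mem N A h hA) (SymChart.transcendental_tS N h.dvd) (hdeg_FN N A h hA)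
    (red_tS N A h hA _) hP hQ hdegP hdegQ hD₁ hD₂ (degree_poleDiv_pos (tauF N A) ht1tr)
    (degree_poleDiv_pos (tauF N A) ht1tr) (exactPoles_poleDiv ht10) (exactPoles_poleDiv ht10) hs
    (psiFN N A h hA) (Cinf (tauF N A)) (fun _ ha => regFin_inv_psiFN N A h hA ha)
    (fun x hx => mem_Cinf_of_regFin N A hx) (fun x hx => mem_Cinf_of_regFin N A hx)
    (fun _ ha => h1_of_lifts_ge N A h hA _ (psiFN_tauF N A h hA) mα hα ha)
    (fun _ hb => h2_of_lifts_ge N A h hA _ (psiFN_tauF N A h hA) mβ hβ hb)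
    (eCusp_mem_redAlg N A h hA) (eCusp_snd_mem N A) (cCusp_mem N A)
    (eCusp_identity N A h.prime.two_le _ (psiFN_tauF N A h hA)) hfin

/-- **`g(N) + 1 ≤ 2 g(N') + |Σ|`** at `F_N` (corollary of `exists_hdimT_FN`; the `nodes` field of
helper47's `ChartInput`). -/
theorem genusRR_add_one_le_FN (hA : A.LiesOverPrime q)
    [FiniteResidues Kbar (FN N)] [HasPrincipalDivisors Kbar (FN N)] [Nonempty (Place Kbar (FN N))]
    [HasPrincipalDivisors 𝕜 (FresBar N A)] {ι : Type*} [Fintype ι] [DecidableEq ι]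
    {P Q : ι → Place 𝕜 (FresBar N A)}
    (hP : Function.Injective P) (hQ : Function.Injective Q)
    (hdegP : ∀ j, (P j).deg = 1) (hdegQ : ∀ j, (Q j).deg = 1)
    (hD₁ : ∀ j, Bound.poleDiv 𝕜 (tauF N A ^ (1 + q)) (P j) = 0)
    (hD₂ : ∀ j, Bound.poleDiv 𝕜 (tauF N A ^ (1 + q)) (Q j) = 0)
    (hs : ((tauF N A ^ (1 + q), tauF N A ^ (1 + q)) : FresBar N A × FresBar N A) ∈
      T P Q (Bound.poleDiv 𝕜 (tauF N A ^ (1 + q))) (Bound.poleDiv 𝕜 (tauF N A ^ (1 + q))) 1)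
    (mα mβ : ℕ)
    (hα : ∀ m : ℕ, mα ≤ m → ∀ y ∈ Lfib 𝕜 (tauF N A) (m : ℤ), ∃ x,
      ∃ hx : x ∈ (ballFN N A h).B,
      RegFin Kbar (jF N * jdF N q h.dvd)⁻¹ ((jF N)⁻¹ ^ m * x) ∧
        (ballFN N A h).red ⟨x, hx⟩ = (y, psiFN N A h hA y))
    (hβ : ∀ m : ℕ, mβ ≤ m → ∀ y ∈ Lfib 𝕜 (tauF N A) (m : ℤ), ∃ x,
      ∃ hx : x ∈ (ballFN N A h).B,
      RegFin Kbar (jF N * jdF N q h.dvd)⁻¹ ((jdF N q h.dvd)⁻¹ ^ m * x) ∧
        (ballFN N A h).red ⟨x, hx⟩ = (psiFN N A h hA y, y))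
    (hfin : ∀ n, ∀ z ∈ T P Q (Bound.poleDiv 𝕜 (tauF N A ^ (1 + q)))
      (Bound.poleDiv 𝕜 (tauF N A ^ (1 + q))) n, z ∈ redAlg (ballFN N A h) (jF N * jdF N q h.dvd)) :
    genusRR Kbar (FN N) + 1 ≤
      (genusFF 𝕜 (FresBar N A) : ℤ) + genusFF 𝕜 (FresBar N A) + Fintype.card ι := by
  obtain ⟨g', c0, hg', hg'eq, -⟩ := exists_hdimT_FN N A h hA hP hQ hdegP hdegQ hD₁ hD₂ hs mα mβ
    hα hβ hfin
  have : ((g' + 1 : ℕ) : ℤ) =
      ((genusFF 𝕜 (FresBar N A) + genusFF 𝕜 (FresBar N A) + Fintype.card ι : ℕ) : ℤ) := by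
    exact_mod_cast hg'eq
  push_cast at this
  linarith

end Fermat.Agent.GK.NodesGeFN
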