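import Mathlib

/-!
# GATE-K / N7d-ABS : the pencil count (helper66)

Abstract linear algebra behind step (4)+(5) of the flatness equality
`|Sigma| = 1 + g(N) - 2 g(N')` (board 2196 (ii)).

Setting: `k` a field, `Ω` a commutative `k`-algebra (in use `Ω = F~₁ × F~₂`), two elements
`s0 s1 : Ω` (in use `s0 = red 1 = (1,1)`, `s1 = red j = (j~, j~^q)`), and two `ℕ`-indexed families
of `k`-subspaces `S n ≤ T n` of `Ω` (in use `S n = red (L(nD)_A)`, `T n` = the glued nodal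
Riemann–Roch space of degree `n`).

* `pencil_step` : if `finrank (T n) = a n + b` for `n ≥ n0`, multiplication by `s0`, `s1` is
  injective, maps `T n` to `T (n+1)`, and `s0 x = s1 y` with `x y ∈ T (n+1)` forces
  `x = s1 w`, `y = s0 w` with `w ∈ T n` ("`s0`, `s1` have no common zero"), then
  `T (n+2) = s0 • T (n+1) + s1 • T (n+1)` for `n ≥ n0`.
* `eventually_eq_of_pencil` : if moreover `S` is stable under `s0`, `s1` and every `z ∈ T n2`
  has `s0 ^ a * z ∈ S (n2 + a)` and `s1 ^ a * z ∈ S (n2 + a)` for some `a` (membership in the two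
  affine charts), then `S N = T N` for all large `N`.
* `eventually_eq_of_count` : both steps combined.

Mathlib only.
-/

namespace Fermat.Agent.GK.Pencil

open Module Submodule

variable {k Ω : Type*} [Field k] [CommRing Ω] [Algebra k Ω]

/-- multiplication by `s` as a `k`-linear endomorphism of `Ω`. -/
abbrev mulL (s : Ω) : Ω →ₗ[k] Ω := LinearMap.mulLeft k s

theorem mulL_injective (s : Ω) (hs : ∀ z, s * z = 0 → z = 0) :
    Function.Injective (mulL (k := k) s) := by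
  intro x y hxy
  have h1 : s * x = s * y := hxy
  have h2 : s * (x - y) = 0 := by rw [mul_sub, h1, sub_self]
  exact sub_eq_zero.mp (hs _ h2)

theorem finrank_map_mulL (s : Ω) (hs : ∀ z, s * z = 0 → z = 0) (p : Submodule k Ω) :
    finrank k (p.map (mulL (k := k) s)) = finrank k p :=
  (Submodule.equivMapOfInjective _ (mulL_injective s hs) p).finrank_eq.symm

theorem mem_map_mulL {s : Ω} {p : Submodule k Ω} {x : Ω} :
    x ∈ p.map (mulL (k := k) s) ↔ ∃ w ∈ p, s * w = x := by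
  simp [Submodule.mem_map]

/-- **Pencil step** (step (4) of board 2196 (ii)).  A dimension count shows that the graded
family `T` is generated over the pencil `⟨s0, s1⟩` from degree `n0 + 1` on. -/
theorem pencil_step (s0 s1 : Ω) (T : ℕ → Submodule k Ω) [∀ n, FiniteDimensional k (T n)]
    (hs0 : ∀ z, s0 * z = 0 → z = 0) (hs1 : ∀ z, s1 * z = 0 → z = 0)
    (hT0 : ∀ n, ∀ z ∈ T n, s0 * z ∈ T (n + 1)) (hT1 : ∀ n, ∀ z ∈ T n, s1 * z ∈ T (n + 1))
    (hint : ∀ n, ∀ x ∈ T (n + 1), ∀ y ∈ T (n + 1), s0 * x = s1 * y →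
      ∃ w ∈ T n, x = s1 * w ∧ y = s0 * w)
    (a b : ℤ) (n0 : ℕ) (hdim : ∀ n, n0 ≤ n → (finrank k (T n) : ℤ) = a * n + b) :
    ∀ n, n0 ≤ n →
      T (n + 2) = (T (n + 1)).map (mulL s0) ⊔ (T (n + 1)).map (mulL s1) := by
  intro n hn
  set A : Submodule k Ω := (T (n + 1)).map (mulL s0) with hA
  set B : Submodule k Ω := (T (n + 1)).map (mulL s1) with hB
  have hAle : A ≤ T (n + 2) := by
    intro x hx
    obtain ⟨w, hw, rfl⟩ := mem_map_mulL.mp hx
    exact hT0 (n + 1) w hw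
  have hBle : B ≤ T (n + 2) := by
    intro x hx
    obtain ⟨w, hw, rfl⟩ := mem_map_mulL.mp hx
    exact hT1 (n + 1) w hw
  have hle : A ⊔ B ≤ T (n + 2) := sup_le hAle hBle
  -- the intersection is contained in `s0 s1 T n`
  have hinf : A ⊓ B ≤ (T n).map (mulL (s0 * s1)) := by
    intro v hv
    obtain ⟨hvA, hvB⟩ := Submodule.mem_inf.mp hv
    obtain ⟨x, hx, rfl⟩ := mem_map_mulL.mp hvA
    obtain ⟨y, hy, hxy⟩ := mem_map_mulL.mp hvB
    obtain ⟨w, hw, hxw, -⟩ := hint n x hx y hy hxy.symm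
    refine mem_map_mulL.mpr ⟨w, hw, ?_⟩
    rw [hxw, mul_assoc]
  have hs01 : ∀ z, s0 * s1 * z = 0 → z = 0 := by
    intro z hz
    rw [mul_assoc] at hz
    exact hs1 _ (hs0 _ hz)
  have : FiniteDimensional k A := by rw [hA]; infer_instance
  have : FiniteDimensional k B := by rw [hB]; infer_instance
  have h1 : finrank k (A ⊓ B : Submodule k Ω) ≤ finrank k (T n) := by
    have := Submodule.finrank_mono hinf
    rwa [finrank_map_mulL _ hs01] at this
  have h2 : finrank k (A ⊔ B : Submodule k Ω) + finrank k (A ⊓ B : Submodule k Ω)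
      = finrank k A + finrank k B := Submodule.finrank_sup_add_finrank_inf_eq A B
  have hAr : finrank k A = finrank k (T (n + 1)) := finrank_map_mulL _ hs0 _
  have hBr : finrank k B = finrank k (T (n + 1)) := finrank_map_mulL _ hs1 _
  have d0 := hdim n hn
  have d1 := hdim (n + 1) (by omega)
  have d2 := hdim (n + 2) (by omega)
  have h3 : finrank k (T (n + 2)) ≤ finrank k (A ⊔ B : Submodule k Ω) := by
    have e1 : (finrank k (A ⊔ B : Submodule k Ω) : ℤ) + finrank k (A ⊓ B : Submodule k Ω)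
        = finrank k A + finrank k B := by exact_mod_cast h2
    have hAr' : (finrank k A : ℤ) = finrank k (T (n + 1)) := by exact_mod_cast hAr
    have hBr' : (finrank k B : ℤ) = finrank k (T (n + 1)) := by exact_mod_cast hBr
    have e2 : (finrank k (A ⊓ B : Submodule k Ω) : ℤ) ≤ finrank k (T n) := by exact_mod_cast h1
    have : (finrank k (T (n + 2)) : ℤ) ≤ finrank k (A ⊔ B : Submodule k Ω) := by
      push_cast at d0 d1 d2
      linarith
    exact_mod_cast this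
  exact (Submodule.eq_of_le_of_finrank_le hle h3).symm

/-- `pencil_step` in the `N - 1` form of board 2209. -/
theorem pencil_step' (s0 s1 : Ω) (T : ℕ → Submodule k Ω) [∀ n, FiniteDimensional k (T n)]
    (hs0 : ∀ z, s0 * z = 0 → z = 0) (hs1 : ∀ z, s1 * z = 0 → z = 0)
    (hT0 : ∀ n, ∀ z ∈ T n, s0 * z ∈ T (n + 1)) (hT1 : ∀ n, ∀ z ∈ T n, s1 * z ∈ T (n + 1))
    (hint : ∀ n, ∀ x ∈ T (n + 1), ∀ y ∈ T (n + 1), s0 * x = s1 * y →
      ∃ w ∈ T n, x = s1 * w ∧ y = s0 * w)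
    (a b : ℤ) (n0 : ℕ) (hdim : ∀ n, n0 ≤ n → (finrank k (T n) : ℤ) = a * n + b) :
    ∀ N, n0 + 2 ≤ N →
      T N = (T (N - 1)).map (mulL s0) ⊔ (T (N - 1)).map (mulL s1) := by
  intro N hN
  obtain ⟨n, rfl⟩ : ∃ n, N = n + 2 := ⟨N - 2, by omega⟩
  have := pencil_step s0 s1 T hs0 hs1 hT0 hT1 hint a b n0 hdim n (by omega)
  simpa using this

section Eventually

variable (s0 s1 : Ω) (S T : ℕ → Submodule k Ω)

/-- stability of `S` under powers of `s0`. -/
theorem pow_mul_mem (s : Ω) (hS : ∀ n, ∀ z ∈ S n, s * z ∈ S (n + 1)) :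
    ∀ (c n : ℕ) (z : Ω), z ∈ S n → s ^ c * z ∈ S (n + c) := by
  intro c
  induction c with
  | zero => intro n z hz; simpa using hz
  | succ c ih =>
    intro n z hz
    have h1 := hS (n + c) _ (ih n z hz)
    have e : s ^ (c + 1) * z = s * (s ^ c * z) := by ring
    rw [e]
    exact h1

/-- the span of all `s0^i s1^j w`, `i + j = d`, `w ∈ T n2`. -/
def gen (n2 d : ℕ) : Submodule k Ω :=
  Submodule.span k {x | ∃ i j : ℕ, ∃ w : Ω, i + j = d ∧ w ∈ T n2 ∧ x = s0 ^ i * s1 ^ j * w}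

theorem le_gen (n2 : ℕ)
    (hpen : ∀ N, n2 + 1 ≤ N →
      T N ≤ (T (N - 1)).map (mulL s0) ⊔ (T (N - 1)).map (mulL s1)) :
    ∀ d, T (n2 + d) ≤ gen s0 s1 T n2 d := by
  intro d
  induction d with
  | zero =>
    intro z hz
    refine Submodule.subset_span ⟨0, 0, z, rfl, hz, by simp⟩
  | succ d ih =>
    have h := hpen (n2 + (d + 1)) (by omega)
    have e : n2 + (d + 1) - 1 = n2 + d := by omega
    rw [e] at h
    refine h.trans (sup_le ?_ ?_)
    · refine (Submodule.map_mono ih).trans ?_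
      rw [gen, Submodule.map_span]
      refine Submodule.span_le.mpr ?_
      rintro _ ⟨x, ⟨i, j, w, hij, hw, rfl⟩, rfl⟩
      refine Submodule.subset_span ⟨i + 1, j, w, by omega, hw, ?_⟩
      simp only [LinearMap.mulLeft_apply]
      ring
    · refine (Submodule.map_mono ih).trans ?_
      rw [gen, Submodule.map_span]
      refine Submodule.span_le.mpr ?_
      rintro _ ⟨x, ⟨i, j, w, hij, hw, rfl⟩, rfl⟩
      refine Submodule.subset_span ⟨i, j + 1, w, by omega, hw, ?_⟩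
      simp only [LinearMap.mulLeft_apply]
      ring

/-- uniform exponent: finitely many generators of `T n2`. -/
theorem exists_uniform (n2 : ℕ) [FiniteDimensional k (T n2)]
    (hS0 : ∀ n, ∀ z ∈ S n, s0 * z ∈ S (n + 1)) (hS1 : ∀ n, ∀ z ∈ S n, s1 * z ∈ S (n + 1))
    (hloc : ∀ z ∈ T n2, ∃ a, s0 ^ a * z ∈ S (n2 + a) ∧ s1 ^ a * z ∈ S (n2 + a)) :
    ∃ a, ∀ z ∈ T n2, s0 ^ a * z ∈ S (n2 + a) ∧ s1 ^ a * z ∈ S (n2 + a) := by
  classical
  have hfg : (T n2).FG := (Submodule.fg_iff_finiteDimensional (T n2)).mpr inferInstance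
  obtain ⟨G, hG⟩ := hfg
  have hGT : ∀ g ∈ G, g ∈ T n2 := fun g hg => hG ▸ Submodule.subset_span hg
  choose! f hf using hloc
  refine ⟨G.sup f, ?_⟩
  set a := G.sup f with ha
  -- the set of good `z` is a submodule
  let U : Submodule k Ω :=
    (S (n2 + a)).comap (mulL (s0 ^ a)) ⊓ (S (n2 + a)).comap (mulL (s1 ^ a))
  have hU : ∀ g ∈ G, g ∈ U := by
    intro g hg
    have hle : f g ≤ a := Finset.le_sup hg
    obtain ⟨c, hc⟩ := Nat.exists_eq_add_of_le hle
    obtain ⟨h0, h1⟩ := hf g (hGT g hg)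
    have e0 : s0 ^ a * g = s0 ^ c * (s0 ^ f g * g) := by rw [hc]; ring
    have e1 : s1 ^ a * g = s1 ^ c * (s1 ^ f g * g) := by rw [hc]; ring
    have k0 := pow_mul_mem S s0 hS0 c _ _ h0
    have k1 := pow_mul_mem S s1 hS1 c _ _ h1
    have en : n2 + f g + c = n2 + a := by omega
    rw [en] at k0 k1
    refine Submodule.mem_inf.mpr ⟨?_, ?_⟩
    · show s0 ^ a * g ∈ S (n2 + a)
      rw [e0]; exact k0
    · show s1 ^ a * g ∈ S (n2 + a)
      rw [e1]; exact k1
  have hTU : T n2 ≤ U := by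
    rw [← hG]
    exact Submodule.span_le.mpr hU
  intro z hz
  have := hTU hz
  exact ⟨(Submodule.mem_inf.mp this).1, (Submodule.mem_inf.mp this).2⟩

theorem gen_le (n2 a : ℕ)
    (hS0 : ∀ n, ∀ z ∈ S n, s0 * z ∈ S (n + 1)) (hS1 : ∀ n, ∀ z ∈ S n, s1 * z ∈ S (n + 1))
    (ha : ∀ z ∈ T n2, s0 ^ a * z ∈ S (n2 + a) ∧ s1 ^ a * z ∈ S (n2 + a)) :
    ∀ d, 2 * a ≤ d → gen s0 s1 T n2 d ≤ S (n2 + d) := by
  intro d hd
  refine Submodule.span_le.mpr ?_
  rintro _ ⟨i, j, w, hij, hw, rfl⟩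
  obtain ⟨h0, h1⟩ := ha w hw
  show s0 ^ i * s1 ^ j * w ∈ S (n2 + d)
  by_cases hi : a ≤ i
  · obtain ⟨c, hc⟩ := Nat.exists_eq_add_of_le hi
    have k0 := pow_mul_mem S s0 hS0 c _ _ h0
    have k1 := pow_mul_mem S s1 hS1 j _ _ k0
    have en : n2 + a + c + j = n2 + d := by omega
    rw [en] at k1
    have e : s0 ^ i * s1 ^ j * w = s1 ^ j * (s0 ^ c * (s0 ^ a * w)) := by rw [hc]; ring
    rw [e]; exact k1
  · have hj : a ≤ j := by omega
    obtain ⟨c, hc⟩ := Nat.exists_eq_add_of_le hj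
    have k0 := pow_mul_mem S s1 hS1 c _ _ h1
    have k1 := pow_mul_mem S s0 hS0 i _ _ k0
    have en : n2 + a + c + i = n2 + d := by omega
    rw [en] at k1
    have e : s0 ^ i * s1 ^ j * w = s0 ^ i * (s1 ^ c * (s1 ^ a * w)) := by rw [hc]; ring
    rw [e]; exact k1

/-- **Pencil count** (step (5) of board 2196 (ii)).  If `T` is generated over the pencil
`⟨s0, s1⟩` from degree `n2` on, `S ≤ T` is stable under `s0`, `s1`, and every element of `T n2`
lies in `S` after multiplication by a power of `s0` and by a power of `s1`, then `S N = T N`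
for all large `N`. -/
theorem eventually_eq_of_pencil (n2 : ℕ) [FiniteDimensional k (T n2)]
    (hST : ∀ n, S n ≤ T n)
    (hS0 : ∀ n, ∀ z ∈ S n, s0 * z ∈ S (n + 1)) (hS1 : ∀ n, ∀ z ∈ S n, s1 * z ∈ S (n + 1))
    (hpen : ∀ N, n2 + 1 ≤ N →
      T N ≤ (T (N - 1)).map (mulL s0) ⊔ (T (N - 1)).map (mulL s1))
    (hloc : ∀ z ∈ T n2, ∃ a, s0 ^ a * z ∈ S (n2 + a) ∧ s1 ^ a * z ∈ S (n2 + a)) :
    ∃ N0, ∀ N, N0 ≤ N → S N = T N := by
  obtain ⟨a, ha⟩ := exists_uniform s0 s1 S T n2 hS0 hS1 hloc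
  refine ⟨n2 + 2 * a, fun N hN => le_antisymm (hST N) ?_⟩
  obtain ⟨d, rfl⟩ : ∃ d, N = n2 + d := ⟨N - n2, by omega⟩
  exact (le_gen s0 s1 T n2 hpen d).trans (gen_le s0 s1 S T n2 a hS0 hS1 ha d (by omega))

/-- **Both steps combined**: the dimension count for `T` and local membership at level
`n0 + 1` give `S N = T N` for all large `N`. -/
theorem eventually_eq_of_count [∀ n, FiniteDimensional k (T n)]
    (hs0 : ∀ z, s0 * z = 0 → z = 0) (hs1 : ∀ z, s1 * z = 0 → z = 0)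
    (hST : ∀ n, S n ≤ T n)
    (hS0 : ∀ n, ∀ z ∈ S n, s0 * z ∈ S (n + 1)) (hS1 : ∀ n, ∀ z ∈ S n, s1 * z ∈ S (n + 1))
    (hT0 : ∀ n, ∀ z ∈ T n, s0 * z ∈ T (n + 1)) (hT1 : ∀ n, ∀ z ∈ T n, s1 * z ∈ T (n + 1))
    (hint : ∀ n, ∀ x ∈ T (n + 1), ∀ y ∈ T (n + 1), s0 * x = s1 * y →
      ∃ w ∈ T n, x = s1 * w ∧ y = s0 * w)
    (a b : ℤ) (n0 : ℕ) (hdim : ∀ n, n0 ≤ n → (finrank k (T n) : ℤ) = a * n + b)
    (hloc : ∀ z ∈ T (n0 + 1),
      ∃ c, s0 ^ c * z ∈ S (n0 + 1 + c) ∧ s1 ^ c * z ∈ S (n0 + 1 + c)) :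
    ∃ N0, ∀ N, N0 ≤ N → S N = T N := by
  refine eventually_eq_of_pencil s0 s1 S T (n0 + 1) hST hS0 hS1 ?_ hloc
  intro N hN
  exact (pencil_step' s0 s1 T hs0 hs1 hT0 hT1 hint a b n0 hdim N (by omega)).le

/-- Numerical form: if moreover `finrank (S n) = a' n + b'` for large `n` (and `T` as above with
`a n + b`), then `a' = a` and `b' = b`. -/
theorem coeff_eq_of_eventually_eq [∀ n, FiniteDimensional k (T n)]
    (h : ∃ N0, ∀ N, N0 ≤ N → S N = T N)
    (a b a' b' : ℤ) (n0 : ℕ) (hdimT : ∀ n, n0 ≤ n → (finrank k (T n) : ℤ) = a * n + b)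
    (hdimS : ∀ n, n0 ≤ n → (finrank k (S n) : ℤ) = a' * n + b') :
    a' = a ∧ b' = b := by
  obtain ⟨N0, hN0⟩ := h
  set M := max N0 n0 with hM
  have e0 : (finrank k (S M) : ℤ) = finrank k (T M) := by rw [hN0 M (le_max_left _ _)]
  have e1 : (finrank k (S (M + 1)) : ℤ) = finrank k (T (M + 1)) := by
    rw [hN0 (M + 1) (by have := le_max_left N0 n0; omega)]
  rw [hdimT M (le_max_right _ _), hdimS M (le_max_right _ _)] at e0
  rw [hdimT (M + 1) (by have := le_max_right N0 n0; omega),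
    hdimS (M + 1) (by have := le_max_right N0 n0; omega)] at e1
  push_cast at e0 e1
  constructor
  · linarith
  · have : a' = a := by linarith
    subst this
    linarith

end Eventually

end Fermat.Agent.GK.Pencil
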