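/-
GATE-K / N7d (helper49, hedge of helper23's OldLifts): the `α`- and `β`-old lifts at `F_N`,
`N = N' q`, `q ∤ N'`, `A` over `q` — the hypotheses `hα`, `hβ` of `HdimTFN.exists_hdimT_FN` /
`NodesGeFN.card_nodes_ge_FN2_ge`:

for `m ≥ m0` every `y ∈ L~(m (τ)_∞)` is the first (resp. second) reduction of `x = α f`
(resp. `β f`), `f` a level-`N'` lift of `y` (helper48 `exists_lift_Lfib_jF` = J1 surjectivity), with
`red x = (y, Ψ y)` (resp. `(Ψ y, y)`) and `j⁻ᵐ x` (resp. `j_q⁻ᵐ x`) integral over `ℚ̄[(j j_q)⁻¹]`.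
-/
import Fermat.Agent.GK.Flat.HdimTFN
import Fermat.Agent.GK.Flat.PsiFNGood
import Fermat.Agent.GK.Red.LfibLiftBar
import Fermat.Agent.GK.QS.BTilde

set_option autoImplicit false

noncomputable section

namespace Fermat.Agent.GK.OldLiftsFN

open HahnSeries ModularCurve IsLocalRing
open Fermat.Agent.S24 Fermat.Agent.S24_helper62 Fermat.Agent.GJ.J1 Fermat.Agent.GJ.J1.Val
open Fermat.Agent.GJ.J1.Haupt Fermat.Agent.GJ.HN Fermat.Agent.GK.AL Fermat.Agent.GK.CuspSep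
open Fermat.Agent.GK.BallTwo Fermat.Agent.GK.PsiFN Fermat.Agent.GK.PsiFNGood Fermat.Agent.GK.QS
open Fermat.Agent.GK.PencilInstS

variable {q : ℕ} [NeZero q] [Fact q.Prime] (A : ValuationSubring Kbar) (hA : A.LiesOverPrime q)
variable (N' : ℕ) [NeZero N'] [NeZero (N' * q)] (h' : ExactDvd q (N' * q))

local notation "𝕜" => ResidueField A

/-- `α (1/j) = 1/j` -/
theorem alphaB_inv_jF : alphaB N' q (jF N')⁻¹ = (jF (N' * q))⁻¹ := by
  rw [map_inv₀, alphaB_jF]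

omit [NeZero q] [Fact q.Prime] [NeZero N'] [NeZero (N' * q)] in
theorem jdF_congr_old {M d d' : ℕ} [NeZero M] [NeZero d] [NeZero d'] (hdd : d = d') (hd : d ∣ M)
    (hd' : d' ∣ M) : jdF M d hd = jdF M d' hd' := by
  subst hdd
  rfl

/-- `β (1/j) = 1/j_q` -/
theorem betaB_inv_jF : betaB N' q (jF N')⁻¹ = (jdF (N' * q) q h'.dvd)⁻¹ := by
  rw [map_inv₀]
  congr 1
  show betaB N' q (jdF N' 1 (one_dvd N')) = _
  rw [betaB_jdF]
  exact jdF_congr_old (one_mul q) _ _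

/-- **the `α`-old lifts** -/
theorem exists_alpha_lifts (h2 : q = 2 → 3 ∣ N') (h3 : q = 3 → 2 ∣ N') :
    ∃ m0 : ℕ, ∀ m : ℕ, m0 ≤ m → ∀ y ∈ Lfib 𝕜 (tauF (N' * q) A) (m : ℤ), ∃ x,
      ∃ hx : x ∈ (ballFN (N' * q) A h').B,
      RegFin Kbar (jF (N' * q) * jdF (N' * q) q h'.dvd)⁻¹ ((jF (N' * q))⁻¹ ^ m * x) ∧
        (ballFN (N' * q) A h').red ⟨x, hx⟩ = (y, psiFN (N' * q) A h' hA y) := by
  have hqN' : ¬ q ∣ N' := not_dvd_good N' h'
  obtain ⟨n0, hn0⟩ := Fermat.Agent.GK.LfibLift.exists_lift_Lfib_jF N' A hA hqN' h2 h3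
  refine ⟨n0, fun m hm y hy => ?_⟩
  set y' : FresBar N' A := (goodEquiv A hA N' h').symm y with hy'def
  have hy' : y' ∈ Lfib 𝕜 (jt N' A) (m : ℤ) := by
    rw [← mem_Lfib_goodEquiv_iff A hA N' h', hy'def, AlgEquiv.apply_symm_apply]
    exact hy
  obtain ⟨f, hf, -, hfr, hfi, hfred⟩ := hn0 m hm y' hy'
  have hfredL : (((redDataBar N' A).red ⟨f, hf⟩ : FresBar N' A) : LaurentSeries 𝕜) =
      (y : LaurentSeries 𝕜) := by
    rw [hfred]
    exact coe_goodEquiv_symm A hA N' h' y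
  have hB := alphaB_mem_BRing (h := h') hfr hf
  obtain ⟨-, hx1, hx2⟩ := mem_BRing.mp hB
  have hβ1 : betaB N' q f ∈ (redDataBar (N' * q) A).Rw := (beta_mem_RwBar_iff N' q A f).mpr hf
  have hred1 : (redDataBar (N' * q) A).IsRed (alphaB N' q f) y := by
    refine ⟨hx1, Subtype.ext ?_⟩
    exact (coe_red_alpha N' q A ⟨f, hf⟩ hx1).trans hfredL
  have hred2 : (redData2 (N' * q) A h').IsRed (alphaB N' q f) (psiFN (N' * q) A h' hA y) := by
    refine ⟨hx2, ?_⟩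
    rw [red2_alphaB f hx2 hβ1]
    apply Subtype.ext
    rw [coe_psiFN]
    exact (coe_red_beta N' q A ⟨f, hf⟩ hβ1).trans (congrArg _ hfredL)
  refine ⟨alphaB N' q f, mem_B_of_isRed _ hred1 hred2, ?_, red_ballFN _ A h' hred1 hred2 _⟩
  apply regFin_symInv_of_inv_jF (N' * q) h'.prime h'.dvd
  have e1 : (jF (N' * q))⁻¹ ^ m * alphaB N' q f = alphaB N' q ((jF N')⁻¹ ^ m * f) := by
    rw [map_mul, map_pow, alphaB_inv_jF]
  rw [e1]
  exact Fermat.Agent.GK.QS.RegFin.map_algHom (alphaB N' q)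
    (by rw [alphaB_inv_jF]; exact regFin_self _) hfi

/-- **the `β`-old lifts** -/
theorem exists_beta_lifts (h2 : q = 2 → 3 ∣ N') (h3 : q = 3 → 2 ∣ N') :
    ∃ m0 : ℕ, ∀ m : ℕ, m0 ≤ m → ∀ y ∈ Lfib 𝕜 (tauF (N' * q) A) (m : ℤ), ∃ x,
      ∃ hx : x ∈ (ballFN (N' * q) A h').B,
      RegFin Kbar (jF (N' * q) * jdF (N' * q) q h'.dvd)⁻¹
          ((jdF (N' * q) q h'.dvd)⁻¹ ^ m * x) ∧
        (ballFN (N' * q) A h').red ⟨x, hx⟩ = (psiFN (N' * q) A h' hA y, y) := by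
  have hqN' : ¬ q ∣ N' := not_dvd_good N' h'
  obtain ⟨n0, hn0⟩ := Fermat.Agent.GK.LfibLift.exists_lift_Lfib_jF N' A hA hqN' h2 h3
  refine ⟨n0, fun m hm y hy => ?_⟩
  set y' : FresBar N' A := (goodEquiv A hA N' h').symm y with hy'def
  have hy' : y' ∈ Lfib 𝕜 (jt N' A) (m : ℤ) := by
    rw [← mem_Lfib_goodEquiv_iff A hA N' h', hy'def, AlgEquiv.apply_symm_apply]
    exact hy
  obtain ⟨f, hf, -, hfr, hfi, hfred⟩ := hn0 m hm y' hy'
  have hfredL : (((redDataBar N' A).red ⟨f, hf⟩ : FresBar N' A) : LaurentSeries 𝕜) =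
      (y : LaurentSeries 𝕜) := by
    rw [hfred]
    exact coe_goodEquiv_symm A hA N' h' y
  have hB := betaB_mem_BRing (h := h') hfr hf
  obtain ⟨-, hx1, hx2⟩ := mem_BRing.mp hB
  have hα1 : alphaB N' q f ∈ (redDataBar (N' * q) A).Rw := (alpha_mem_RwBar_iff N' q A f).mpr hf
  have hred1 : (redDataBar (N' * q) A).IsRed (betaB N' q f) (psiFN (N' * q) A h' hA y) := by
    refine ⟨hx1, Subtype.ext ?_⟩
    rw [coe_psiFN]
    exact (coe_red_beta N' q A ⟨f, hf⟩ hx1).trans (congrArg _ hfredL)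
  have hred2 : (redData2 (N' * q) A h').IsRed (betaB N' q f) y := by
    refine ⟨hx2, ?_⟩
    rw [red2_betaB f hx2 hα1]
    apply Subtype.ext
    exact (coe_red_alpha N' q A ⟨f, hf⟩ hα1).trans hfredL
  refine ⟨betaB N' q f, mem_B_of_isRed _ hred1 hred2, ?_, red_ballFN _ A h' hred1 hred2 _⟩
  apply regFin_symInv_of_inv_jq (N' * q) h'.prime h'.dvd
  have e1 : (jdF (N' * q) q h'.dvd)⁻¹ ^ m * betaB N' q f = betaB N' q ((jF N')⁻¹ ^ m * f) := by
    rw [map_mul, map_pow, betaB_inv_jF N' h']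
  rw [e1]
  exact Fermat.Agent.GK.QS.RegFin.map_algHom (betaB N' q)
    (by rw [betaB_inv_jF N' h']; exact regFin_self _) hfi

/-! ### general level `N`, `q ∥ N` (the binders of `HdimTFN.exists_hdimT_FN` and of helper56's
`nonempty_ssPackage_of_fibre`) -/

section General

variable {p : ℕ} (N : ℕ) [NeZero N] [NeZero p] (B : ValuationSubring Kbar) (h : ExactDvd p N)
  (hB : B.LiesOverPrime p)

/-- **the `α`-old lifts at any level `N`, `q ∥ N`** (`hα` of `exists_hdimT_FN`) -/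
theorem exists_alpha_lifts_FN (h2 : p = 2 → 3 ∣ N) (h3 : p = 3 → 2 ∣ N) :
    ∃ mα : ℕ, ∀ m : ℕ, mα ≤ m → ∀ y ∈ Lfib (ResidueField B) (tauF N B) (m : ℤ), ∃ x,
      ∃ hx : x ∈ (ballFN N B h).B,
      RegFin Kbar (jF N * jdF N p h.dvd)⁻¹ ((jF N)⁻¹ ^ m * x) ∧
        (ballFN N B h).red ⟨x, hx⟩ = (y, psiFN N B h hB y) := by
  obtain ⟨N', rfl⟩ := exists_eq_mul_left_of_dvd h.dvd
  haveI : Fact p.Prime := ⟨h.prime⟩
  haveI : NeZero N' := ⟨fun h0 => NeZero.ne (N' * p) (by rw [h0, zero_mul])⟩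
  have hpN' : ¬ p ∣ N' := not_dvd_good N' h
  refine exists_alpha_lifts B hB N' h (fun e => ?_) (fun e => ?_)
  · have h3N := h2 e
    subst e
    exact (Nat.Coprime.dvd_mul_right (by norm_num : Nat.Coprime 3 2)).mp h3N
  · have h2N := h3 e
    subst e
    exact (Nat.Coprime.dvd_mul_right (by norm_num : Nat.Coprime 2 3)).mp h2N

/-- **the `β`-old lifts at any level `N`, `q ∥ N`** (`hβ` of `exists_hdimT_FN`) -/
theorem exists_beta_lifts_FN (h2 : p = 2 → 3 ∣ N) (h3 : p = 3 → 2 ∣ N) :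
    ∃ mβ : ℕ, ∀ m : ℕ, mβ ≤ m → ∀ y ∈ Lfib (ResidueField B) (tauF N B) (m : ℤ), ∃ x,
      ∃ hx : x ∈ (ballFN N B h).B,
      RegFin Kbar (jF N * jdF N p h.dvd)⁻¹ ((jdF N p h.dvd)⁻¹ ^ m * x) ∧
        (ballFN N B h).red ⟨x, hx⟩ = (psiFN N B h hB y, y) := by
  obtain ⟨N', rfl⟩ := exists_eq_mul_left_of_dvd h.dvd
  haveI : Fact p.Prime := ⟨h.prime⟩
  haveI : NeZero N' := ⟨fun h0 => NeZero.ne (N' * p) (by rw [h0, zero_mul])⟩
  refine exists_beta_lifts B hB N' h (fun e => ?_) (fun e => ?_)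
  · have h3N := h2 e
    subst e
    exact (Nat.Coprime.dvd_mul_right (by norm_num : Nat.Coprime 3 2)).mp h3N
  · have h2N := h3 e
    subst e
    exact (Nat.Coprime.dvd_mul_right (by norm_num : Nat.Coprime 2 3)).mp h2N

end General

end Fermat.Agent.GK.OldLiftsFN
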