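import Fermat.Agent.GK.Flat.Pencil
import Fermat.Agent.GK.Flat.PencilInstS
import Fermat.Agent.GK.MultiVal.NormBall
import Fermat.Agent.GJ.J1.RiemannFinal
import Fermat.Agent.GJ.J1.GenusBridge2

/-!
# GATE-K / N7d-GLUE : the number of nodes (helper94)

The numerical end of the flatness count (board 2196 (ii), RULING 4 of 2247):

* `card_eq_of_eventually_eq` : two filtrations `S n`, `T n` of a `k`-module which agree for
  large `n`, with `dim S n = n d + 1 - g` and `dim T n = n (d₁ + d₂) + ℓ₁ + ℓ₂ - g₁ - g₂ - c`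
  for large `n`, satisfy `d = d₁ + d₂` and `c + g₁ + g₂ + 1 = g + ℓ₁ + ℓ₂`.
* `finrank_redBall_Lfib` : for a norm pair `(A, B, I)` with orthonormal bases and a reduction
  system (helper90's `GK/MultiVal/NormBall`), the reduction of the unit ball of the
  Riemann–Roch space `Lfib K t n` of the generic fibre satisfies Riemann's theorem with the
  genus `gLat K t` of the GENERIC fibre:
  `dim_k redBall (Lfib K t n) + gLat K t = n [F : K(t)] + 1` for `n ≥ n₀`.
* `card_nodes_eq_redBall` : both combined, `S n := redBall (Lfib K t n)`.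
-/

set_option autoImplicit false

namespace Fermat.Agent.GK.CardNodes

open Module IntermediateField Fermat.Agent.GJ.J1 Fermat.Agent.GK.MultiVal

section Numerical

variable {k Ω : Type*} [Field k] [AddCommGroup Ω] [Module k Ω]

/-- **Numerical glue.** If `S N = T N` for large `N` and both dimensions are affine-linear of the
indicated shapes, the slopes and the constant terms agree. -/
theorem card_eq_of_eventually_eq (S T : ℕ → Submodule k Ω)
    (heq : ∃ N0 : ℕ, ∀ N, N0 ≤ N → S N = T N)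
    (d g : ℤ) (n1 : ℕ) (hS : ∀ n : ℕ, n1 ≤ n → (finrank k (S n) : ℤ) = n * d + 1 - g)
    (d1 d2 l1 l2 g1 g2 c : ℤ) (n0 : ℕ)
    (hT : ∀ n : ℕ, n0 ≤ n →
      (finrank k (T n) : ℤ) = n * (d1 + d2) + l1 + l2 - g1 - g2 - c) :
    d = d1 + d2 ∧ c + g1 + g2 + 1 = g + l1 + l2 := by
  obtain ⟨N0, hN0⟩ := heq
  set M := N0 + n0 + n1 with hM
  have e0 : (finrank k (S M) : ℤ) = finrank k (T M) := by rw [hN0 M (by omega)]
  have e1 : (finrank k (S (M + 1)) : ℤ) = finrank k (T (M + 1)) := by
    rw [hN0 (M + 1) (by omega)]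
  rw [hS M (by omega), hT M (by omega)] at e0
  rw [hS (M + 1) (by omega), hT (M + 1) (by omega)] at e1
  push_cast at e0 e1
  have hd : d = d1 + d2 := by linarith
  refine ⟨hd, ?_⟩
  subst hd
  linarith

end Numerical

section RedBall

variable {K F : Type*} [Field K] [Field F] [Algebra K F]
variable {A : ValuationSubring K} {B : Subring F} {I : AddSubgroup F}
  {k Λ : Type*} [Field k] [AddCommGroup Λ] [Module k Λ] {res : A →+* k} {red : B →+ Λ}
  {h : IsNormPair A B I}

/-- **Riemann's theorem for the reduced unit balls**, with the genus of the generic fibre. -/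
theorem finrank_redBall_Lfib [IsAlgClosed K] (ho : HasOrthoBases A B I)
    (hR : IsRedSystem A B I res red h) (t : F) (ht : Transcendental K t)
    [FiniteDimensional K⟮t⟯ F] [Algebra.IsSeparable K⟮t⟯ F] :
    (∀ n : ℤ, FiniteDimensional k (redBall (k := k) B red (Lfib K t n))) ∧
    ∃ n0 : ℕ, ∀ n : ℕ, n0 ≤ n →
      (finrank k (redBall (k := k) B red (Lfib K t (n : ℤ))) : ℤ)
        = n * (finrank K⟮t⟯ F : ℤ) + 1 - gLat K t := by
  obtain ⟨hfd, -, n0, hn0⟩ := G1.finrank_Lfib (K := K) t ht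
  refine ⟨fun n => ?_, n0.toNat, fun n hn => ?_⟩
  · have := hfd n
    exact ho.finiteDimensional_redBall hR (Lfib K t n)
  · have := hfd (n : ℤ)
    rw [ho.finrank_redBall hR (Lfib K t (n : ℤ))]
    have h1 := hn0 (n : ℤ) (by
      have : n0 ≤ (n0.toNat : ℤ) := Int.self_le_toNat n0
      have : (n0.toNat : ℤ) ≤ n := by exact_mod_cast hn
      omega)
    linarith

/-- **The number of nodes** (`c`) from the flatness equality `S N = T N`, `S n` the reduction of
the unit ball of `Lfib K t n`:  `c + g₁ + g₂ + 1 = gLat K t + ℓ₁ + ℓ₂` and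
`[F : K(t)] = d₁ + d₂`. -/
theorem card_nodes_eq_redBall [IsAlgClosed K] (ho : HasOrthoBases A B I)
    (hR : IsRedSystem A B I res red h) (t : F) (ht : Transcendental K t)
    [FiniteDimensional K⟮t⟯ F] [Algebra.IsSeparable K⟮t⟯ F]
    (T : ℕ → Submodule k Λ)
    (heq : ∃ N0 : ℕ, ∀ N, N0 ≤ N → redBall (k := k) B red (Lfib K t (N : ℤ)) = T N)
    (d1 d2 l1 l2 g1 g2 c : ℤ) (n0 : ℕ)
    (hT : ∀ n : ℕ, n0 ≤ n →
      (finrank k (T n) : ℤ) = n * (d1 + d2) + l1 + l2 - g1 - g2 - c) :
    (finrank K⟮t⟯ F : ℤ) = d1 + d2 ∧ c + g1 + g2 + 1 = gLat K t + l1 + l2 := by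
  obtain ⟨-, n1, hn1⟩ := finrank_redBall_Lfib ho hR t ht
  exact card_eq_of_eventually_eq
    (fun n : ℕ => redBall (k := k) B red (Lfib K t (n : ℤ))) T heq
    (finrank K⟮t⟯ F : ℤ) (gLat K t : ℤ) n1 hn1 d1 d2 l1 l2 g1 g2 c n0 hT

end RedBall

section Divisors

open AlgebraicCurve Fermat.Agent.RRh45 Fermat.Agent.GJ.J1.InstGen Fermat.Agent.GJ.J1.G0Genus

variable {K F : Type*} [Field K] [Field F] [Algebra K F]
variable [FiniteResidues K F] [HasPrincipalDivisors K F] [Nonempty (Place K F)]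
variable {A : ValuationSubring K} {B : Subring F} {I : AddSubgroup F}
  {k Λ : Type*} [Field k] [AddCommGroup Λ] [Module k Λ] {res : A →+* k} {red : B →+ Λ}
  {h : IsNormPair A B I}

/-- **Riemann's theorem for the reduced unit ball of `L(D)`**, any divisor `D` of the generic
fibre with `deg D ≥ boundRR K F`, with the genus of the generic fibre
(the `dim Λ_y(n)` input of `LamData.dim`). -/
theorem finrank_redBall_riemannRochSpace [IsAlgClosed K] (ho : HasOrthoBases A B I)
    (hR : IsRedSystem A B I res red h) (t : F) (ht : Transcendental K t)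
    [FiniteDimensional K⟮t⟯ F] [Algebra.IsSeparable K⟮t⟯ F] {D : Divisor K F}
    (hD : boundRR K F ≤ Divisor.degree D) :
    FiniteDimensional k (redBall (k := k) B red (riemannRochSpace D)) ∧
    (finrank k (redBall (k := k) B red (riemannRochSpace D)) : ℤ)
      = Divisor.degree D + 1 - gLat K t := by
  have hfd : FiniteDimensional K (riemannRochSpace D) := inferInstance
  refine ⟨ho.finiteDimensional_redBall hR (riemannRochSpace D), ?_⟩
  rw [ho.finrank_redBall hR (riemannRochSpace D)]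
  exact finrank_riemannRochSpace_eq_gLat t ht hD

end Divisors

section LatS

open Fermat.Agent.GK.PencilInstS

variable {K F k Ω : Type*} [Field K] [Field F] [Algebra K F] [Field k] [CommRing Ω] [Algebra k Ω]

/-- helper66's `latS D t n = red (Lfib K t n ∩ B)` is helper90's `redBall` of `Lfib K t n`. -/
theorem latS_eq_redBall (D : BallRed K F k Ω) (t : F) (n : ℕ) :
    latS D t n = redBall (k := k) D.B D.red.toAddMonoidHom (Lfib K t (n : ℤ)) := by
  apply le_antisymm
  · rintro _ ⟨x, hx, hxL, rfl⟩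
    exact Submodule.subset_span ⟨⟨x, hx⟩, hxL, rfl⟩
  · refine Submodule.span_le.mpr ?_
    rintro _ ⟨x, hxL, rfl⟩
    exact ⟨(x : F), x.2, hxL, rfl⟩

/-- **`hdimS` of `PencilInstS.const_eq_of_latS` / `NodalCount.card_nodes_eq`** from helper90's
N2 package: `dim_k latS D t n = n [F : K(t)] + 1 - gLat K t` for `n ≥ n₁`. -/
theorem exists_finrank_latS [IsAlgClosed K] (D : BallRed K F k Ω) {I : AddSubgroup F}
    {h : IsNormPair D.A D.B I} (ho : HasOrthoBases D.A D.B I)
    (hR : IsRedSystem D.A D.B I D.res D.red.toAddMonoidHom h) (t : F) (ht : Transcendental K t)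
    [FiniteDimensional K⟮t⟯ F] [Algebra.IsSeparable K⟮t⟯ F] :
    (∀ n : ℕ, FiniteDimensional k (latS D t n)) ∧
    ∃ n1 : ℕ, ∀ n : ℕ, n1 ≤ n →
      (finrank k (latS D t n) : ℤ) = (finrank K⟮t⟯ F : ℤ) * n + 1 - gLat K t := by
  obtain ⟨hfd, n1, hn1⟩ := finrank_redBall_Lfib (k := k) ho hR t ht
  refine ⟨fun n => ?_, n1, fun n hn => ?_⟩
  · rw [latS_eq_redBall]
    exact hfd (n : ℤ)
  · rw [latS_eq_redBall, hn1 n hn]
    ring

end LatS

end Fermat.Agent.GK.CardNodes
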