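import Fermat.Agent.GK.Flat.NodesGe
import Fermat.Agent.GK.GenusFF

/-!
# GATE-K / N7d : the inputs `hg'`, `hdimT` of `Claim2.claim2_core` from the node count (helper66)

`claim2_core` (helper30, `GK/SS/Claim2Core.lean`) consumes the nodal geometry ONLY through

* `hg'   : genusRR K F ≤ g'`,
* `hdimT : ∀ n, c0 ≤ n → finrank k (P.T n) + g' ≤ n * finrank K⟮t⟯ F + 1`,

for the graded family `P.T n` (`= NodalGraded.T P Q D₁ D₂ n` by helper33's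
`TwistNodal.chartPair_T`).  With `g' := g₁ + g₂ + |Σ| - 1` (the arithmetic genus of the nodal
fibre) the first is the hard inequality `NodesGe.card_nodes_ge_gLat` and the second is helper34's
nodal Riemann theorem `NodalGraded.exists_finrank_T`.  `k` algebraically closed, so `ℓ(0) = 1`
(helper34 `GenusFF.finrank_L_zero_eq_one`).

* `genusRR_add_one_le` : `genusRR K F + 1 ≤ 2 genusFF k Ft + card ι`;
* `exists_hdimT` : `∃ g' c0 : ℕ, genusRR K F ≤ g' ∧ g' + 1 = 2 genusFF k Ft + card ι ∧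
  ∀ n ≥ c0, finrank k (T n) + g' = n * finrank K⟮t⟯ F + 1`.
-/

set_option autoImplicit false
set_option linter.unusedSectionVars false

noncomputable section

open AlgebraicCurve IntermediateField Module

namespace Fermat.Agent.GK.NodesGe

open Fermat.Agent.RRh45 Fermat.Agent.RR Fermat.Agent.S24
open Fermat.Agent.GJ.J1 Fermat.Agent.GJ.J1.InstRed Fermat.Agent.GJ.J1.InstGen
open Fermat.Agent.GK.PencilInstS Fermat.Agent.GK.PencilInf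
open Fermat.Agent.GK.NodalGraded Fermat.Agent.GK.NodalPole

variable {K F k Ft : Type*} [Field K] [Field F] [Algebra K F] [Field k] [Field Ft] [Algebra k Ft]
variable (D : BallRed K F k (Ft × Ft))
variable {ι : Type*} {P Q : ι → Place k Ft} {D₁ D₂ : Divisor k Ft} {t₁ t₂ : Ft}
variable [Fintype ι] [DecidableEq ι]
variable [FiniteResidues k Ft] [HasPrincipalDivisors k Ft] [Nonempty (Place k Ft)]
variable [FiniteResidues K F] [HasPrincipalDivisors K F] [Nonempty (Place K F)]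

/-- **`g(N) + 1 ≤ 2 g(N') + |Σ|`** in the genera `genusRR` (generic fibre) and `genusFF`
(components of the special fibre). -/
theorem genusRR_add_one_le [IsAlgClosed K] [IsAlgClosed k] (x₁ : Ft) [IsGen k x₁]
    {t : F} (ht : t ∈ D.B) (ht0 : t ≠ 0) (hti : t⁻¹ ∈ D.B)
    (htr : Transcendental K t) [FiniteDimensional K⟮t⟯ F] [Algebra.IsSeparable K⟮t⟯ F]
    (hdeg : (finrank K⟮t⟯ F : ℤ) = Divisor.degree D₁ + Divisor.degree D₂)
    (hred : D.red ⟨t, ht⟩ = (t₁, t₂))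
    (hP : Function.Injective P) (hQ : Function.Injective Q)
    (hdegP : ∀ j, (P j).deg = 1) (hdegQ : ∀ j, (Q j).deg = 1)
    (hD₁ : ∀ j, D₁ (P j) = 0) (hD₂ : ∀ j, D₂ (Q j) = 0)
    (hpos₁ : 0 < Divisor.degree D₁) (hpos₂ : 0 < Divisor.degree D₂)
    (ht₁ : ExactPoles t₁ D₁) (ht₂ : ExactPoles t₂ D₂)
    (hs : ((t₁, t₂) : Ft × Ft) ∈ T P Q D₁ D₂ 1)
    (Ψ : Ft →ₐ[k] Ft) (C₁ : Subalgebra k Ft) (hΨ : ∀ a ∈ C₁, Ψ a ∈ C₁)
    (hC1 : ∀ x, RegFin k t₁⁻¹ x → x ∈ C₁) (hC2 : ∀ x, RegFin k t₂⁻¹ x → x ∈ C₁)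
    (h1 : ∀ a ∈ C₁, (a, Ψ a) ∈ redAlg D t⁻¹) (h2 : ∀ b ∈ C₁, (Ψ b, b) ∈ redAlg D t⁻¹)
    {e : Ft × Ft} (he : e ∈ redAlg D t⁻¹) (he2 : e.2 ∈ C₁) {c : Ft} (hc : c ∈ C₁)
    (hec : e.1 - Ψ e.2 = 1 + c * t₁⁻¹)
    (hfin : ∀ n, ∀ z ∈ T P Q D₁ D₂ n, z ∈ redAlg D t) :
    genusRR K F + 1 ≤ (genusFF k Ft : ℤ) + genusFF k Ft + Fintype.card ι := by
  have key := card_nodes_ge_gLat D x₁ ht ht0 hti htr hdeg hred hP hQ hdegP hdegQ hD₁ hD₂
    hpos₁ hpos₂ ht₁ ht₂ hs Ψ C₁ hΨ hC1 hC2 h1 h2 he he2 hc hec hfin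
  rw [Fermat.Agent.GK.GenusFF.finrank_L_zero_eq_one (K := k) x₁] at key
  rw [G0Genus.genusRR_eq_gLat_of_separable (K := K) t htr]
  push_cast at key
  linarith

/-- **The inputs `g'`, `c0`, `hg'`, `hdimT` of `Claim2.claim2_core`** for the nodal graded
family `T n`, with `g' + 1 = 2 g(N') + |Σ|`. -/
theorem exists_hdimT [IsAlgClosed K] [IsAlgClosed k] (x₁ : Ft) [IsGen k x₁]
    {t : F} (ht : t ∈ D.B) (ht0 : t ≠ 0) (hti : t⁻¹ ∈ D.B)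
    (htr : Transcendental K t) [FiniteDimensional K⟮t⟯ F] [Algebra.IsSeparable K⟮t⟯ F]
    (hdeg : (finrank K⟮t⟯ F : ℤ) = Divisor.degree D₁ + Divisor.degree D₂)
    (hred : D.red ⟨t, ht⟩ = (t₁, t₂))
    (hP : Function.Injective P) (hQ : Function.Injective Q)
    (hdegP : ∀ j, (P j).deg = 1) (hdegQ : ∀ j, (Q j).deg = 1)
    (hD₁ : ∀ j, D₁ (P j) = 0) (hD₂ : ∀ j, D₂ (Q j) = 0)
    (hpos₁ : 0 < Divisor.degree D₁) (hpos₂ : 0 < Divisor.degree D₂)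
    (ht₁ : ExactPoles t₁ D₁) (ht₂ : ExactPoles t₂ D₂)
    (hs : ((t₁, t₂) : Ft × Ft) ∈ T P Q D₁ D₂ 1)
    (Ψ : Ft →ₐ[k] Ft) (C₁ : Subalgebra k Ft) (hΨ : ∀ a ∈ C₁, Ψ a ∈ C₁)
    (hC1 : ∀ x, RegFin k t₁⁻¹ x → x ∈ C₁) (hC2 : ∀ x, RegFin k t₂⁻¹ x → x ∈ C₁)
    (h1 : ∀ a ∈ C₁, (a, Ψ a) ∈ redAlg D t⁻¹) (h2 : ∀ b ∈ C₁, (Ψ b, b) ∈ redAlg D t⁻¹)
    {e : Ft × Ft} (he : e ∈ redAlg D t⁻¹) (he2 : e.2 ∈ C₁) {c : Ft} (hc : c ∈ C₁)
    (hec : e.1 - Ψ e.2 = 1 + c * t₁⁻¹)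
    (hfin : ∀ n, ∀ z ∈ T P Q D₁ D₂ n, z ∈ redAlg D t) :
    ∃ g' c0 : ℕ, genusRR K F ≤ (g' : ℤ) ∧
      g' + 1 = genusFF k Ft + genusFF k Ft + Fintype.card ι ∧
      ∀ n, c0 ≤ n → finrank k (T P Q D₁ D₂ n) + g' = n * finrank K⟮t⟯ F + 1 := by
  have key := genusRR_add_one_le D x₁ ht ht0 hti htr hdeg hred hP hQ hdegP hdegQ hD₁ hD₂
    hpos₁ hpos₂ ht₁ ht₂ hs Ψ C₁ hΨ hC1 hC2 h1 h2 he he2 hc hec hfin
  have hg0 : (0 : ℤ) ≤ genusRR K F := by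
    rw [G0Genus.genusRR_eq_gLat_of_separable (K := K) t htr]
    positivity
  obtain ⟨n₀, hn₀⟩ := exists_finrank_T (k := k) hP hQ hdegP hdegQ hD₁ hD₂ hpos₁ hpos₂
  have hpos : 1 ≤ genusFF k Ft + genusFF k Ft + Fintype.card ι := by
    have : (1 : ℤ) ≤ (genusFF k Ft : ℤ) + genusFF k Ft + Fintype.card ι := by linarith
    exact_mod_cast this
  refine ⟨genusFF k Ft + genusFF k Ft + Fintype.card ι - 1, n₀, ?_, by omega, fun n hn => ?_⟩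
  · have : ((genusFF k Ft + genusFF k Ft + Fintype.card ι - 1 : ℕ) : ℤ)
        = (genusFF k Ft : ℤ) + genusFF k Ft + Fintype.card ι - 1 := by
      rw [Nat.cast_sub hpos]
      push_cast
      ring
    rw [this]
    linarith
  · have h := hn₀ n hn
    rw [Fermat.Agent.GK.GenusFF.finrank_L_zero_eq_one (K := k) x₁, ← hdeg] at h
    have hz : ((finrank k (T P Q D₁ D₂ n) + (genusFF k Ft + genusFF k Ft + Fintype.card ι - 1)
        : ℕ) : ℤ) = ((n * finrank K⟮t⟯ F + 1 : ℕ) : ℤ) := by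
      rw [Nat.cast_add, Nat.cast_sub hpos]
      push_cast
      push_cast at h
      linarith
    exact_mod_cast hz

end Fermat.Agent.GK.NodesGe
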