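import Fermat.Agent.GK.Flat.PencilInstS

/-!
# GATE-K / N7d-INST-S, part 2 : the one-sided pencil count (helper66)

The HARD inequality `|Σ| ≥ 1 + g(N) - 2 g(N')` of the node count needs only

* the one-sided pencil count `T N ≤ S N` for large `N` (NO hypothesis `S n ≤ T n`, hence no
  reduction theorem K-RED at the chart `t`), and
* the TRIVIAL half of ORTH: `dim_k red (V ∩ B) ≤ dim_K V` (independent reductions lift to
  independent elements), proved here in `BallRed` language (`finrank_latS_le`).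

Main statements:

* `Pencil.eventually_le_of_pencil`, `Pencil.eventually_le_of_count` : one-sided abstract count.
* `exists_le_latS` : `∃ N0, ∀ N ≥ N0, T N ≤ latS D t N` from `hfin`, `hinf` only.
* `finrank_latS_le` : `latS D t n` is finite-dimensional of dimension `≤ dim_K Lfib K t n`.
* `const_le_of_latS` : `finrank (T n) = a n + b`, `finrank_K (Lfib K t n) = a n + b'` for large `n`
  ⟹ `b ≤ b'`  (i.e. `2 - g₁ - g₂ - |Σ| ≤ 1 - g`).
-/

namespace Fermat.Agent.GK.Pencil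

open Module Submodule

variable {k Ω : Type*} [Field k] [CommRing Ω] [Algebra k Ω]
variable (s0 s1 : Ω) (S T : ℕ → Submodule k Ω)

/-- One-sided pencil count: no hypothesis `S n ≤ T n`. -/
theorem eventually_le_of_pencil (n2 : ℕ) [FiniteDimensional k (T n2)]
    (hS0 : ∀ n, ∀ z ∈ S n, s0 * z ∈ S (n + 1)) (hS1 : ∀ n, ∀ z ∈ S n, s1 * z ∈ S (n + 1))
    (hpen : ∀ N, n2 + 1 ≤ N →
      T N ≤ (T (N - 1)).map (mulL s0) ⊔ (T (N - 1)).map (mulL s1))
    (hloc : ∀ z ∈ T n2, ∃ a, s0 ^ a * z ∈ S (n2 + a) ∧ s1 ^ a * z ∈ S (n2 + a)) :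
    ∃ N0, ∀ N, N0 ≤ N → T N ≤ S N := by
  obtain ⟨a, ha⟩ := exists_uniform s0 s1 S T n2 hS0 hS1 hloc
  refine ⟨n2 + 2 * a, fun N hN => ?_⟩
  obtain ⟨d, rfl⟩ : ∃ d, N = n2 + d := ⟨N - n2, by omega⟩
  exact (le_gen s0 s1 T n2 hpen d).trans (gen_le s0 s1 S T n2 a hS0 hS1 ha d (by omega))

/-- One-sided version of `eventually_eq_of_count`. -/
theorem eventually_le_of_count [∀ n, FiniteDimensional k (T n)]
    (hs0 : ∀ z, s0 * z = 0 → z = 0) (hs1 : ∀ z, s1 * z = 0 → z = 0)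
    (hS0 : ∀ n, ∀ z ∈ S n, s0 * z ∈ S (n + 1)) (hS1 : ∀ n, ∀ z ∈ S n, s1 * z ∈ S (n + 1))
    (hT0 : ∀ n, ∀ z ∈ T n, s0 * z ∈ T (n + 1)) (hT1 : ∀ n, ∀ z ∈ T n, s1 * z ∈ T (n + 1))
    (hint : ∀ n, ∀ x ∈ T (n + 1), ∀ y ∈ T (n + 1), s0 * x = s1 * y →
      ∃ w ∈ T n, x = s1 * w ∧ y = s0 * w)
    (a b : ℤ) (n0 : ℕ) (hdim : ∀ n, n0 ≤ n → (finrank k (T n) : ℤ) = a * n + b)
    (hloc : ∀ z ∈ T (n0 + 1),
      ∃ c, s0 ^ c * z ∈ S (n0 + 1 + c) ∧ s1 ^ c * z ∈ S (n0 + 1 + c)) :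
    ∃ N0, ∀ N, N0 ≤ N → T N ≤ S N := by
  refine eventually_le_of_pencil s0 s1 S T (n0 + 1) hS0 hS1 ?_ hloc
  intro N hN
  exact (pencil_step' s0 s1 T hs0 hs1 hT0 hT1 hint a b n0 hdim N (by omega)).le

end Fermat.Agent.GK.Pencil

namespace Fermat.Agent.GK.PencilInstS

open Module Fermat.Agent.GJ.J1 Fermat.Agent.GJ.J1.G1 Fermat.Agent.GJ.J1.InstRed
open Fermat.Agent.GK.Pencil

variable {K F k Ω : Type*} [Field K] [Field F] [Algebra K F] [Field k] [CommRing Ω] [Algebra k Ω]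
variable (D : BallRed K F k Ω)

section OneSided

variable [IsAlgClosed K] {t : F} (T : ℕ → Submodule k Ω)

/-- **One-sided N7d-INST-S**: `T N ≤ latS D t N` for all large `N`; no reduction theorem
(`latS ≤ T`) is needed. -/
theorem exists_le_latS [∀ n, FiniteDimensional k (T n)] (ht : t ∈ D.B) (ht0 : t ≠ 0)
    (hs1 : ∀ z : Ω, D.red ⟨t, ht⟩ * z = 0 → z = 0)
    (hT0 : ∀ n, T n ≤ T (n + 1))
    (hT1 : ∀ n, ∀ z ∈ T n, D.red ⟨t, ht⟩ * z ∈ T (n + 1))
    (h4 : ∀ n, ∀ w ∈ T (n + 1), D.red ⟨t, ht⟩ * w ∈ T (n + 1) → w ∈ T n)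
    (a b : ℤ) (n0 : ℕ) (hdim : ∀ n, n0 ≤ n → (finrank k (T n) : ℤ) = a * n + b)
    (hfin : ∀ z ∈ T (n0 + 1), ∃ x, ∃ hx : x ∈ D.B, RegFin K t x ∧ D.red ⟨x, hx⟩ = z)
    (hinf : ∀ z ∈ T (n0 + 1), ∃ y, ∃ hy : y ∈ D.B, RegFin K t⁻¹ y ∧
      D.red ⟨t, ht⟩ ^ (n0 + 1) * D.red ⟨y, hy⟩ = z) :
    ∃ N0, ∀ N, N0 ≤ N → T N ≤ latS D t N := by
  refine eventually_le_of_count (1 : Ω) (D.red ⟨t, ht⟩) (latS D t) T
    (fun z hz => by simpa using hz) hs1
    (fun n z hz => by rw [one_mul]; exact latS_mono D (Nat.le_succ n) hz)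
    (fun n z hz => red_t_mul_mem_latS D ht ht0 hz)
    (fun n z hz => by rw [one_mul]; exact hT0 n hz) hT1 ?_ a b n0 hdim ?_
  · intro n x hx y hy hxy
    rw [one_mul] at hxy
    refine ⟨y, h4 n y hy (hxy ▸ hx), hxy, (one_mul y).symm⟩
  · intro z hz
    obtain ⟨x, hx, hxr, rfl⟩ := hfin z hz
    obtain ⟨y, hy, hyr, hyz⟩ := hinf _ hz
    obtain ⟨M1, hM1⟩ := exists_mem_latS_of_regFin D ht0 hx hxr
    obtain ⟨M2, hM2⟩ := exists_pow_mul_mem_latS_of_regFin_inv D ht ht0 hy hyr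
    refine ⟨max M1 M2, ?_, ?_⟩
    · rw [one_pow, one_mul]
      exact hM1 _ (by have := le_max_left M1 M2; omega)
    · have h := hM2 (n0 + 1 + max M1 M2) (by have := le_max_right M1 M2; omega)
      have e : D.red ⟨t, ht⟩ ^ max M1 M2 * D.red ⟨x, hx⟩
          = D.red ⟨t, ht⟩ ^ (n0 + 1 + max M1 M2) * D.red ⟨y, hy⟩ := by
        rw [← hyz, pow_add]
        ring
      rw [e]
      exact h

end OneSided

section TrivialOrth

/-- reduction of an `A`-linear combination of elements of the ball -/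
theorem red_sum_smul {ι : Type*} (s : Finset ι) (c : ι → D.A) (x : ι → F) (hx : ∀ i, x i ∈ D.B)
    (h : ∑ i ∈ s, algebraMap K F (c i : K) * x i ∈ D.B) :
    D.red ⟨∑ i ∈ s, algebraMap K F (c i : K) * x i, h⟩
      = ∑ i ∈ s, D.res (c i) • D.red ⟨x i, hx i⟩ := by
  classical
  have e : (⟨∑ i ∈ s, algebraMap K F (c i : K) * x i, h⟩ : D.B)
      = ∑ i ∈ s, (⟨algebraMap K F (c i : K), D.algebraMap_mem (c i)⟩ : D.B) * ⟨x i, hx i⟩ := by
    apply Subtype.ext
    rw [AddSubmonoidClass.coe_finsetSum]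
    rfl
  rw [e, map_sum]
  refine Finset.sum_congr rfl fun i _ => ?_
  rw [map_mul, D.red_algebraMap, Algebra.smul_def]

/-- **Trivial half of ORTH**: elements of the ball with `k`-linearly independent reductions are
`K`-linearly independent. -/
theorem linearIndependent_of_red {ι : Type*} [Fintype ι] (x : ι → F) (hx : ∀ i, x i ∈ D.B)
    (hli : LinearIndependent k (fun i => D.red ⟨x i, hx i⟩)) : LinearIndependent K x := by
  classical
  rw [Fintype.linearIndependent_iff]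
  intro g hg
  by_contra hne
  push Not at hne
  obtain ⟨i1, hi1⟩ := hne
  -- the coefficient of maximal valuation
  obtain ⟨i0, -, hmax⟩ := Finset.exists_max_image Finset.univ (fun i => D.A.valuation (g i))
    ⟨i1, Finset.mem_univ _⟩
  have hg0 : g i0 ≠ 0 := by
    intro h0
    have := hmax i1 (Finset.mem_univ _)
    rw [h0, map_zero] at this
    exact hi1 ((map_eq_zero _).mp (le_antisymm this zero_le))
  have hcA : ∀ i, (g i0)⁻¹ * g i ∈ D.A := by
    intro i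
    rw [← ValuationSubring.valuation_le_one_iff, map_mul, map_inv₀]
    have hv0 : D.A.valuation (g i0) ≠ 0 := (map_ne_zero _).mpr hg0
    rw [inv_mul_le_iff₀ (zero_lt_iff.mpr hv0), mul_one]
    exact hmax i (Finset.mem_univ _)
  let c : ι → D.A := fun i => ⟨(g i0)⁻¹ * g i, hcA i⟩
  have hsum : ∑ i, algebraMap K F (c i : K) * x i = 0 := by
    have : ∑ i, algebraMap K F (c i : K) * x i = (g i0)⁻¹ • ∑ i, g i • x i := by
      rw [Finset.smul_sum]
      refine Finset.sum_congr rfl fun i _ => ?_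
      rw [Algebra.smul_def, Algebra.smul_def, ← mul_assoc, ← map_mul]
    rw [this, hg, smul_zero]
  have hmem : ∑ i, algebraMap K F (c i : K) * x i ∈ D.B := by rw [hsum]; exact D.B.zero_mem
  have hred := red_sum_smul D Finset.univ c x hx hmem
  have hz : D.red ⟨∑ i, algebraMap K F (c i : K) * x i, hmem⟩ = 0 := by
    have : (⟨∑ i, algebraMap K F (c i : K) * x i, hmem⟩ : D.B) = 0 := Subtype.ext hsum
    rw [this, map_zero]
  rw [hz] at hred
  have h0 := Fintype.linearIndependent_iff.mp hli (fun i => D.res (c i)) hred.symm i0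
  have hc1 : c i0 = 1 := Subtype.ext (inv_mul_cancel₀ hg0)
  rw [hc1, map_one] at h0
  exact one_ne_zero h0

variable {t : F}

/-- `dim_k red (L(n (t)_∞) ∩ B) ≤ dim_K L(n (t)_∞)`. -/
theorem finrank_latS_le (n : ℕ) [FiniteDimensional K (Lfib K t (n : ℤ))] :
    Module.Finite k (latS D t n) ∧ finrank k (latS D t n) ≤ finrank K (Lfib K t (n : ℤ)) := by
  classical
  have key : ∀ s : Finset (latS D t n), LinearIndependent k (fun i : s => (i : latS D t n)) →
      s.card ≤ finrank K (Lfib K t (n : ℤ)) := by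
    intro s hs
    have hex : ∀ i : s, ∃ x, ∃ hx : x ∈ D.B, x ∈ Lfib K t (n : ℤ) ∧
        D.red ⟨x, hx⟩ = ((i : latS D t n) : Ω) := fun i => (i : latS D t n).2
    choose x hxB hxL hxr using hex
    have hli : LinearIndependent k (fun i : s => D.red ⟨x i, hxB i⟩) := by
      have h1 : LinearIndependent k (fun i : s => (((i : latS D t n)) : Ω)) :=
        hs.map' (latS D t n).subtype (Submodule.ker_subtype _)
      have e : (fun i : s => D.red ⟨x i, hxB i⟩) = fun i : s => (((i : latS D t n)) : Ω) :=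
        funext hxr
      rw [e]
      exact h1
    have hK : LinearIndependent K x := linearIndependent_of_red D x hxB hli
    have hK' : LinearIndependent K (fun i : s => (⟨x i, hxL i⟩ : Lfib K t (n : ℤ))) := by
      apply LinearIndependent.of_comp (Lfib K t (n : ℤ)).subtype
      exact hK
    have := hK'.fintype_card_le_finrank
    simpa using this
  have hrank : Module.rank k (latS D t n) ≤ (finrank K (Lfib K t (n : ℤ)) : ℕ) :=
    rank_le key
  have hfinite : Module.Finite k (latS D t n) :=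
    Module.rank_lt_aleph0_iff.mp (lt_of_le_of_lt hrank Cardinal.natCast_lt_aleph0)
  refine ⟨hfinite, ?_⟩
  have := Module.finrank_eq_rank (R := k) (M := latS D t n)
  rw [← this] at hrank
  exact_mod_cast hrank

/-- **The hard inequality of the node count**, numerical form: if `finrank_k (T n) = a n + b`
and `finrank_K (Lfib K t n) = a n + b'` for large `n` (same leading coefficient `a = [F : K(t)]`
`= deg D₁ + deg D₂`), then `b ≤ b'`, i.e. `2 - g₁ - g₂ - |Σ| ≤ 1 - g`. -/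
theorem const_le_of_latS [IsAlgClosed K] (T : ℕ → Submodule k Ω) [∀ n, FiniteDimensional k (T n)]
    [∀ n : ℕ, FiniteDimensional K (Lfib K t (n : ℤ))] (ht : t ∈ D.B) (ht0 : t ≠ 0)
    (hs1 : ∀ z : Ω, D.red ⟨t, ht⟩ * z = 0 → z = 0)
    (hT0 : ∀ n, T n ≤ T (n + 1))
    (hT1 : ∀ n, ∀ z ∈ T n, D.red ⟨t, ht⟩ * z ∈ T (n + 1))
    (h4 : ∀ n, ∀ w ∈ T (n + 1), D.red ⟨t, ht⟩ * w ∈ T (n + 1) → w ∈ T n)
    (a b : ℤ) (n0 : ℕ) (hdim : ∀ n, n0 ≤ n → (finrank k (T n) : ℤ) = a * n + b)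
    (hfin : ∀ z ∈ T (n0 + 1), ∃ x, ∃ hx : x ∈ D.B, RegFin K t x ∧ D.red ⟨x, hx⟩ = z)
    (hinf : ∀ z ∈ T (n0 + 1), ∃ y, ∃ hy : y ∈ D.B, RegFin K t⁻¹ y ∧
      D.red ⟨t, ht⟩ ^ (n0 + 1) * D.red ⟨y, hy⟩ = z)
    (b' : ℤ) (hdimK : ∀ n : ℕ, n0 ≤ n → (finrank K (Lfib K t (n : ℤ)) : ℤ) = a * n + b') :
    b ≤ b' := by
  obtain ⟨N0, hN0⟩ := exists_le_latS D T ht ht0 hs1 hT0 hT1 h4 a b n0 hdim hfin hinf
  set M := max N0 n0 with hM
  obtain ⟨hfinite, hle⟩ := finrank_latS_le D (t := t) M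
  have h1 : finrank k (T M) ≤ finrank k (latS D t M) :=
    Submodule.finrank_mono (hN0 M (le_max_left _ _))
  have h2 : (finrank k (T M) : ℤ) ≤ finrank K (Lfib K t (M : ℤ)) := by
    exact_mod_cast h1.trans hle
  rw [hdim M (le_max_right _ _), hdimK M (le_max_right _ _)] at h2
  linarith

end TrivialOrth

end Fermat.Agent.GK.PencilInstS
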