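/-
GATE-K (helper49): the symmetric chart `t = j * j_q` has rational `q`-expansion, hence is fixed by
the coefficientwise Galois action (`htgal` of helper44's `ssPackage_twoRed` / `ssPackage_chart`).
-/
import Fermat.Agent.GK.AL.WGal
import Fermat.Agent.GK.Cusp.SymChart

set_option autoImplicit false

noncomputable section

namespace Fermat.Agent.GK.TSGal

open Fermat.Agent.S24 Fermat.Agent.S24_helper62 ModularCurve Fermat.Agent.GK.AL

variable (N : ℕ) [NeZero N]

theorem arith_jF (σ : Kbar ≃ₐ[ℚ] Kbar) :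
    arithmeticRingAut (modularFunctionFieldFull N) σ (jF N) = jF N := by
  have h1 : jF N = gen N ⟨1, one_dvd N⟩ := (gen_eq_jdF (N := N) ⟨1, one_dvd N⟩).symm
  rw [h1]
  exact galF_gen σ _

theorem arith_jdF (σ : Kbar ≃ₐ[ℚ] Kbar) (d : ℕ) [NeZero d] (hd : d ∣ N) :
    arithmeticRingAut (modularFunctionFieldFull N) σ (jdF N d hd) = jdF N d hd := by
  have h1 : jdF N d hd = gen N ⟨d, hd⟩ := (gen_eq_jdF (N := N) ⟨d, hd⟩).symm
  rw [h1]
  exact galF_gen σ _

/-- **`htgal`**: the symmetric chart `j * j_q` is Galois-fixed -/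
theorem arith_tS {q : ℕ} [NeZero q] (hqN : q ∣ N) (σ : Kbar ≃ₐ[ℚ] Kbar) :
    arithmeticRingAut (modularFunctionFieldFull N) σ (jF N * jdF N q hqN) =
      jF N * jdF N q hqN := by
  rw [map_mul, arith_jF, arith_jdF]

/-- the same for helper23's `SymChart.tS` -/
theorem arith_tS' {q : ℕ} [NeZero q] (hqN : q ∣ N) (σ : Kbar ≃ₐ[ℚ] Kbar) :
    arithmeticRingAut (modularFunctionFieldFull N) σ (Fermat.Agent.GK.SymChart.tS N hqN) =
      Fermat.Agent.GK.SymChart.tS N hqN :=
  arith_tS N hqN σ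

end Fermat.Agent.GK.TSGal
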